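/-
S55 / block DICT : definitions.  The dictionary between
* block NIT : abstract number fields `K ⊆ L`, places `Pl K = HeightOneSpectrum (𝓞 K)`, local
  conditions by approximation (`locNorm`, `locPow`), and
* the "function language" of COH/LOC/BR/UNITS : `IndMod (GQ ⧸ U) Kx`, invariants under the
  decomposition group of a valuation subring of `ℚ̄`.
A number field is a type `K` with `[Field K] [NumberField K] [Algebra K Qb]`.
-/
import Fermat.Agent.S55.Arith.Defs
import Fermat.Agent.S55.Coh.SetDefs
import Fermat.Agent.S55.NIT.Defs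

set_option autoImplicit false

namespace Fermat.Agent.S55.Dict

open scoped Pointwise
open NumberField IsDedekindDomain
open Fermat.Agent.S55.NIT (Pl)

/-- The decomposition group of a valuation subring of `ℚ̄`. -/
noncomputable abbrev Dec (B : ValuationSubring Qb) : Subgroup GQ := B.decompositionSubgroup ℚ

theorem mem_Dec {B : ValuationSubring Qb} {g : GQ} : g ∈ Dec B ↔ g • B = B := Iff.rfl

/-- `x ≡ y` modulo `q ^ n B`. -/
def Close (B : ValuationSubring Qb) (q n : ℕ) (x y : Qb) : Prop :=
  ∃ c ∈ B, x - y = (q : Qb) ^ n * c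

section one

variable (K : Type) [Field K] [Algebra K Qb]

/-- The subgroup of `GQ` fixing the image of `K`. -/
def fixG : Subgroup GQ where
  carrier := {g | ∀ x : K, g (algebraMap K Qb x) = algebraMap K Qb x}
  one_mem' _ := rfl
  mul_mem' := by
    intro a b ha hb x
    show a (b (algebraMap K Qb x)) = algebraMap K Qb x
    rw [hb x, ha x]
  inv_mem' := by
    intro a ha x
    show a.symm (algebraMap K Qb x) = algebraMap K Qb x
    rw [AlgEquiv.symm_apply_eq, ha x]

variable {K} in
theorem mem_fixG {g : GQ} : g ∈ fixG K ↔ ∀ x : K, g (algebraMap K Qb x) = algebraMap K Qb x :=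
  Iff.rfl

/-- `t` lies in the henselisation of `K` at `B` (the fixed field of `Dec B ⊓ fixG K`). -/
def InHens (B : ValuationSubring Qb) (t : Qb) : Prop := ∀ g ∈ Dec B, g ∈ fixG K → g t = t

/-- The image of a unit of `K` in `Kx`. -/
noncomputable def kx (a : Kˣ) : Kx := Additive.ofMul (Units.map (algebraMap K Qb : K →* Qb) a)

variable {K} in
@[simp] theorem kx_val (a : Kˣ) : (kx K a).val = algebraMap K Qb (a : K) := rfl

variable {K} in
theorem kx_mul (a b : Kˣ) : kx K (a * b) = kx K a + kx K b := by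
  simp [kx, map_mul]

variable {K} in
theorem smul_kx_of_mem {g : GQ} (hg : g ∈ fixG K) (a : Kˣ) : g • kx K a = kx K a := by
  apply Additive.toMul.injective
  apply Units.ext
  exact hg a

/-- The global element `g U_K ↦ g a` of `Map(X_K, ℚ̄ˣ)` attached to `a ∈ Kˣ`. -/
noncomputable def glob (a : Kˣ) : IndMod (GQ ⧸ fixG K) Kx :=
  IndMod.of (cosetToSet (fixG K) (kx K a) fun _ hu => smul_kx_of_mem hu a)

variable {K} in
@[simp] theorem glob_mk (a : Kˣ) (g : GQ) : glob K a (g : GQ ⧸ fixG K) = g • kx K a := rfl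

end one

section place

variable (K : Type) [Field K] [NumberField K] [Algebra K Qb]

/-- The place `v` of `K` lies below the valuation subring `B` of `ℚ̄`. -/
def Below (v : Pl K) (B : ValuationSubring Qb) : Prop :=
  ∀ x : 𝓞 K, x ∈ v.asIdeal ↔ algebraMap K Qb (x : K) ∈ B.nonunits

/-- `v` lies over the rational prime `q`. -/
def OverQ (q : ℕ) (v : Pl K) : Prop := (q : 𝓞 K) ∈ v.asIdeal

end place

section two

variable (K L : Type) [Field K] [Field L] [Algebra K L] [Algebra K Qb] [Algebra L Qb]
  [IsScalarTower K L Qb]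

theorem fixG_le : fixG L ≤ fixG K := by
  intro g hg x
  rw [IsScalarTower.algebraMap_apply K L Qb]
  exact hg _

/-- `X_L → X_K`. -/
noncomputable abbrev proj : (GQ ⧸ fixG L) →[GQ] (GQ ⧸ fixG K) := cosetMap (fixG_le K L)

end two

/-- The elements of `Map(X, ℚ̄ˣ)` invariant under a subgroup `D` of `GQ`. -/
def invD (D : Subgroup GQ) (X : Type) [MulAction GQ X] : AddSubgroup (IndMod X Kx) where
  carrier := {f | ∀ d ∈ D, d • f = f}
  zero_mem' d _ := smul_zero d
  add_mem' ha hb d hd := by rw [smul_add, ha d hd, hb d hd]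
  neg_mem' ha d hd := by rw [smul_neg, ha d hd]

theorem mem_invD {D : Subgroup GQ} {X : Type} [MulAction GQ X] {f : IndMod X Kx} :
    f ∈ invD D X ↔ ∀ d ∈ D, d • f = f := Iff.rfl

/-- `c` is the value at `x ∈ X_K` of the norm of a `Dec B`-invariant element of `Map(X_L, ℚ̄ˣ)`:
"`c` is a local norm at the place `Dec B · x`". -/
def IsLocNormAt (K L : Type) [Field K] [Field L] [Algebra K L] [Algebra K Qb] [Algebra L Qb]
    [IsScalarTower K L Qb] [Finite (GQ ⧸ fixG L)] (B : ValuationSubring Qb) (x : GQ ⧸ fixG K)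
    (c : Kx) : Prop :=
  ∃ f ∈ invD (Dec B) (GQ ⧸ fixG L), IndMod.push Kx (proj K L) f x = c

end Fermat.Agent.S55.Dict
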