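/-
S55 / block DICT : definitions of the FIELD-FREE final exports (function language only).
`X' → X` finite `GQ`-sets (in practice `GQ ⧸ U' → GQ ⧸ U`), `pl q` the chosen valuation subring
over `q`, `invD (Dec (pl q)) X` = local elements, `invD ⊤ X` = global elements.
-/
import Fermat.Agent.S55.Dict.Defs
import Fermat.Agent.S55.Formal.Contract
import Fermat.Agent.S55.NIT.Assembly
import Fermat.Agent.S55.NIT.SI.Defs
import Fermat.Agent.S55.NIT.Loc.Defs

set_option autoImplicit false

namespace Fermat.Agent.S55.Dict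

open scoped Pointwise
open NumberField IsDedekindDomain
open Fermat.Agent.S55.NIT (Pl)

/-- The chosen valuation subring of `ℚ̄` over `q`. -/
noncomputable abbrev pl (q : Nat.Primes) : ValuationSubring Qb := ExtCitation.primeLocalPlace q

section sets

variable {X' X : Type} [MulAction GQ X'] [MulAction GQ X] [Finite X']

/-- `a` is the norm (push-forward along `u`) of a `D`-invariant element. -/
def IsNormFrom (D : Subgroup GQ) (u : X' →[GQ] X) (a : IndMod X Kx) : Prop :=
  ∃ f ∈ invD D X', IndMod.push Kx u f = a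

theorem IsNormFrom.zero (D : Subgroup GQ) (u : X' →[GQ] X) : IsNormFrom D u 0 :=
  ⟨0, (invD D X').zero_mem, map_zero _⟩

theorem IsNormFrom.add {D : Subgroup GQ} {u : X' →[GQ] X} {a b : IndMod X Kx}
    (ha : IsNormFrom D u a) (hb : IsNormFrom D u b) : IsNormFrom D u (a + b) := by
  obtain ⟨f, hf, rfl⟩ := ha
  obtain ⟨g, hg, rfl⟩ := hb
  exact ⟨f + g, (invD D X').add_mem hf hg, map_add _ _ _⟩

theorem IsNormFrom.neg {D : Subgroup GQ} {u : X' →[GQ] X} {a : IndMod X Kx}
    (ha : IsNormFrom D u a) : IsNormFrom D u (-a) := by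
  obtain ⟨f, hf, rfl⟩ := ha
  exact ⟨-f, (invD D X').neg_mem hf, map_neg _ _⟩

/-- The subgroup of `∏_{q ∈ T} H^0_q(K_X)` generated by the local norms from `X'` and by the global
elements which are local norms at all `q ∉ T`.  The quotient is `C_T(X'/X)`. -/
def CT (u : X' →[GQ] X) (T : Finset Nat.Primes) :
    AddSubgroup (∀ q : T, invD (Dec (pl q.1)) X) where
  carrier := {y | ∃ a ∈ invD ⊤ X, (∀ q : Nat.Primes, q ∉ T → IsNormFrom (Dec (pl q)) u a) ∧
    ∀ q : T, IsNormFrom (Dec (pl q.1)) u ((y q : IndMod X Kx) - a)}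
  zero_mem' := ⟨0, (invD ⊤ X).zero_mem, fun _ _ => IsNormFrom.zero _ _, fun q => by
    simpa using IsNormFrom.zero _ _⟩
  add_mem' := by
    rintro y y' ⟨a, ha, h1, h2⟩ ⟨a', ha', h1', h2'⟩
    refine ⟨a + a', (invD ⊤ X).add_mem ha ha', fun q hq => (h1 q hq).add (h1' q hq), fun q => ?_⟩
    have := (h2 q).add (h2' q)
    have e : (((y + y') q : invD (Dec (pl q.1)) X) : IndMod X Kx) - (a + a') =
        ((y q : IndMod X Kx) - a) + ((y' q : IndMod X Kx) - a') := by
      simp only [Pi.add_apply, AddSubgroup.coe_add]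
      abel
    rw [e]
    exact this
  neg_mem' := by
    rintro y ⟨a, ha, h1, h2⟩
    refine ⟨-a, (invD ⊤ X).neg_mem ha, fun q hq => (h1 q hq).neg, fun q => ?_⟩
    have := (h2 q).neg
    have e : (((-y) q : invD (Dec (pl q.1)) X) : IndMod X Kx) - (-a) =
        -((y q : IndMod X Kx) - a) := by
      simp only [Pi.neg_apply, AddSubgroup.coe_neg]
      abel
    rw [e]
    exact this

/-- `D` acts transitively on the fibre of `u` over `x` ("the place `D x` is nonsplit in `X'`"). -/
def NonsplitAt (D : Subgroup GQ) (u : X' →[GQ] X) (x : X) : Prop :=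
  ∀ y y' : X', u y = x → u y' = x → ∃ d ∈ D, d • y = y'

end sets

/-- `U' ◁ U` of index `p`, `U'` open, `μ_p` fixed by `U`: a Kummer step of degree `p`. -/
structure KumStep (p : ℕ) (U' U : Subgroup GQ) : Prop where
  le : U' ≤ U
  isOpen : lvlAll.IsOpen U'
  normal : (U'.subgroupOf U).Normal
  index : U'.relIndex U = p
  mu : ActsTrivially U (Mu p)

/-- The output of block NIT (`NIT/Main.lean`), for number fields in `Type`. -/
structure NITOut (p : ℕ) : Prop where
  hnt : ∀ (K L : Type) [Field K] [NumberField K] [Field L] [NumberField L] [Algebra K L],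
    NIT.Kum K L p → ∀ x : Kˣ, (∀ v : Pl K, x ∈ NIT.locNorm K L v) → x ∈ NIT.nrm K L
  idx : ∀ (K L : Type) [Field K] [NumberField K] [Field L] [NumberField L] [Algebra K L],
    NIT.Kum K L p → ∀ T : Finset (Pl K),
      (NIT.SI.img K (NIT.locNorm K L) T
        (⨅ v : {v : Pl K // v ∉ T}, NIT.locNorm K L v)).index ∣ p
  nonsplit : ∀ (K L : Type) [Field K] [NumberField K] [Field L] [NumberField L] [Algebra K L],
    NIT.Kum K L p → ∀ T : Finset (Pl K), ∃ v : Pl K, v ∉ T ∧
      (v.asIdeal.primesOver (𝓞 L)).ncard = 1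

/-- The input from block LOC: at a nonsplit place of a step of degree `p` the local norm map is not
onto (function form; `k = ℚ̄^{Dec (pl q) ⊓ W}`, `k' = ℚ̄^{Dec (pl q) ⊓ W'}`, `[kˣ : N k'ˣ] = p > 1`). -/
def LocNonNorm (p : ℕ) : Prop :=
  ∀ (q : Nat.Primes) (W' W : Subgroup GQ) (h : W' ≤ W) [Finite (GQ ⧸ W')], lvlAll.IsOpen W' →
    (W'.subgroupOf W).Normal → W'.relIndex W = p →
    NonsplitAt (Dec (pl q)) (cosetMap h) ((1 : GQ) : GQ ⧸ W) →
    ∃ f₀ ∈ invD (Dec (pl q)) (GQ ⧸ W), ∀ f ∈ invD (Dec (pl q)) (GQ ⧸ W'),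
      IndMod.push Kx (cosetMap h) f ((1 : GQ) : GQ ⧸ W) ≠ f₀ ((1 : GQ) : GQ ⧸ W)

end Fermat.Agent.S55.Dict
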