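/-
S55 / block DICT, task DICT-Fix (owner helper163): `GQ ⧸ fixG K` is finite; Galois descent to `K`.
-/
import Fermat.Agent.S55.Dict.Defs
import Fermat.Agent.Lib.Frobenius.Integers

set_option autoImplicit false

namespace Fermat.Agent.S55.Dict

open scoped Pointwise
open NumberField IsDedekindDomain WithZero
open Fermat.Agent.S55.NIT (Pl)

section Fix

variable {K : Type} [Field K] [NumberField K] [Algebra K Qb]

instance finite_quot_fixG : Finite (GQ ⧸ fixG K) := by
  let φ : GQ → (K →+* Qb) := fun g => (g : Qb →+* Qb).comp (algebraMap K Qb)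
  have hφ : ∀ a b : GQ, φ a = φ b ↔ a⁻¹ * b ∈ fixG K := by
    intro a b
    rw [mem_fixG]
    constructor
    · intro h x
      have h1 : a (algebraMap K Qb x) = b (algebraMap K Qb x) := RingHom.congr_fun h x
      show a.symm (b (algebraMap K Qb x)) = algebraMap K Qb x
      rw [AlgEquiv.symm_apply_eq, h1]
    · intro h
      ext x
      have h1 : a.symm (b (algebraMap K Qb x)) = algebraMap K Qb x := h x
      rw [AlgEquiv.symm_apply_eq] at h1
      exact h1.symm
  let f : GQ ⧸ fixG K → (K →+* Qb) :=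
    Quotient.lift φ (fun a b hab => (hφ a b).mpr (QuotientGroup.leftRel_apply.mp hab))
  refine Finite.of_injective f ?_
  rintro ⟨a⟩ ⟨b⟩ h
  exact Quotient.sound (QuotientGroup.leftRel_apply.mpr ((hφ a b).mp h))

/-- an element of `ℚ̄` fixed by `fixG K` comes from `K` -/
theorem exists_algebraMap_eq_of_fixed (t : Qb) (ht : ∀ g ∈ fixG K, g t = t) :
    ∃ z : K, algebraMap K Qb z = t := by
  have : IsGalois ℚ Qb := Fermat.Agent.Lib.Frobenius.isGalois_rat
  let E : IntermediateField ℚ Qb := ((algebraMap K Qb).toRatAlgHom).fieldRange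
  have hE : ∀ y : Qb, y ∈ E ↔ ∃ z : K, algebraMap K Qb z = y := fun y => Iff.rfl
  rw [← hE, ← InfiniteGalois.fixedField_fixingSubgroup E, IntermediateField.mem_fixedField_iff]
  intro g hg
  apply ht
  intro x
  exact (IntermediateField.mem_fixingSubgroup_iff E g).mp hg _ ((hE _).mpr ⟨x, rfl⟩)

end Fix

end Fermat.Agent.S55.Dict
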