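/-
S55 / block DICT : push/pull along `X_L → X_K` = norm/inclusion (task DICT-Norm, owner helper80).
-/
import Fermat.Agent.S55.Dict.Fix

set_option autoImplicit false

namespace Fermat.Agent.S55.Dict

open scoped Pointwise
open NumberField IsDedekindDomain WithZero
open Fermat.Agent.S55.NIT (Pl)

namespace Norm

theorem val_sum {ι : Type} (s : Finset ι) (u : ι → Kx) :
    (∑ i ∈ s, u i).val = ∏ i ∈ s, (u i).val := by
  classical
  induction s using Finset.induction_on with
  | empty => simp [Kx.val_zero]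
  | insert a s ha ih => rw [Finset.sum_insert ha, Finset.prod_insert ha, Kx.val_add, ih]

theorem val_injective : Function.Injective Kx.val := by
  intro x y h
  apply Additive.toMul.injective
  exact Units.ext h

theorem close_mul_one {B : ValuationSubring Qb} {q n : ℕ} {x y : Qb} (h : Close B q n x 1)
    (h' : Close B q n y 1) : Close B q n (x * y) 1 := by
  obtain ⟨c, hc, hx⟩ := h
  obtain ⟨c', hc', hy⟩ := h'
  have hq : (q : Qb) ∈ B := natCast_mem B q
  have hyB : y ∈ B := by
    have : y = 1 + (q : Qb) ^ n * c' := by rw [← hy]; ring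
    rw [this]
    exact B.add_mem _ _ B.one_mem (B.mul_mem _ _ (pow_mem hq n) hc')
  refine ⟨c * y + c', B.add_mem _ _ (B.mul_mem _ _ hc hyB) hc', ?_⟩
  have : x * y - 1 = (x - 1) * y + (y - 1) := by ring
  rw [this, hx, hy]
  ring

theorem close_prod_one {B : ValuationSubring Qb} {q n : ℕ} {ι : Type} (s : Finset ι) (u : ι → Qb)
    (h : ∀ i ∈ s, Close B q n (u i) 1) : Close B q n (∏ i ∈ s, u i) 1 := by
  classical
  induction s using Finset.induction_on with
  | empty => exact ⟨0, B.zero_mem, by simp⟩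
  | insert a s ha ih =>
    rw [Finset.prod_insert ha]
    exact close_mul_one (h a (Finset.mem_insert_self a s))
      (ih fun i hi => h i (Finset.mem_insert_of_mem hi))

variable (K L : Type) [Field K] [NumberField K] [Field L] [NumberField L] [Algebra K L]
  [Algebra K Qb] [Algebra L Qb] [IsScalarTower K L Qb]

/-- the `K`-embedding of `L` attached to an element of `fixG K`. -/
noncomputable def embOf (σ : GQ) (hσ : σ ∈ fixG K) : L →ₐ[K] Qb :=
  { ((σ : Qb →+* Qb).comp (algebraMap L Qb)) with
    commutes' := fun r => by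
      show σ (algebraMap L Qb (algebraMap K L r)) = algebraMap K Qb r
      rw [← IsScalarTower.algebraMap_apply K L Qb]
      exact hσ r }

@[simp] theorem embOf_apply (σ : GQ) (hσ : σ ∈ fixG K) (l : L) :
    embOf K L σ hσ l = σ (algebraMap L Qb l) := rfl

theorem exists_lift (φ : L →ₐ[K] Qb) :
    ∃ σ : GQ, ∃ hσ : σ ∈ fixG K, embOf K L σ hσ = φ := by
  have h0 : Algebra.IsAlgebraic ℚ Qb := AlgebraicClosure.isAlgebraic ℚ
  have h1 : Algebra.IsAlgebraic K Qb := Algebra.IsAlgebraic.tower_top (K := ℚ) K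
  have h2 : IsAlgClosure K Qb := ⟨inferInstance, inferInstance⟩
  have h3 : Normal K Qb := IsAlgClosure.normal K Qb
  let ψ : Qb →ₐ[K] Qb := φ.liftNormal Qb
  have hψ : Function.Bijective ψ := Algebra.IsAlgebraic.algHom_bijective ψ
  let σK : Qb ≃ₐ[K] Qb := AlgEquiv.ofBijective ψ hψ
  refine ⟨σK.restrictScalars ℚ, fun x => σK.commutes x, ?_⟩
  ext l
  exact φ.liftNormal_commutes Qb l

theorem mem_fixG_of_proj_eq {g : GQ} {y : GQ ⧸ fixG L} (hy : proj K L y = (g : GQ ⧸ fixG K)) :
    g⁻¹ * y.out ∈ fixG K := by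
  have h1 : proj K L ((y.out : GQ) : GQ ⧸ fixG L) = (g : GQ ⧸ fixG K) := by
    rw [QuotientGroup.out_eq']; exact hy
  rw [cosetMap_mk] at h1
  exact QuotientGroup.eq.1 h1.symm

/-- the fibre of `X_L → X_K` over `g U_K` is the set of the `K`-embeddings of `L`. -/
noncomputable def fibreMap (g : GQ) (y : {y : GQ ⧸ fixG L // proj K L y = (g : GQ ⧸ fixG K)}) :
    L →ₐ[K] Qb :=
  embOf K L (g⁻¹ * y.1.out) (mem_fixG_of_proj_eq K L y.2)

theorem fibreMap_apply (g : GQ) (y : {y : GQ ⧸ fixG L // proj K L y = (g : GQ ⧸ fixG K)})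
    (l : L) : g (fibreMap K L g y l) = (y.1.out : GQ) (algebraMap L Qb l) := by
  show g ((g⁻¹ * y.1.out : GQ) (algebraMap L Qb l)) = _
  rw [AlgEquiv.mul_apply]
  exact g.apply_symm_apply _

theorem fibreMap_bijective (g : GQ) : Function.Bijective (fibreMap K L g) := by
  constructor
  · intro y y' h
    apply Subtype.ext
    rw [← QuotientGroup.out_eq' y.1, ← QuotientGroup.out_eq' y'.1, QuotientGroup.eq]
    intro l
    have h1 : (y.1.out : GQ) (algebraMap L Qb l) = (y'.1.out : GQ) (algebraMap L Qb l) := by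
      rw [← fibreMap_apply K L g y l, ← fibreMap_apply K L g y' l, h]
    show (y.1.out : GQ).symm ((y'.1.out : GQ) (algebraMap L Qb l)) = algebraMap L Qb l
    rw [← h1]
    exact (y.1.out : GQ).symm_apply_apply _
  · intro φ
    obtain ⟨σ, hσ, rfl⟩ := exists_lift K L φ
    have hy : proj K L ((g * σ : GQ) : GQ ⧸ fixG L) = (g : GQ ⧸ fixG K) := by
      rw [cosetMap_mk, QuotientGroup.eq]
      have : (g * σ)⁻¹ * g = σ⁻¹ := by group
      rw [this]
      exact (fixG K).inv_mem hσ
    refine ⟨⟨_, hy⟩, ?_⟩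
    ext l
    apply g.injective
    rw [fibreMap_apply]
    have hu : (g * σ)⁻¹ * (((g * σ : GQ) : GQ ⧸ fixG L).out : GQ) ∈ fixG L :=
      QuotientGroup.eq.1 (QuotientGroup.out_eq' _).symm
    have h2 := hu l
    rw [AlgEquiv.mul_apply] at h2
    have h3 : (((g * σ : GQ) : GQ ⧸ fixG L).out : GQ) (algebraMap L Qb l) =
        (g * σ) (algebraMap L Qb l) :=
      ((g * σ).apply_symm_apply _).symm.trans (congrArg (g * σ) h2)
    rw [h3]
    rfl

/-- the fibre of `X_L → X_K` over `g U_K` is the set of the `K`-embeddings of `L`. -/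
noncomputable def fibreEquiv (g : GQ) :
    {y : GQ ⧸ fixG L // proj K L y = (g : GQ ⧸ fixG K)} ≃ (L →ₐ[K] Qb) :=
  Equiv.ofBijective _ (fibreMap_bijective K L g)

theorem val_glob_fibre (g : GQ) (y : {y : GQ ⧸ fixG L // proj K L y = (g : GQ ⧸ fixG K)})
    (b : Lˣ) : (glob L b y.1).val = g (fibreEquiv K L g y (b : L)) := by
  show _ = g (fibreMap K L g y (b : L))
  rw [fibreMap_apply]
  conv_lhs => rw [← QuotientGroup.out_eq' y.1, glob_mk]
  rfl

end Norm

section Norm

open Fermat.Agent.S55.Dict.Norm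

variable (K L : Type) [Field K] [NumberField K] [Field L] [NumberField L] [Algebra K L]
  [Algebra K Qb] [Algebra L Qb] [IsScalarTower K L Qb]
/-- the fibres of `X_L → X_K` have `[L : K]` elements -/
theorem card_fibre (x : GQ ⧸ fixG K) :
    Nat.card {y : GQ ⧸ fixG L // proj K L y = x} = Module.finrank K L := by
  induction x using QuotientGroup.induction_on with
  | H g =>
    rw [Nat.card_congr (fibreEquiv K L g), Nat.card_eq_fintype_card]
    exact AlgHom.card K L Qb

/-- N1 : `cor` of a global element is its norm (`Algebra.norm_eq_prod_embeddings`) -/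
theorem push_glob (b : Lˣ) :
    IndMod.push Kx (proj K L) (glob L b) = glob K (Units.map (Algebra.norm K : L →* K) b) := by
  refine IndMod.ext fun x => ?_
  induction x using QuotientGroup.induction_on with
  | H g =>
    apply val_injective
    rw [IndMod.push_apply, glob_mk, Kx.val_smul, kx_val]
    let _ : Fintype {y : GQ ⧸ fixG L // proj K L y = (g : GQ ⧸ fixG K)} := Fintype.ofFinite _
    rw [finsum_eq_sum_of_fintype, val_sum]
    simp only [val_glob_fibre K L g]
    rw [← map_prod, Units.coe_map, Algebra.norm_eq_prod_embeddings K Qb]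
    congr 1
    exact Equiv.prod_comp (fibreEquiv K L g) (fun φ : L →ₐ[K] Qb => φ (b : L))

theorem pull_glob (a : Kˣ) :
    IndMod.pull Kx (proj K L) (glob K a) = glob L (Units.map (algebraMap K L : K →* L) a) := by
  refine IndMod.ext fun y => ?_
  induction y using QuotientGroup.induction_on with
  | H h =>
    apply val_injective
    rw [IndMod.pull_apply, cosetMap_mk, glob_mk, glob_mk, Kx.val_smul, Kx.val_smul, kx_val, kx_val]
    congr 1
    exact IsScalarTower.algebraMap_apply K L Qb _

theorem push_pull (f : IndMod (GQ ⧸ fixG K) Kx) :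
    IndMod.push Kx (proj K L) (IndMod.pull Kx (proj K L) f) = Module.finrank K L • f := by
  refine IndMod.ext fun x => ?_
  rw [IndMod.push_apply, IndMod.nsmul_apply, ← card_fibre K L x]
  let _ : Fintype {y : GQ ⧸ fixG L // proj K L y = x} := Fintype.ofFinite _
  rw [finsum_eq_sum_of_fintype, Nat.card_eq_fintype_card]
  have : ∀ y : {y : GQ ⧸ fixG L // proj K L y = x}, IndMod.pull Kx (proj K L) f y.1 = f x := by
    intro y
    rw [IndMod.pull_apply, y.2]
  simp only [this]
  rw [Finset.sum_const, Finset.card_univ]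

theorem close_push {B : ValuationSubring Qb} {q n : ℕ} (f : IndMod (GQ ⧸ fixG L) Kx)
    (h : ∀ y, Close B q n (f y).val 1) (x : GQ ⧸ fixG K) :
    Close B q n ((IndMod.push Kx (proj K L) f) x).val 1 := by
  rw [IndMod.push_apply]
  let _ : Fintype {y : GQ ⧸ fixG L // proj K L y = x} := Fintype.ofFinite _
  rw [finsum_eq_sum_of_fintype, val_sum]
  exact close_prod_one _ _ fun y _ => h y.1

end Norm
end Fermat.Agent.S55.Dict
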