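/-
S55 / block DICT, task DICT-Field: open subgroups of `GQ` versus number fields inside `ℚ̄`
(Galois correspondence adapter).
-/
import Fermat.Agent.S55.Dict.FinalDefs
import Fermat.Agent.S55.Dict.Fix
import Fermat.Agent.S55.Dict.Norm

set_option autoImplicit false

namespace Fermat.Agent.S55.Dict

open scoped Pointwise
open NumberField IsDedekindDomain WithZero
open Fermat.Agent.S55.NIT (Pl)

section Field

theorem finite_quot_of_isOpen {U : Subgroup GQ} (hU : lvlAll.IsOpen U) : Finite (GQ ⧸ U) := by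
  obtain ⟨N, hN, hNU⟩ := hU
  have h1 : N.FiniteIndex := lvlAll.finiteIndex N hN
  have h2 : U.FiniteIndex := Subgroup.finiteIndex_of_le hNU
  exact Subgroup.finite_quotient_of_finiteIndex

/-- an open subgroup (for `lvlAll`) is the fixing subgroup of its fixed field -/
theorem field_fixing_fixed {U : Subgroup GQ} (hU : lvlAll.IsOpen U) :
    (IntermediateField.fixedField U).fixingSubgroup = U := by
  have : IsGalois ℚ Qb := Fermat.Agent.Lib.Frobenius.isGalois_rat
  obtain ⟨N, ⟨F, hF, -, rfl⟩, hNU⟩ := hU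
  have hF' : @FiniteDimensional ℚ F _ _ (IntermediateField.module' F) := by
    convert hF
  have h1 : IsOpen (F.fixingSubgroup : Set GQ) := IntermediateField.fixingSubgroup_isOpen F
  have h2 : IsOpen (U : Set GQ) := Subgroup.isOpen_mono hNU h1
  have h3 : IsClosed (U : Set GQ) := Subgroup.isClosed_of_isOpen U h2
  exact InfiniteGalois.fixingSubgroup_fixedField ⟨U, h3⟩

theorem field_finiteDimensional_fixed {U : Subgroup GQ} (hU : lvlAll.IsOpen U) :
    FiniteDimensional ℚ (IntermediateField.fixedField U) := by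
  have : IsGalois ℚ Qb := Fermat.Agent.Lib.Frobenius.isGalois_rat
  obtain ⟨N, ⟨F, hF, -, rfl⟩, hNU⟩ := hU
  have hF' : @FiniteDimensional ℚ F _ _ (IntermediateField.module' F) := by
    convert hF
  have hle : IntermediateField.fixedField U ≤ F := by
    rw [← InfiniteGalois.fixedField_fixingSubgroup F]
    exact IntermediateField.fixedField_antitone hNU
  exact FiniteDimensional.of_injective (IntermediateField.inclusion hle).toLinearMap
    (IntermediateField.inclusion hle).injective

theorem field_numberField_fixed {U : Subgroup GQ} (hU : lvlAll.IsOpen U) :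
    NumberField (IntermediateField.fixedField U) where
  to_charZero := inferInstance
  to_finiteDimensional := by
    convert field_finiteDimensional_fixed hU

theorem field_fixG_fixed {U : Subgroup GQ} (hU : lvlAll.IsOpen U) :
    fixG (IntermediateField.fixedField U) = U := by
  conv_rhs => rw [← field_fixing_fixed hU]
  ext g
  rw [mem_fixG, IntermediateField.mem_fixingSubgroup_iff]
  exact ⟨fun h x hx => h ⟨x, hx⟩, fun h x => h x x.2⟩

/-- every pair of open subgroups comes from a pair of number fields inside `ℚ̄` -/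
theorem exists_fields {U' U : Subgroup GQ} (hU' : lvlAll.IsOpen U') (h : U' ≤ U) :
    ∃ (K L : Type) (_ : Field K) (_ : NumberField K) (_ : Field L) (_ : NumberField L)
      (_ : Algebra K L) (_ : Algebra K Qb) (_ : Algebra L Qb) (_ : IsScalarTower K L Qb),
      fixG K = U ∧ fixG L = U' := by
  have hU : lvlAll.IsOpen U := by
    obtain ⟨N, hN, hNU⟩ := hU'
    exact ⟨N, hN, hNU.trans h⟩
  have hle : IntermediateField.fixedField U ≤ IntermediateField.fixedField U' :=
    IntermediateField.fixedField_antitone h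
  refine ⟨IntermediateField.fixedField U, IntermediateField.fixedField U', inferInstance,
    field_numberField_fixed hU, inferInstance, field_numberField_fixed hU',
    (IntermediateField.inclusion hle).toRingHom.toAlgebra, inferInstance, inferInstance, ?_,
    field_fixG_fixed hU, field_fixG_fixed hU'⟩
  let _ := (IntermediateField.inclusion hle).toRingHom.toAlgebra
  exact IsScalarTower.of_algebraMap_eq (fun x => rfl)

/-- abstract number fields embed in `ℚ̄` -/
theorem exists_algebra (K L : Type) [Field K] [NumberField K] [Field L] [NumberField L]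
    [Algebra K L] : ∃ (_ : Algebra K Qb) (_ : Algebra L Qb), IsScalarTower K L Qb := by
  let φ : L →ₐ[ℚ] Qb := IsAlgClosed.lift
  let a1 : Algebra L Qb := φ.toRingHom.toAlgebra
  let a2 : Algebra K Qb := (φ.toRingHom.comp (algebraMap K L)).toAlgebra
  exact ⟨a2, a1, IsScalarTower.of_algebraMap_eq (fun x => rfl)⟩

variable (K L : Type) [Field K] [NumberField K] [Field L] [NumberField L] [Algebra K L]
  [Algebra K Qb] [Algebra L Qb] [IsScalarTower K L Qb]

theorem isOpen_fixG : lvlAll.IsOpen (fixG K) := by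
  let F : IntermediateField ℚ Qb := IntermediateField.normalClosure ℚ K Qb
  have hfd : FiniteDimensional ℚ F := normalClosure.is_finiteDimensional ℚ K Qb
  have hst : IsStableField F := by
    intro g x hx
    have h1 : F ≤ F.comap (g : Qb →ₐ[ℚ] Qb) := by
      refine iSup_le fun f => ?_
      rintro _ ⟨z, rfl⟩
      show g (f z) ∈ F
      exact (le_iSup (fun f : K →ₐ[ℚ] Qb => f.fieldRange) ((g : Qb →ₐ[ℚ] Qb).comp f)) ⟨z, rfl⟩
    exact h1 hx
  refine ⟨F.fixingSubgroup, ⟨F, by convert hfd, hst, rfl⟩, ?_⟩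
  intro g hg x
  rw [IntermediateField.mem_fixingSubgroup_iff] at hg
  apply hg
  exact (le_iSup (fun f : K →ₐ[ℚ] Qb => f.fieldRange) ((algebraMap K Qb).toRatAlgHom)) ⟨x, rfl⟩

theorem relIndex_fixG : (fixG L).relIndex (fixG K) = Module.finrank K L := by
  have h1 := Subgroup.relIndex_mul_index (fixG_le K L)
  have h2 : (fixG L).index = Module.finrank K L * (fixG K).index := by
    classical
    have : Fintype (GQ ⧸ fixG K) := Fintype.ofFinite _
    rw [Subgroup.index, Subgroup.index,
      ← Nat.card_congr (Equiv.sigmaFiberEquiv (proj K L : (GQ ⧸ fixG L) → (GQ ⧸ fixG K))),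
      Nat.card_sigma]
    simp only [card_fibre, Finset.sum_const, Finset.card_univ, smul_eq_mul]
    rw [Nat.card_eq_fintype_card, mul_comm]
  have h3 : (fixG K).index ≠ 0 := by
    rw [Subgroup.index]
    exact Nat.card_pos.ne'
  rw [h2] at h1
  exact Nat.eq_of_mul_eq_mul_right (Nat.pos_of_ne_zero h3) h1

/-- an element of `fixG K` as a `K`-automorphism of `ℚ̄` -/
noncomputable def fieldAut (σ : GQ) (hσ : σ ∈ fixG K) : Qb ≃ₐ[K] Qb :=
  { (σ : Qb ≃+* Qb) with commutes' := fun r => hσ r }

omit [NumberField K] in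
@[simp] theorem fieldAut_apply (σ : GQ) (hσ : σ ∈ fixG K) (x : Qb) : fieldAut K σ hσ x = σ x := rfl

theorem isGalois_iff_normal : IsGalois K L ↔ ((fixG L).subgroupOf (fixG K)).Normal := by
  have h0 : Algebra.IsAlgebraic ℚ Qb := AlgebraicClosure.isAlgebraic ℚ
  have h1 : Algebra.IsAlgebraic K Qb := Algebra.IsAlgebraic.tower_top (K := ℚ) K
  have h2 : IsAlgClosure K Qb := ⟨inferInstance, inferInstance⟩
  have h3 : Normal K Qb := IsAlgClosure.normal K Qb
  constructor
  · intro hG
    refine ⟨fun τ hτ σ => ?_⟩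
    rw [Subgroup.mem_subgroupOf] at hτ ⊢
    intro l
    -- `σ⁻¹ l` comes from `L`
    have hσ : (σ⁻¹ : fixG K).1 ∈ fixG K := (σ⁻¹ : fixG K).2
    have e1 := AlgHom.restrictNormal_commutes
      ((fieldAut K (σ⁻¹ : fixG K).1 hσ : Qb ≃ₐ[K] Qb) : Qb →ₐ[K] Qb) L l
    have e2 : (σ⁻¹ : fixG K).1 (algebraMap L Qb l) = algebraMap L Qb
        (AlgHom.restrictNormal ((fieldAut K (σ⁻¹ : fixG K).1 hσ : Qb ≃ₐ[K] Qb) : Qb →ₐ[K] Qb)
          L l) := e1.symm
    show σ.1 (τ.1 ((σ⁻¹ : fixG K).1 (algebraMap L Qb l))) = algebraMap L Qb l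
    rw [e2, hτ _, ← e2]
    show σ.1 (σ.1.symm (algebraMap L Qb l)) = algebraMap L Qb l
    exact σ.1.apply_symm_apply _
  · intro hN
    let E : IntermediateField K Qb := (IsScalarTower.toAlgHom K L Qb).fieldRange
    have hE : Normal K E := by
      rw [IntermediateField.normal_iff_forall_map_le']
      rintro σ _ ⟨_, ⟨l, rfl⟩, rfl⟩
      let s : GQ := σ.restrictScalars ℚ
      have hs : s ∈ fixG K := fun x => σ.commutes x
      have key : ∀ g ∈ fixG L, g (s (algebraMap L Qb l)) = s (algebraMap L Qb l) := by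
        intro g hg
        have hgK : g ∈ fixG K := fixG_le K L hg
        have h4 := hN.conj_mem ⟨g, hgK⟩ (Subgroup.mem_subgroupOf.2 hg) (⟨s, hs⟩ : fixG K)⁻¹
        rw [Subgroup.mem_subgroupOf] at h4
        have h5 : s.symm (g (s (algebraMap L Qb l))) = algebraMap L Qb l := by
          have := h4 l
          simpa using this
        rw [AlgEquiv.symm_apply_eq] at h5
        exact h5
      obtain ⟨z, hz⟩ := exists_algebraMap_eq_of_fixed (K := L) _ key
      exact ⟨z, hz⟩
    have e : L ≃ₐ[K] E := AlgEquiv.ofInjectiveField (IsScalarTower.toAlgHom K L Qb)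
    have hL : Normal K L := Normal.of_algEquiv e.symm
    exact ⟨⟩

omit [NumberField K] [Algebra K Qb] in
theorem field_val_nsmul (n : ℕ) (x : Kx) : (n • x).val = x.val ^ n := by
  induction n with
  | zero => rw [zero_nsmul, Kx.val_zero, pow_zero]
  | succ n ih => rw [succ_nsmul, Kx.val_add, ih, pow_succ]

theorem exists_zeta_iff {p : ℕ} (hp : p.Prime) :
    (∃ ζ : K, IsPrimitiveRoot ζ p) ↔ ActsTrivially (fixG K) (Mu p) := by
  constructor
  · rintro ⟨ζ, hζ⟩ g hg a
    have : NeZero p := ⟨hp.ne_zero⟩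
    have hζ' : IsPrimitiveRoot (algebraMap K Qb ζ) p :=
      hζ.map_of_injective (algebraMap K Qb).injective
    have ha : (a.1 : Kx).val ^ p = 1 := by
      have h1 : p • (a.1 : Kx) = 0 := a.2
      rw [← field_val_nsmul, h1, Kx.val_zero]
    obtain ⟨i, -, hi⟩ := hζ'.eq_pow_of_pow_eq_one ha
    apply Subtype.ext
    apply Norm.val_injective
    show g (a.1 : Kx).val = (a.1 : Kx).val
    rw [← hi, map_pow, hg ζ]
  · intro h
    have : NeZero p := ⟨hp.ne_zero⟩
    obtain ⟨ζ, hζ⟩ := HasEnoughRootsOfUnity.exists_primitiveRoot Qb p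
    have hu : IsUnit ζ := hζ.isUnit hp.ne_zero
    let x : Kx := Additive.ofMul hu.unit
    have hx : p • x = 0 := by
      apply Norm.val_injective
      show ((hu.unit ^ p : Qbˣ) : Qb) = 1
      rw [Units.val_pow_eq_pow_val]
      exact hζ.pow_eq_one
    let a : Mu p := ⟨x, hx⟩
    have key : ∀ g ∈ fixG K, g ζ = ζ := by
      intro g hg
      have h1 := congrArg (fun b : Mu p => (b.1 : Kx).val) (h g hg a)
      exact h1
    obtain ⟨z, hz⟩ := exists_algebraMap_eq_of_fixed (K := K) ζ key
    refine ⟨z, IsPrimitiveRoot.of_map_of_injective (f := algebraMap K Qb) ?_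
      (algebraMap K Qb).injective⟩
    rw [hz]
    exact hζ

theorem kum_iff {p : ℕ} (hp : p.Prime) (hp2 : p ≠ 2) :
    NIT.Kum K L p ↔ KumStep p (fixG L) (fixG K) := by
  constructor
  · intro h
    exact ⟨fixG_le K L, isOpen_fixG L, (isGalois_iff_normal K L).1 h.galois,
      (relIndex_fixG K L).trans h.deg, (exists_zeta_iff K hp).1 h.zeta⟩
  · intro h
    exact ⟨hp, hp2, (isGalois_iff_normal K L).2 h.normal, (relIndex_fixG K L).symm.trans h.index,
      (exists_zeta_iff K hp).2 h.mu⟩

end Field

end Fermat.Agent.S55.Dict
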