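/-
S55 / block DICT : global elements `glob K a` of `Map(X_K, ℚ̄ˣ)`.   Owner: helper272.
-/
import Fermat.Agent.S55.Dict.Fix

set_option autoImplicit false

namespace Fermat.Agent.S55.Dict

open scoped Pointwise
open NumberField IsDedekindDomain WithZero
open Fermat.Agent.S55.NIT (Pl)

section Glob

variable (K : Type) [Field K] [NumberField K] [Algebra K Qb]

/-- an element of `Kx` is determined by its value in `ℚ̄` -/
theorem Glob.kx_ext {x y : Kx} (h : x.val = y.val) : x = y :=
  Additive.toMul.injective (Units.ext h)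

theorem glob_mem_invD (D : Subgroup GQ) (a : Kˣ) : glob K a ∈ invD D (GQ ⧸ fixG K) := by
  intro d _
  ext x
  induction x using QuotientGroup.induction_on with
  | H g =>
    rw [IndMod.smul_apply]
    have h1 : d⁻¹ • (g : GQ ⧸ fixG K) = ((d⁻¹ * g : GQ) : GQ ⧸ fixG K) := rfl
    rw [h1, glob_mk, glob_mk, smul_smul, mul_inv_cancel_left]

theorem glob_mul (a b : Kˣ) : glob K (a * b) = glob K a + glob K b := by
  ext x
  induction x using QuotientGroup.induction_on with
  | H g => rw [IndMod.add_apply, glob_mk, glob_mk, glob_mk, kx_mul, smul_add]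

theorem Glob.glob_one : glob K 1 = 0 := by
  have h := glob_mul K 1 1
  rw [mul_one] at h
  exact left_eq_add.mp h

theorem glob_inv (a : Kˣ) : glob K a⁻¹ = - glob K a := by
  rw [eq_neg_iff_add_eq_zero, ← glob_mul, inv_mul_cancel, Glob.glob_one]

theorem glob_div (a b : Kˣ) : glob K (a / b) = glob K a - glob K b := by
  rw [div_eq_mul_inv, glob_mul, glob_inv, sub_eq_add_neg]

theorem glob_pow (a : Kˣ) (n : ℕ) : glob K (a ^ n) = n • glob K a := by
  induction n with
  | zero => rw [pow_zero, zero_nsmul, Glob.glob_one]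
  | succ n ih => rw [pow_succ, glob_mul, ih, succ_nsmul]

theorem glob_injective : Function.Injective (glob K) := by
  intro a b h
  have h1 := congrArg (fun f : IndMod (GQ ⧸ fixG K) Kx => (f ((1 : GQ) : GQ ⧸ fixG K)).val) h
  simp only [glob_mk, one_smul, kx_val] at h1
  exact Units.ext ((algebraMap K Qb).injective h1)

/-- `H^0(K_F) = Fˣ` -/
theorem exists_glob_eq (f : IndMod (GQ ⧸ fixG K) Kx) (hf : ∀ g : GQ, g • f = f) :
    ∃ a : Kˣ, glob K a = f := by
  have key : ∀ g : GQ, f (g : GQ ⧸ fixG K) = g • f ((1 : GQ) : GQ ⧸ fixG K) := by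
    intro g
    have h1 := congrArg (fun F : IndMod (GQ ⧸ fixG K) Kx => F (g : GQ ⧸ fixG K)) (hf g)
    simp only [IndMod.smul_apply] at h1
    have h2 : g⁻¹ • (g : GQ ⧸ fixG K) = ((1 : GQ) : GQ ⧸ fixG K) := by
      show ((g⁻¹ * g : GQ) : GQ ⧸ fixG K) = _
      rw [inv_mul_cancel]
    rw [h2] at h1
    exact h1.symm
  set t : Kx := f ((1 : GQ) : GQ ⧸ fixG K) with ht
  have hfix : ∀ g ∈ fixG K, g t.val = t.val := by
    intro g hg
    have h1 : (g : GQ ⧸ fixG K) = ((1 : GQ) : GQ ⧸ fixG K) := by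
      rw [QuotientGroup.eq]
      simpa using hg
    have h2 := key g
    rw [h1] at h2
    rw [← Kx.val_smul, ← h2]
  obtain ⟨z, hz⟩ := exists_algebraMap_eq_of_fixed (K := K) t.val hfix
  have hz0 : z ≠ 0 := by
    rintro rfl
    rw [map_zero] at hz
    exact (Additive.toMul t : Qbˣ).ne_zero hz.symm
  refine ⟨Units.mk0 z hz0, ?_⟩
  ext x
  induction x using QuotientGroup.induction_on with
  | H g =>
    have h3 : kx K (Units.mk0 z hz0) = t := Glob.kx_ext hz
    rw [glob_mk, key g, h3]
end Glob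

end Fermat.Agent.S55.Dict
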