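/-
S55 / block DICT : valuation subrings of `ℚ̄` versus places of a subfield.
D1 core: a valuation subring of `ℚ̄` is determined by the algebraic integers in its maximal ideal,
and `Gal(ℚ̄/F)` acts transitively on the valuation subrings with a given restriction to `F`.
-/
import Mathlib
import Fermat.Prelude.Def_FLTPrelim_Ramification
import Fermat.Agent.Lib.Frobenius
import Fermat.Agent.Lib.WeakChebotarev.Qbar
import Fermat.Agent.S13.MinkowskiLift

set_option autoImplicit false
set_option linter.style.haveILetI false

namespace Fermat.Agent.S55.Dict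

open scoped Pointwise
open NumberField
open Fermat.Agent.Lib.Frobenius Fermat.Agent.S13.Minkowski Fermat.Agent.Lib.WeakChebotarev.Transfer

local notation "Qb" => AlgebraicClosure ℚ
local notation "GQ" => (AlgebraicClosure ℚ ≃ₐ[ℚ] AlgebraicClosure ℚ)

attribute [local instance] zbarAction

theorem le_of_integral_nonunits (A B : ValuationSubring Qb)
    (h : ∀ x : Qb, IsIntegral ℤ x → x ∈ B.nonunits → x ∈ A.nonunits) : A ≤ B := by
  intro x hx
  obtain ⟨b, c, hb, hc, hbA, hxb⟩ := exists_integral_fraction A x hx
  have hbB : b ∉ B.nonunits := fun hb' => hbA (h b hb hb')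
  have hbmem : b ∈ B := mem_valuationSubring_of_isIntegral B hb
  have hcmem : c ∈ B := mem_valuationSubring_of_isIntegral B hc
  have hv : B.valuation b = 1 := by
    rw [ValuationSubring.mem_nonunits_iff, not_lt] at hbB
    exact le_antisymm ((B.valuation_le_one_iff b).mpr hbmem) hbB
  rw [← B.valuation_le_one_iff]
  have : B.valuation x = B.valuation c := by
    rw [← hxb, map_mul, hv, mul_one]
  rw [this]
  exact (B.valuation_le_one_iff c).mpr hcmem

theorem eq_of_integral_nonunits (A B : ValuationSubring Qb)
    (h : ∀ x : Qb, IsIntegral ℤ x → (x ∈ A.nonunits ↔ x ∈ B.nonunits)) : A = B :=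
  le_antisymm (le_of_integral_nonunits A B fun x hx => (h x hx).2)
    (le_of_integral_nonunits B A fun x hx => (h x hx).1)

theorem eq_of_primeOf_eq {A B : ValuationSubring Qb} (h : primeOf A = primeOf B) : A = B := by
  apply eq_of_integral_nonunits
  intro x hx
  rw [← mem_primeOf A ⟨x, hx⟩, ← mem_primeOf B ⟨x, hx⟩, h]

theorem primeOf_smul (g : GQ) (A : ValuationSubring Qb) : primeOf (g • A) = g • primeOf A := by
  ext x
  rw [Ideal.mem_pointwise_smul_iff_inv_smul_mem, mem_primeOf, mem_primeOf, mem_nonunits_smul_iff]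
  rfl

/-- `Gal(ℚ̄/F)` acts transitively on the valuation subrings of `ℚ̄` over a given prime of `F`. -/
theorem exists_smul_eq_of_primeBelow_eq (F : IntermediateField ℚ Qb) (A B : ValuationSubring Qb)
    (h : primeBelow F A = primeBelow F B) : ∃ g ∈ F.fixingSubgroup, g • A = B := by
  classical
  haveI := zbar_smulCommClass
  haveI := zbar_isInvariant
  haveI := isGalois_rat
  haveI := isIntegral_rat
  letI : TopologicalSpace Zbar := ⊥
  haveI : DiscreteTopology Zbar := ⟨rfl⟩
  haveI : ContinuousSMul GQ Zbar := by
    rw [continuousSMul_iff_stabilizer_isOpen]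
    intro x
    convert stabilizer_isOpen_of_isIntegral (K := ℚ) (L := Qb) x.1 using 1
    ext σ
    simp only [SetLike.mem_coe, MulAction.mem_stabilizer_iff]
    constructor
    · intro h
      exact congrArg Subtype.val h
    · intro h
      exact Subtype.ext h
  set J : Subgroup GQ := F.fixingSubgroup with hJdef
  have hJ : IsClosed (J : Set GQ) := InfiniteGalois.fixingSubgroup_isClosed F
  haveI : CompactSpace J := isCompact_iff_compactSpace.mp hJ.isCompact
  let O := FixedPoints.subalgebra ℤ Zbar J
  haveI : Algebra.IsInvariant O Zbar J := ⟨fun x h ↦ ⟨⟨x, h⟩, rfl⟩⟩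
  haveI : SMulCommClass J O Zbar := ⟨fun j o z ↦ by
    show j • ((o : Zbar) * z) = (o : Zbar) * j • z
    rw [smul_mul', o.2 j]⟩
  have hmemF : ∀ x : Zbar, x ∈ O → (x : Qb) ∈ F := by
    intro x hx
    have h1 : (x : Qb) ∈ IntermediateField.fixedField (F.fixingSubgroup) := by
      rw [IntermediateField.mem_fixedField_iff]
      intro f hf
      exact congrArg Subtype.val (hx ⟨f, hf⟩)
    rwa [InfiniteGalois.fixedField_fixingSubgroup] at h1
  have hiff : ∀ x : Zbar, x ∈ O → (x ∈ primeOf A ↔ x ∈ primeOf B) := by
    intro x hx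
    have hxF := hmemF x hx
    have hint : IsIntegral ℤ (⟨(x : Qb), hxF⟩ : F) := by
      have := x.2
      exact (isIntegral_algebraMap_iff (A := F) (B := Qb)
        (FaithfulSMul.algebraMap_injective F Qb)).mp this
    let y : 𝓞 F := ⟨⟨(x : Qb), hxF⟩, hint⟩
    have hA := mem_primeBelow_iff F A y
    have hB := mem_primeBelow_iff F B y
    rw [mem_primeOf, mem_primeOf]
    rw [h] at hA
    exact hA.symm.trans hB
  have hunder : (primeOf A).under O = (primeOf B).under O := by
    ext x
    simp only [Ideal.under_def, Ideal.mem_comap]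
    exact hiff x.1 x.2
  obtain ⟨g, hg⟩ := Algebra.IsInvariant.exists_smul_of_under_eq_of_profinite (A := O) (G := J)
    (primeOf A) (primeOf B) hunder
  refine ⟨g, g.2, ?_⟩
  apply eq_of_primeOf_eq
  rw [primeOf_smul]
  exact hg.symm

end Fermat.Agent.S55.Dict
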