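/-
S55 / block DICT : places of a number field `K ⊆ ℚ̄` versus valuation subrings of `ℚ̄`.
Owner: helper4.
-/
import Fermat.Agent.S55.Dict.Defs
import Fermat.Agent.S55.Dict.Places
import Fermat.Agent.S14.G.PrimeVal

set_option autoImplicit false

namespace Fermat.Agent.S55.Dict

open scoped Pointwise
open NumberField IsDedekindDomain WithZero
open Fermat.Agent.S55.NIT (Pl)
open Fermat.Agent.Lib.WeakChebotarev.Transfer

section Below

variable {K : Type} [Field K] [NumberField K] [Algebra K Qb]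

theorem exists_below (v : Pl K) : ∃ B : ValuationSubring Qb, Below K v B := by
  obtain ⟨_, A, _, _, h⟩ := S14.G.exists_valuationSubring_of_prime K v.asIdeal v.isPrime v.ne_bot
  exact ⟨A, h⟩

omit [NumberField K] in
theorem below_isIntegral (x : 𝓞 K) : IsIntegral ℤ (algebraMap K Qb (x : K)) :=
  (RingOfIntegers.isIntegral_coe x).map (algebraMap K Qb).toIntAlgHom

omit [NumberField K] in
theorem below_mem (B : ValuationSubring Qb) (x : 𝓞 K) : algebraMap K Qb (x : K) ∈ B := by
  have h1 : IsIntegral B (algebraMap K Qb (x : K)) := (below_isIntegral x).tower_top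
  obtain ⟨y, hy⟩ := (IsIntegrallyClosed.isIntegral_iff (R := B) (K := Qb)).1 h1
  rw [← hy]
  exact y.2

/-- the ring homomorphism `𝓞 K → B` -/
noncomputable def belowHom (K : Type) [Field K] [NumberField K] [Algebra K Qb]
    (B : ValuationSubring Qb) : 𝓞 K →+* B :=
  ((algebraMap K Qb).comp (algebraMap (𝓞 K) K)).codRestrict B.toSubring (fun x => below_mem B x)

theorem exists_place (B : ValuationSubring Qb) {q : ℕ} (hq : q.Prime) (hB : B.LiesOverPrime q) :
    ∃ v : Pl K, Below K v B := by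
  let P : Ideal (𝓞 K) := (IsLocalRing.maximalIdeal B).comap (belowHom K B)
  have hmem : ∀ x : 𝓞 K, x ∈ P ↔ algebraMap K Qb (x : K) ∈ B.nonunits := by
    intro x
    rw [Ideal.mem_comap, ← ValuationSubring.coe_mem_nonunits_iff]
    rfl
  have hP0 : P ≠ ⊥ := by
    intro h0
    have h1 : (q : 𝓞 K) ∈ P := by
      rw [hmem]
      have h : (q : Qb) ∈ B.nonunits := hB
      simpa using h
    rw [h0, Ideal.mem_bot] at h1
    exact hq.ne_zero (by exact_mod_cast h1)
  exact ⟨⟨P, inferInstance, hP0⟩, hmem⟩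

theorem Below.unique {v v' : Pl K} {B : ValuationSubring Qb} (h : Below K v B)
    (h' : Below K v' B) : v = v' := by
  apply HeightOneSpectrum.ext
  ext x
  rw [h x, h' x]

theorem Below.overQ_iff {v : Pl K} {B : ValuationSubring Qb} (h : Below K v B) (q : ℕ) :
    OverQ K q v ↔ B.LiesOverPrime q := by
  unfold OverQ ValuationSubring.LiesOverPrime
  rw [h]
  simp

theorem exists_prime_overQ (v : Pl K) : ∃ q : ℕ, q.Prime ∧ OverQ K q v := by
  obtain ⟨q, A, hq, hA, h⟩ :=
    S14.G.exists_valuationSubring_of_prime K v.asIdeal v.isPrime v.ne_bot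
  exact ⟨q, hq, (Below.overQ_iff (v := v) (B := A) h q).2 hA⟩

theorem Below.smul {v : Pl K} {B : ValuationSubring Qb} (h : Below K v B) {g : GQ}
    (hg : g ∈ fixG K) : Below K v (g • B) := by
  intro x
  rw [mem_nonunits_smul_iff, (fixG K).inv_mem hg (x : K)]
  exact h x

/-- `Gal(ℚ̄/K)` is transitive on the valuation subrings above `v` -/
theorem Below.exists_smul {v : Pl K} {B B' : ValuationSubring Qb} (h : Below K v B)
    (h' : Below K v B') : ∃ g ∈ fixG K, g • B = B' := by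
  let F : IntermediateField ℚ Qb := (IsScalarTower.toAlgHom ℚ K Qb).fieldRange
  have hF : ∀ x : K, algebraMap K Qb x ∈ F := fun x => ⟨x, rfl⟩
  have key : ∀ (C : ValuationSubring Qb), Below K v C → ∀ y : 𝓞 F,
      (y ∈ primeBelow F C ↔ ∃ x : 𝓞 K, x ∈ v.asIdeal ∧ algebraMap K Qb (x : K) = ((y : F) : Qb)) := by
    intro C hC y
    rw [mem_primeBelow_iff]
    obtain ⟨x, hx⟩ : ∃ x : K, algebraMap K Qb x = ((y : F) : Qb) := (y : F).2
    have hxint : IsIntegral ℤ x := by
      have h1 : IsIntegral ℤ ((y : F) : Qb) :=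
        (RingOfIntegers.isIntegral_coe y).map (algebraMap F Qb).toIntAlgHom
      rw [← hx] at h1
      exact (isIntegral_algebraMap_iff (algebraMap K Qb).injective).1 h1
    constructor
    · intro hy
      let x' : 𝓞 K := ⟨x, hxint⟩
      refine ⟨x', (hC x').2 ?_, hx⟩
      show algebraMap K Qb x ∈ C.nonunits
      rw [hx]; exact hy
    · rintro ⟨x', hx'v, hx'⟩
      rw [← hx']
      exact (hC x').1 hx'v
  have hprime : primeBelow F B = primeBelow F B' := by
    ext y
    rw [key B h, key B' h']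
  obtain ⟨g, hg, hgB⟩ := exists_smul_eq_of_primeBelow_eq F B B' hprime
  refine ⟨g, fun x => ?_, hgB⟩
  exact (IntermediateField.mem_fixingSubgroup_iff F g).1 hg _ (hF x)

/-- a place of `ℚ` over `q` consists of the multiples of `q` -/
theorem below_rat_mem_iff {q : ℕ} (hq : q.Prime) (v : Pl ℚ) (hv : (q : 𝓞 ℚ) ∈ v.asIdeal)
    (n : ℤ) : (n : 𝓞 ℚ) ∈ v.asIdeal ↔ (q : ℤ) ∣ n := by
  constructor
  · intro hn
    by_contra hdvd
    have hcop : IsCoprime (q : ℤ) n :=
      ((Nat.prime_iff_prime_int.1 hq).coprime_iff_not_dvd).2 hdvd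
    obtain ⟨a, b, hab⟩ := hcop
    apply v.isPrime.ne_top
    rw [Ideal.eq_top_iff_one]
    have h1 : ((a * q + b * n : ℤ) : 𝓞 ℚ) = 1 := by rw [hab]; simp
    rw [← h1]
    push_cast
    exact v.asIdeal.add_mem (v.asIdeal.mul_mem_left _ hv) (v.asIdeal.mul_mem_left _ hn)
  · rintro ⟨c, rfl⟩
    push_cast
    exact v.asIdeal.mul_mem_right _ hv

/-- `GQ` is transitive on the valuation subrings above `q` -/
theorem exists_smul_eq_of_liesOverPrime {B B' : ValuationSubring Qb} {q : ℕ} (hq : q.Prime)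
    (hB : B.LiesOverPrime q) (hB' : B'.LiesOverPrime q) : ∃ g : GQ, g • B = B' := by
  obtain ⟨v, hv⟩ := exists_place (K := ℚ) B hq hB
  obtain ⟨v', hv'⟩ := exists_place (K := ℚ) B' hq hB'
  have h1 : (q : 𝓞 ℚ) ∈ v.asIdeal := (hv.overQ_iff q).2 hB
  have h2 : (q : 𝓞 ℚ) ∈ v'.asIdeal := (hv'.overQ_iff q).2 hB'
  have hvv : v = v' := by
    apply HeightOneSpectrum.ext
    ext x
    obtain ⟨n, rfl⟩ : ∃ n : ℤ, (n : 𝓞 ℚ) = x :=
      ⟨Rat.ringOfIntegersEquiv x, by
        rw [← map_intCast Rat.ringOfIntegersEquiv.symm, Int.cast_id, RingEquiv.symm_apply_apply]⟩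
    rw [below_rat_mem_iff hq v h1, below_rat_mem_iff hq v' h2]
  subst hvv
  obtain ⟨g, -, hg⟩ := hv.exists_smul hv'
  exact ⟨g, hg⟩

/-- every place over `q` is below a translate of `B` -/
theorem exists_below_smul {B : ValuationSubring Qb} {q : ℕ} (hq : q.Prime)
    (hB : B.LiesOverPrime q) (v : Pl K) (hv : OverQ K q v) :
    ∃ g : GQ, Below K v (g⁻¹ • B) := by
  obtain ⟨B', hB'⟩ := exists_below v
  obtain ⟨g, hg⟩ := exists_smul_eq_of_liesOverPrime hq hB ((hB'.overQ_iff q).1 hv)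
  exact ⟨g⁻¹, by rw [inv_inv, hg]; exact hB'⟩

end Below

end Fermat.Agent.S55.Dict
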