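/-
S55 / block DICT : `v.valuation K` versus a valuation subring `B` of `ℚ̄` above `v` (C1, C2, towers).
Owner: helper292 (task DICT-BelowVal).
-/
import Fermat.Agent.S55.Dict.Defs

set_option autoImplicit false

namespace Fermat.Agent.S55.Dict

open scoped Pointwise
open NumberField IsDedekindDomain WithZero
open Fermat.Agent.S55.NIT (Pl)

namespace BelowValAux

theorem mem_of_isIntegral (B : ValuationSubring Qb) {x : Qb} (hx : IsIntegral ℤ x) : x ∈ B := by
  have h1 : IsIntegral B x := hx.tower_top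
  obtain ⟨y, hy⟩ := IsIntegrallyClosed.isIntegral_iff.mp h1
  exact hy ▸ y.2

variable {K : Type} [Field K] [NumberField K] [Algebra K Qb]

omit [NumberField K] in
theorem algebraMap_mem (B : ValuationSubring Qb) (x : 𝓞 K) : algebraMap K Qb (x : K) ∈ B :=
  mem_of_isIntegral B (x.2.algebraMap)

/-- an element of `𝓞 K` outside `v` is a unit of `B` -/
theorem valuation_eq_one {v : Pl K} {B : ValuationSubring Qb} (h : Below K v B) {d : 𝓞 K}
    (hd : d ∉ v.asIdeal) : B.valuation (algebraMap K Qb (d : K)) = 1 := by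
  have h1 : B.valuation (algebraMap K Qb (d : K)) ≤ 1 :=
    (B.valuation_le_one_iff _).mpr (algebraMap_mem B d)
  have h2 : ¬ B.valuation (algebraMap K Qb (d : K)) < 1 := fun h3 =>
    hd ((h d).mpr (B.mem_nonunits_iff.mpr h3))
  exact le_antisymm h1 (not_lt.mp h2)

/-- clearing the denominator -/
theorem exists_num {v : Pl K} {B : ValuationSubring Qb} (h : Below K v B) {x : K}
    (hx : v.valuation K x ≤ 1) : ∃ n : 𝓞 K, v.valuation K (n : K) = v.valuation K x ∧
      B.valuation (algebraMap K Qb (n : K)) = B.valuation (algebraMap K Qb x) := by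
  obtain ⟨n, ⟨d, hd⟩, hnd⟩ := v.exists_primeCompl_mul_eq_of_integer x hx
  have hd' : d ∉ v.asIdeal := hd
  replace hnd : x * (d : K) = (n : K) := hnd
  refine ⟨n, ?_, ?_⟩
  · rw [← hnd, map_mul]
    have : v.valuation K (d : K) = 1 := v.valuation_eq_one_iff_notMem.mpr hd'
    rw [this, mul_one]
  · rw [← hnd, map_mul, map_mul, valuation_eq_one h hd', mul_one]

theorem mem_of_le_one {v : Pl K} {B : ValuationSubring Qb} (h : Below K v B) {x : K}
    (hx : v.valuation K x ≤ 1) : algebraMap K Qb x ∈ B := by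
  obtain ⟨n, -, h2⟩ := exists_num h hx
  rw [← B.valuation_le_one_iff, ← h2, B.valuation_le_one_iff]
  exact algebraMap_mem B n

theorem mem_nonunits_of_lt_one {v : Pl K} {B : ValuationSubring Qb} (h : Below K v B) {x : K}
    (hx : v.valuation K x < 1) : algebraMap K Qb x ∈ B.nonunits := by
  obtain ⟨n, h1, h2⟩ := exists_num h hx.le
  rw [B.mem_nonunits_iff, ← h2, ← B.mem_nonunits_iff, ← h n,
    ← HeightOneSpectrum.valuation_lt_one_iff_mem (K := K), h1]
  exact hx

end BelowValAux

open BelowValAux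

section BelowVal

variable {K : Type} [Field K] [NumberField K] [Algebra K Qb]

theorem Below.valuation_le_one_iff {v : Pl K} {B : ValuationSubring Qb} (h : Below K v B) (x : K) :
    v.valuation K x ≤ 1 ↔ algebraMap K Qb x ∈ B := by
  refine ⟨mem_of_le_one h, fun hx => ?_⟩
  by_contra hcon
  rw [not_le] at hcon
  have hx0 : v.valuation K x ≠ 0 := (lt_trans zero_lt_one hcon).ne'
  have h1 : v.valuation K x⁻¹ < 1 := by
    rw [map_inv₀]
    exact inv_lt_one_of_one_lt₀ hcon
  have h2 := B.mem_nonunits_iff.mp (mem_nonunits_of_lt_one h h1)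
  rw [map_inv₀, map_inv₀] at h2
  have h3 : B.valuation (algebraMap K Qb x) ≤ 1 := (B.valuation_le_one_iff _).mpr hx
  have hx1 : x ≠ 0 := fun h0 => hx0 (by rw [h0, map_zero])
  have h4 : B.valuation (algebraMap K Qb x) ≠ 0 := by
    rw [Valuation.ne_zero_iff]
    exact (map_ne_zero (algebraMap K Qb)).mpr hx1
  exact absurd h2 (not_lt.mpr ((one_le_inv₀ (zero_lt_iff.mpr h4)).mpr h3))

theorem Below.valuation_lt_one_iff {v : Pl K} {B : ValuationSubring Qb} (h : Below K v B) (x : K) :
    v.valuation K x < 1 ↔ algebraMap K Qb x ∈ B.nonunits := by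
  refine ⟨mem_nonunits_of_lt_one h, fun hx => ?_⟩
  by_contra hcon
  rw [not_lt] at hcon
  have hx0 : v.valuation K x ≠ 0 := (lt_of_lt_of_le zero_lt_one hcon).ne'
  have h1 : v.valuation K x⁻¹ ≤ 1 := by
    rw [map_inv₀]
    exact inv_le_one_of_one_le₀ hcon
  have h2 := (B.valuation_le_one_iff _).mpr (mem_of_le_one h h1)
  rw [map_inv₀, map_inv₀] at h2
  have h3 : B.valuation (algebraMap K Qb x) < 1 := B.mem_nonunits_iff.mp hx
  have hx1 : x ≠ 0 := fun h0 => hx0 (by rw [h0, map_zero])
  have h4 : B.valuation (algebraMap K Qb x) ≠ 0 := by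
    rw [Valuation.ne_zero_iff]
    exact (map_ne_zero (algebraMap K Qb)).mpr hx1
  exact absurd h2 (not_le.mpr ((one_lt_inv₀ (zero_lt_iff.mpr h4)).mpr h3))

/-- C1 -/
theorem Below.valuation_lt_of_close {v : Pl K} {B : ValuationSubring Qb} (h : Below K v B) {q : ℕ}
    (hv : OverQ K q v) (n : ℕ) {x y : K}
    (hc : Close B q (n + 1) (algebraMap K Qb x) (algebraMap K Qb y)) :
    v.valuation K (x - y) < exp (-(n : ℤ)) := by
  obtain ⟨c, hcB, hc⟩ := hc
  by_cases hq : (q : K) = 0
  · have hq' : (q : Qb) = 0 := by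
      have := congrArg (algebraMap K Qb) hq
      rwa [map_natCast, map_zero] at this
    rw [hq', zero_pow (Nat.succ_ne_zero n), zero_mul, ← map_sub] at hc
    have : x - y = 0 := (map_eq_zero (algebraMap K Qb)).mp hc
    rw [this, map_zero]
    exact exp_pos
  · have hc' : algebraMap K Qb ((x - y) / (q : K) ^ (n + 1)) = c := by
      have hq' : (q : Qb) ≠ 0 := by
        intro h0
        apply hq
        apply (algebraMap K Qb).injective
        rw [map_natCast, map_zero, h0]
      rw [map_div₀, map_sub, hc, map_pow, map_natCast]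
      field_simp
    have h1 : v.valuation K ((x - y) / (q : K) ^ (n + 1)) ≤ 1 :=
      (h.valuation_le_one_iff _).mpr (hc' ▸ hcB)
    have hqv : v.valuation K (q : K) ≤ exp (-(1 : ℤ)) := by
      have h2 : v.intValuation (q : 𝓞 K) ≤ exp (-((1 : ℕ) : ℤ)) :=
        (v.intValuation_le_pow_iff_mem _ 1).mpr (by rw [pow_one]; exact hv)
      have h3 : v.valuation K (algebraMap (𝓞 K) K (q : 𝓞 K)) = v.intValuation (q : 𝓞 K) :=
        v.valuation_of_algebraMap _
      rw [map_natCast] at h3
      rw [h3]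
      exact h2
    have hq0 : v.valuation K ((q : K) ^ (n + 1)) ≠ 0 := by
      rw [Valuation.ne_zero_iff]
      exact pow_ne_zero _ hq
    rw [map_div₀, div_le_one₀ (zero_lt_iff.mpr hq0), map_pow] at h1
    refine lt_of_le_of_lt (h1.trans (pow_le_pow_left₀ zero_le hqv (n + 1))) ?_
    rw [← exp_nsmul, exp_lt_exp]
    simp only [nsmul_eq_mul]
    push_cast
    omega

/-- C2 -/
theorem Below.exists_close_of_valuation_lt {v : Pl K} {B : ValuationSubring Qb} (h : Below K v B)
    {q : ℕ} (hq : q.Prime) (n : ℕ) :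
    ∃ N : ℕ, ∀ x y : K, v.valuation K (x - y) < exp (-(N : ℤ)) →
      Close B q n (algebraMap K Qb x) (algebraMap K Qb y) := by
  have hqK : (q : K) ≠ 0 := Nat.cast_ne_zero.mpr hq.ne_zero
  have hq0 : v.valuation K ((q : K) ^ n) ≠ 0 := by
    rw [Valuation.ne_zero_iff]
    exact pow_ne_zero _ hqK
  refine ⟨(-(log (v.valuation K ((q : K) ^ n)))).toNat, fun x y hxy => ?_⟩
  have h1 : exp (-(((-(log (v.valuation K ((q : K) ^ n)))).toNat : ℕ) : ℤ)) ≤
      v.valuation K ((q : K) ^ n) := by
    conv_rhs => rw [← exp_log hq0]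
    rw [exp_le_exp]
    have := Int.self_le_toNat (-(log (v.valuation K ((q : K) ^ n))))
    omega
  have h2 : v.valuation K ((x - y) / (q : K) ^ n) ≤ 1 := by
    rw [map_div₀, div_le_one₀ (zero_lt_iff.mpr hq0)]
    exact (hxy.trans_le h1).le
  refine ⟨algebraMap K Qb ((x - y) / (q : K) ^ n), (h.valuation_le_one_iff _).mp h2, ?_⟩
  have hqQ : (q : Qb) ≠ 0 := Nat.cast_ne_zero.mpr hq.ne_zero
  rw [map_div₀, map_sub, map_pow, map_natCast]
  field_simp

variable {L : Type} [Field L] [NumberField L] [Algebra K L] [Algebra L Qb] [IsScalarTower K L Qb]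

theorem Below.above {w : Pl L} {v : Pl K} {B : ValuationSubring Qb} (hw : Below L w B)
    (hv : Below K v B) : NIT.Above v w := by
  ext x
  rw [Ideal.under, Ideal.mem_comap, hw, hv]
  have : ((algebraMap (𝓞 K) (𝓞 L) x : 𝓞 L) : L) = algebraMap K L (x : K) := rfl
  rw [this, ← IsScalarTower.algebraMap_apply K L Qb]

theorem Below.of_above {w : Pl L} {v : Pl K} {B : ValuationSubring Qb} (hw : Below L w B)
    (h : NIT.Above v w) : Below K v B := by
  intro x
  have h' : w.asIdeal.under (𝓞 K) = v.asIdeal := h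
  rw [← h', Ideal.under, Ideal.mem_comap, hw]
  have : ((algebraMap (𝓞 K) (𝓞 L) x : 𝓞 L) : L) = algebraMap K L (x : K) := rfl
  rw [this, ← IsScalarTower.algebraMap_apply K L Qb]

end BelowVal

end Fermat.Agent.S55.Dict
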