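/-
S55 / block DICT : API of `Close B q n x y` (`x ≡ y` modulo `q ^ n B`), pure valuation-subring
algebra in `ℚ̄`.  (task DICT-Close, owner helper50)
-/
import Fermat.Agent.S55.Dict.Defs

set_option autoImplicit false

namespace Fermat.Agent.S55.Dict

open scoped Pointwise
open NumberField IsDedekindDomain WithZero
open Fermat.Agent.S55.NIT (Pl)

section Close

variable {B : ValuationSubring Qb} {q n : ℕ}

theorem closeAux_natCast_pow_mem (B : ValuationSubring Qb) (q n : ℕ) : (q : Qb) ^ n ∈ B :=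
  pow_mem (natCast_mem B q) n

theorem Close.refl (x : Qb) : Close B q n x x := ⟨0, B.zero_mem, by simp⟩

theorem Close.symm {x y : Qb} (h : Close B q n x y) : Close B q n y x := by
  obtain ⟨c, hc, h⟩ := h
  exact ⟨-c, B.neg_mem _ hc, by rw [mul_neg, ← h, neg_sub]⟩

theorem Close.trans {x y z : Qb} (h : Close B q n x y) (h' : Close B q n y z) :
    Close B q n x z := by
  obtain ⟨c, hc, h⟩ := h
  obtain ⟨c', hc', h'⟩ := h'
  exact ⟨c + c', B.add_mem _ _ hc hc', by rw [mul_add, ← h, ← h']; ring⟩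

theorem Close.mono {m : ℕ} (hmn : m ≤ n) {x y : Qb} (h : Close B q n x y) : Close B q m x y := by
  obtain ⟨c, hc, h⟩ := h
  refine ⟨(q : Qb) ^ (n - m) * c, B.mul_mem _ _ (closeAux_natCast_pow_mem B q _) hc, ?_⟩
  rw [h, ← mul_assoc, ← pow_add, Nat.add_sub_cancel' hmn]

theorem Close.add {x y x' y' : Qb} (h : Close B q n x y) (h' : Close B q n x' y') :
    Close B q n (x + x') (y + y') := by
  obtain ⟨c, hc, h⟩ := h
  obtain ⟨c', hc', h'⟩ := h'
  exact ⟨c + c', B.add_mem _ _ hc hc', by rw [mul_add, ← h, ← h']; ring⟩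

/-- `1 + q^n B` is stable under products -/
theorem Close.mul_one {x y : Qb} (h : Close B q n x 1) (h' : Close B q n y 1) :
    Close B q n (x * y) 1 := by
  obtain ⟨c, hc, h⟩ := h
  obtain ⟨c', hc', h'⟩ := h'
  refine ⟨c + c' + (q : Qb) ^ n * c * c', B.add_mem _ _ (B.add_mem _ _ hc hc')
    (B.mul_mem _ _ (B.mul_mem _ _ (closeAux_natCast_pow_mem B q _) hc) hc'), ?_⟩
  have hx : x = 1 + (q : Qb) ^ n * c := by rw [← h]; ring
  have hy : y = 1 + (q : Qb) ^ n * c' := by rw [← h']; ring
  rw [hx, hy]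
  ring

/-- `1 + q^n B` is stable under inverses (`n ≥ 1`, `B` over `q`) -/
theorem Close.inv_one (hB : B.LiesOverPrime q) (hn : 1 ≤ n) {x : Qb} (h : Close B q n x 1) :
    Close B q n x⁻¹ 1 := by
  obtain ⟨c, hc, h⟩ := h
  have hx : x = 1 + (q : Qb) ^ n * c := by rw [← h]; ring
  have hq : B.valuation (q : Qb) < 1 := (ValuationSubring.mem_nonunits_iff B).1 hB
  have hc1 : B.valuation c ≤ 1 := (B.valuation_le_one_iff c).2 hc
  have hsmall : B.valuation ((q : Qb) ^ n * c) < 1 := by
    rw [map_mul, map_pow]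
    calc B.valuation (q : Qb) ^ n * B.valuation c ≤ B.valuation (q : Qb) ^ n * 1 := by gcongr
      _ = B.valuation (q : Qb) ^ n := _root_.mul_one _
      _ < 1 := pow_lt_one₀ zero_le hq (by omega)
  have hvx : B.valuation x = 1 := by
    rw [hx]
    exact Valuation.map_one_add_of_lt _ hsmall
  have hx0 : x ≠ 0 := by
    intro h0
    rw [h0, map_zero] at hvx
    exact zero_ne_one hvx
  have hxinv : x⁻¹ ∈ B := by
    rw [← B.valuation_le_one_iff, map_inv₀, hvx, _root_.inv_one]
  refine ⟨-(c * x⁻¹), B.neg_mem _ (B.mul_mem _ _ hc hxinv), ?_⟩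
  have : x⁻¹ - 1 = -((x - 1) * x⁻¹) := by
    field_simp
    ring
  rw [this, h]
  ring

theorem Close.map (g : GQ) {x y : Qb} (h : Close B q n x y) :
    Close (g • B) q n (g x) (g y) := by
  obtain ⟨c, hc, h⟩ := h
  refine ⟨g c, ValuationSubring.smul_mem_pointwise_smul g c B hc, ?_⟩
  rw [← map_sub, h, map_mul, map_pow, map_natCast]

theorem close_smul_iff (g : GQ) (x y : Qb) :
    Close (g • B) q n x y ↔ Close B q n (g⁻¹ x) (g⁻¹ y) := by
  constructor
  · intro h
    have h1 := h.map g⁻¹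
    rwa [inv_smul_smul] at h1
  · intro h
    have h1 := h.map g
    have e : ∀ z : Qb, g (g⁻¹ z) = z := fun z => g.apply_symm_apply z
    rwa [e, e] at h1

theorem close_iff_valuation (x y : Qb) :
    Close B q n x y ↔ B.valuation (x - y) ≤ B.valuation (q : Qb) ^ n := by
  constructor
  · rintro ⟨c, hc, h⟩
    rw [h, map_mul, map_pow]
    calc B.valuation (q : Qb) ^ n * B.valuation c ≤ B.valuation (q : Qb) ^ n * 1 := by
          gcongr
          exact (B.valuation_le_one_iff c).2 hc
      _ = B.valuation (q : Qb) ^ n := _root_.mul_one _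
  · intro h
    by_cases h0 : (q : Qb) ^ n = 0
    · rw [← map_pow, h0, map_zero, le_zero_iff, map_eq_zero] at h
      exact ⟨0, B.zero_mem, by rw [h, mul_zero]⟩
    · refine ⟨(x - y) / (q : Qb) ^ n, ?_, by field_simp⟩
      rw [← B.valuation_le_one_iff, map_div₀, map_pow]
      have hpos : 0 < B.valuation (q : Qb) ^ n := by
        rw [← map_pow]
        exact zero_lt_iff.2 ((map_ne_zero _).2 h0)
      exact (div_le_one₀ hpos).2 h

theorem closeAux_mem_of_isIntegral_int (B : ValuationSubring Qb) {x : Qb} (hx : IsIntegral ℤ x) :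
    x ∈ B := by
  have h1 : IsIntegral B x := hx.tower_top
  obtain ⟨a, ha⟩ := IsIntegrallyClosed.algebraMap_eq_of_integral h1
  rw [← ha]
  exact a.2

/-- an integer prime to `q` is a unit of `B` -/
theorem closeAux_inv_natCast_mem_of_coprime (hB : B.LiesOverPrime q) {m : ℕ} (hm : Nat.Coprime m q) :
    ((m : Qb))⁻¹ ∈ B := by
  have hq : B.valuation (q : Qb) < 1 := (ValuationSubring.mem_nonunits_iff B).1 hB
  -- Bezout
  have hbez : (m : ℤ) * Nat.gcdA m q + (q : ℤ) * Nat.gcdB m q = 1 := by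
    have := Nat.gcd_eq_gcd_ab m q
    rw [hm] at this
    exact_mod_cast this.symm
  have hbez' : (m : Qb) * ((Nat.gcdA m q : ℤ) : Qb) + (q : Qb) * ((Nat.gcdB m q : ℤ) : Qb) = 1 := by
    exact_mod_cast congrArg (fun z : ℤ => (z : Qb)) hbez
  have hint : ∀ z : ℤ, B.valuation (z : Qb) ≤ 1 := fun z =>
    (B.valuation_le_one_iff _).2 (intCast_mem B z)
  have hm1 : B.valuation (m : Qb) ≤ 1 := (B.valuation_le_one_iff _).2 (natCast_mem B m)
  have hv : B.valuation (m : Qb) = 1 := by
    by_contra hne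
    have hlt : B.valuation (m : Qb) < 1 := lt_of_le_of_ne hm1 hne
    have h1 : B.valuation ((m : Qb) * ((Nat.gcdA m q : ℤ) : Qb)) < 1 := by
      rw [map_mul]
      calc _ ≤ B.valuation (m : Qb) * 1 := by
            gcongr
            exact hint _
        _ < 1 := by rwa [_root_.mul_one]
    have h2 : B.valuation ((q : Qb) * ((Nat.gcdB m q : ℤ) : Qb)) < 1 := by
      rw [map_mul]
      calc _ ≤ B.valuation (q : Qb) * 1 := by
            gcongr
            exact hint _
        _ < 1 := by rwa [_root_.mul_one]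
    have h3 := Valuation.map_add_lt _ h1 h2
    rw [hbez', map_one] at h3
    exact lt_irrefl _ h3
  rw [← B.valuation_le_one_iff, map_inv₀, hv, _root_.inv_one]

/-- the value group has rank one: powers of `q` are cofinal -/
theorem exists_pow_mul_mem (hq : q.Prime) (hB : B.LiesOverPrime q) (x : Qb) :
    ∃ k : ℕ, (q : Qb) ^ k * x ∈ B := by
  have halg : IsAlgebraic ℤ x :=
    (IsFractionRing.isAlgebraic_iff ℤ ℚ Qb).mpr ((AlgebraicClosure.isAlgebraic ℚ).isAlgebraic x)
  obtain ⟨N, hN0, hN⟩ := halg.exists_integral_multiple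
  have hNx : (N : Qb) * x ∈ B := by
    have := closeAux_mem_of_isIntegral_int B hN
    rwa [zsmul_eq_mul] at this
  -- `|N| = q ^ k * m` with `m` prime to `q`
  have hNa : N.natAbs ≠ 0 := Int.natAbs_ne_zero.2 hN0
  obtain ⟨k, m, hm, hkm⟩ := Nat.exists_eq_pow_mul_and_not_dvd hNa q hq.ne_one
  have hcop : Nat.Coprime m q := ((Nat.Prime.coprime_iff_not_dvd hq).2 hm).symm
  have hminv := closeAux_inv_natCast_mem_of_coprime hB hcop
  have hm0 : (m : Qb) ≠ 0 := by
    intro h0
    have : m = 0 := by exact_mod_cast h0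
    exact hm (this ▸ dvd_zero q)
  have habs : ((N.natAbs : ℕ) : Qb) * x ∈ B := by
    rcases Int.natAbs_eq N with h | h
    · have : (N : Qb) = ((N.natAbs : ℕ) : Qb) := by
        conv_lhs => rw [h]
        exact Int.cast_natCast _
      rwa [← this]
    · have : (N : Qb) = -((N.natAbs : ℕ) : Qb) := by
        conv_lhs => rw [h]
        rw [Int.cast_neg, Int.cast_natCast]
      have h2 : ((N.natAbs : ℕ) : Qb) = -(N : Qb) := by rw [this, neg_neg]
      rw [h2, neg_mul]
      exact B.neg_mem _ hNx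
  refine ⟨k, ?_⟩
  have : (q : Qb) ^ k * x = ((m : Qb))⁻¹ * (((N.natAbs : ℕ) : Qb) * x) := by
    rw [hkm]
    push_cast
    field_simp
  rw [this]
  exact B.mul_mem _ _ hminv habs

/-- from additive to multiplicative closeness -/
theorem Close.div_one {k : ℕ} {x y : Qb} (hy : y ≠ 0) (hk : (q : Qb) ^ k * y⁻¹ ∈ B)
    (h : Close B q (n + k) x y) : Close B q n (x / y) 1 := by
  obtain ⟨c, hc, h⟩ := h
  refine ⟨(q : Qb) ^ k * y⁻¹ * c, B.mul_mem _ _ hk hc, ?_⟩
  have : x / y - 1 = (x - y) * y⁻¹ := by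
    field_simp
  rw [this, h, pow_add]
  ring

theorem closeAux_apply_mem_iff_of_mem_Dec {d : GQ} (hd : d ∈ Dec B) (z : Qb) : d z ∈ B ↔ z ∈ B := by
  have h : d • z ∈ d • B ↔ z ∈ B := ValuationSubring.smul_mem_pointwise_smul_iff
  rw [mem_Dec.1 hd] at h
  exact h

theorem closeAux_valuation_apply_lt_one_of_mem_Dec {d : GQ} (hd : d ∈ Dec B) {z : Qb}
    (hz : B.valuation z < 1) : B.valuation (d z) < 1 := by
  rw [← ValuationSubring.mem_nonunits_iff, ValuationSubring.mem_nonunits_iff_or] at hz ⊢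
  rcases hz with hz | hz
  · left
    rw [hz, map_zero]
  · right
    rw [← map_inv₀, closeAux_apply_mem_iff_of_mem_Dec hd]
    exact hz

theorem closeAux_exists_pow_apply_eq (d : GQ) (x : Qb) : ∃ m : ℕ, 0 < m ∧ (d ^ m) x = x := by
  have hx : IsIntegral ℚ x := (AlgebraicClosure.isAlgebraic ℚ).isAlgebraic x |>.isIntegral
  have hfin : ((minpoly ℚ x).rootSet Qb).Finite := Polynomial.rootSet_finite _ _
  have hmem : ∀ k : ℕ, (d ^ k) x ∈ (minpoly ℚ x).rootSet Qb := by
    intro k
    rw [Polynomial.mem_rootSet]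
    refine ⟨minpoly.ne_zero hx, ?_⟩
    have := Polynomial.aeval_algHom_apply ((d ^ k : GQ) : Qb →ₐ[ℚ] Qb) x (minpoly ℚ x)
    rw [minpoly.aeval, map_zero] at this
    exact this
  obtain ⟨a, b, hab, h⟩ := hfin.exists_lt_map_eq_of_forall_mem hmem
  refine ⟨b - a, by omega, ?_⟩
  have hb : d ^ b = d ^ a * d ^ (b - a) := by rw [← pow_add]; congr 1; omega
  rw [hb] at h
  exact ((d ^ a).injective h).symm

theorem closeAux_not_valuation_apply_div_lt_one {d : GQ} (hd : d ∈ Dec B) {x : Qb} (hx : x ≠ 0) :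
    ¬ B.valuation (d x / x) < 1 := by
  intro hlt
  have hiter : ∀ k : ℕ, B.valuation ((d ^ k) (d x / x)) < 1 := by
    intro k
    induction k with
    | zero => simpa using hlt
    | succ k ih =>
      have := closeAux_valuation_apply_lt_one_of_mem_Dec hd ih
      rwa [pow_succ'] 
  have hprod : ∀ k : ℕ, B.valuation ((d ^ (k + 1)) x / x) < 1 := by
    intro k
    induction k with
    | zero => simpa using hlt
    | succ k ih =>
      have hne : (d ^ (k + 1)) x ≠ 0 := (map_ne_zero _).2 hx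
      have e : (d ^ (k + 1 + 1)) x / x = (d ^ (k + 1)) (d x / x) * ((d ^ (k + 1)) x / x) := by
        rw [map_div₀, pow_succ (d) (k + 1)]
        change (d ^ (k + 1)) (d x) / x = _
        field_simp
      rw [e, map_mul]
      exact mul_lt_one_of_nonneg_of_lt_one_left zero_le (hiter _) ih.le
  obtain ⟨m, hm, hmx⟩ := closeAux_exists_pow_apply_eq d x
  obtain ⟨k, rfl⟩ : ∃ k, m = k + 1 := ⟨m - 1, by omega⟩
  have := hprod k
  rw [hmx, div_self hx, map_one] at this
  exact lt_irrefl _ this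

/-- elements of `Dec B` preserve the valuation -/
theorem valuation_apply_of_mem_Dec {d : GQ} (hd : d ∈ Dec B) (x : Qb) :
    B.valuation (d x) = B.valuation x := by
  by_cases hx : x = 0
  · rw [hx, map_zero]
  have h1 := closeAux_not_valuation_apply_div_lt_one hd hx
  have h2 := closeAux_not_valuation_apply_div_lt_one hd (inv_ne_zero hx)
  have hdx : d x ≠ 0 := (map_ne_zero _).2 hx
  have e : d x⁻¹ / x⁻¹ = (d x / x)⁻¹ := by
    rw [map_inv₀]
    field_simp
  rw [e, map_inv₀] at h2
  have hne : B.valuation (d x / x) ≠ 0 := (map_ne_zero _).2 (div_ne_zero hdx hx)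
  have h3 : B.valuation (d x / x) = 1 := by
    apply le_antisymm
    · by_contra hgt
      exact h2 (inv_lt_one_of_one_lt₀ (not_le.1 hgt))
    · exact not_lt.1 h1
  rw [map_div₀] at h3
  exact (div_eq_one_iff_eq ((map_ne_zero _).2 hx)).1 h3

theorem finprod_close_one {ι : Type} [Finite ι] (u : ι → Kx) (h : ∀ i, Close B q n (u i).val 1) :
    Close B q n (∑ᶠ i, u i).val 1 := by
  classical
  have := Fintype.ofFinite ι
  rw [finsum_eq_sum_of_fintype]
  have key : ∀ s : Finset ι, Close B q n (∑ i ∈ s, u i).val 1 := by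
    intro s
    induction s using Finset.induction_on with
    | empty =>
      rw [Finset.sum_empty, Kx.val_zero]
      exact Close.refl 1
    | insert a s ha ih =>
      rw [Finset.sum_insert ha, Kx.val_add]
      exact (h a).mul_one ih
  exact key _

end Close
end Fermat.Agent.S55.Dict
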