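/-
S55 / block DICT : section Dense (A2, A4, A3, M1), re-export of helper56's files `Dict/Dense/*`.
-/
import Fermat.Agent.S55.Dict.Dense.InHens
import Fermat.Agent.S55.Dict.Dense.WeakApprox
import Fermat.Agent.S55.Dict.Dense.Equivariant
import Fermat.Agent.S55.Dict.Dense.Mult
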