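/-
S55 / block DICT, node E1a (task DICT-LocNormA, helper70): proof of `mem_locNorm_of_isLocNormAt`.
This is the final content of `Fermat/Agent/S55/Dict/LocNormA.lean`; only the import lines have to be
changed (drop `.WIP`) when the files `Fix, Close, Below, BelowVal, Dense, Norm` have landed.
-/
import Fermat.Agent.S55.Dict.Fix
import Fermat.Agent.S55.Dict.Close
import Fermat.Agent.S55.Dict.Below
import Fermat.Agent.S55.Dict.BelowVal
import Fermat.Agent.S55.Dict.Dense
import Fermat.Agent.S55.Dict.Norm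

set_option autoImplicit false

namespace Fermat.Agent.S55.Dict

open scoped Pointwise
open NumberField IsDedekindDomain WithZero
open Fermat.Agent.S55.NIT (Pl)

section LocNormA

variable {K L : Type} [Field K] [NumberField K] [Field L] [NumberField L] [Algebra K L]
  [Algebra K Qb] [Algebra L Qb] [IsScalarTower K L Qb]

/-- E1a : henselian local norm ⟹ approximation local norm. -/
theorem mem_locNorm_of_isLocNormAt {B : ValuationSubring Qb} {q : ℕ} (hq : q.Prime)
    (hB : B.LiesOverPrime q) {v : Pl K} {g : GQ} (hv : Below K v (g⁻¹ • B)) (a : Kˣ)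
    (h : IsLocNormAt K L B (g : GQ ⧸ fixG K) (g • kx K a)) : a ∈ NIT.locNorm K L v := by
  obtain ⟨f, hf, hfa⟩ := h
  have hvq : OverQ K q v := (hv.overQ_iff q).mpr (liesOverPrime_smul B g⁻¹ q hB)
  rw [NIT.locNorm, Subgroup.mem_iInf]
  intro n
  obtain ⟨b, hb⟩ := exists_glob_close hq hB f hf (n + 1)
  set c : Kˣ := Units.map (Algebra.norm K : L →* K) b with hc
  have h1 := close_push K L (f - glob L b) hb (g : GQ ⧸ fixG K)
  rw [map_sub, push_glob, IndMod.sub_apply, hfa, glob_mk, ← smul_sub, Kx.val_smul] at h1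
  have h2 : (kx K a - kx K c).val = algebraMap K Qb ((a / c : Kˣ) : K) := by
    rw [sub_eq_add_neg, Kx.val_add, Kx.val_neg, kx_val, kx_val, Units.val_div_eq_div_val,
      map_div₀, div_eq_mul_inv]
  rw [h2] at h1
  have h3 : Close (g⁻¹ • B) q (n + 1) (algebraMap K Qb ((a / c : Kˣ) : K))
      (algebraMap K Qb (1 : K)) := by
    rw [close_smul_iff, inv_inv, map_one, map_one]
    exact h1
  have h4 : a / c ∈ NIT.pu v n := NIT.mem_pu.mpr (hv.valuation_lt_of_close hvq n h3)
  rw [Subgroup.mem_sup]
  exact ⟨c, ⟨b, rfl⟩, a / c, h4, by simp⟩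

end LocNormA

end Fermat.Agent.S55.Dict
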