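/-
S55 / block DICT : `D`-invariant functions on a `GQ`-set (Frobenius reciprocity, cut-off,
push/pull).  Pure `G`-set manipulations.
-/
import Fermat.Agent.S55.Dict.Defs

set_option autoImplicit false

namespace Fermat.Agent.S55.Dict

open scoped Pointwise
open NumberField IsDedekindDomain WithZero
open Fermat.Agent.S55.NIT (Pl)

section Orbit

variable (D : Subgroup GQ) {X Y : Type} [MulAction GQ X] [MulAction GQ Y]

/-- R1 : Frobenius reciprocity -/
theorem exists_invD_apply_eq (x₀ : X) (t : Kx) (ht : ∀ d ∈ D, d • x₀ = x₀ → d • t = t) :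
    ∃ f ∈ invD D X, f x₀ = t ∧ ∀ x, (∀ d ∈ D, d • x₀ ≠ x) → f x = 0 := by
  classical
  let F : X → Kx := fun x => if h : ∃ d ∈ D, d • x₀ = x then h.choose • t else 0
  have hF : ∀ d ∈ D, F (d • x₀) = d • t := by
    intro d hd
    have h : ∃ d' ∈ D, d' • x₀ = d • x₀ := ⟨d, hd, rfl⟩
    have h1 : F (d • x₀) = h.choose • t := dif_pos h
    obtain ⟨h2, h3⟩ := h.choose_spec
    rw [h1]
    have h4 : (d⁻¹ * h.choose) • t = t := by
      refine ht _ (D.mul_mem (D.inv_mem hd) h2) ?_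
      rw [mul_smul, h3, inv_smul_smul]
    rw [mul_smul, inv_smul_eq_iff] at h4
    exact h4
  have hF0 : ∀ x, (∀ d ∈ D, d • x₀ ≠ x) → F x = 0 := by
    intro x hx
    exact dif_neg (by rintro ⟨d, hd, h⟩; exact hx d hd h)
  refine ⟨IndMod.of F, ?_, ?_, hF0⟩
  · intro d hd
    refine IndMod.ext fun x => ?_
    show d • F (d⁻¹ • x) = F x
    by_cases h : ∃ e ∈ D, e • x₀ = x
    · obtain ⟨e, he, rfl⟩ := h
      rw [← mul_smul, hF _ (D.mul_mem (D.inv_mem hd) he), hF e he, ← mul_smul,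
        mul_inv_cancel_left]
    · have h1 : ∀ e ∈ D, e • x₀ ≠ x := fun e he hx => h ⟨e, he, hx⟩
      have h2 : ∀ e ∈ D, e • x₀ ≠ d⁻¹ • x := by
        intro e he hx
        refine h1 (d * e) (D.mul_mem hd he) ?_
        rw [mul_smul, hx, smul_inv_smul]
      rw [hF0 _ h1, hF0 _ h2, smul_zero]
  · have := hF 1 D.one_mem
    rwa [one_smul, one_smul] at this

/-- R2 : cutting an invariant function down to a `D`-stable subset -/
theorem exists_invD_restrict (f : IndMod X Kx) (hf : f ∈ invD D X) (s : Set X)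
    (hs : ∀ d ∈ D, ∀ x, x ∈ s → d • x ∈ s) :
    ∃ f' ∈ invD D X, (∀ x ∈ s, f' x = f x) ∧ ∀ x, x ∉ s → f' x = 0 := by
  classical
  refine ⟨IndMod.of fun x => if x ∈ s then f x else 0, ?_, fun x hx => if_pos hx,
    fun x hx => if_neg hx⟩
  intro d hd
  refine IndMod.ext fun x => ?_
  show d • (if d⁻¹ • x ∈ s then f (d⁻¹ • x) else 0) = if x ∈ s then f x else 0
  have hiff : d⁻¹ • x ∈ s ↔ x ∈ s := by
    constructor
    · intro h
      have := hs d hd _ h
      rwa [smul_inv_smul] at this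
    · exact hs d⁻¹ (D.inv_mem hd) x
  have hfx : d • f (d⁻¹ • x) = f x := by
    have := congrArg (fun g : IndMod X Kx => g x) (hf d hd)
    exact this
  by_cases hx : x ∈ s
  · rw [if_pos hx, if_pos (hiff.2 hx), hfx]
  · rw [if_neg hx, if_neg (fun h => hx (hiff.1 h)), smul_zero]

theorem apply_smul_of_mem_invD {f : IndMod X Kx} (hf : f ∈ invD D X) {d : GQ} (hd : d ∈ D) (x : X) :
    f (d • x) = d • f x := by
  have := congrArg (fun g : IndMod X Kx => g (d • x)) (hf d hd)
  simp only [IndMod.smul_apply, inv_smul_smul] at this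
  exact this.symm

theorem pull_mem_invD (u : Y →[GQ] X) {f : IndMod X Kx} (hf : f ∈ invD D X) :
    IndMod.pull Kx u f ∈ invD D Y := by
  intro d hd
  rw [← map_smul, hf d hd]

theorem push_mem_invD [Finite Y] (u : Y →[GQ] X) {f : IndMod Y Kx} (hf : f ∈ invD D Y) :
    IndMod.push Kx u f ∈ invD D X := by
  intro d hd
  rw [← map_smul, hf d hd]

theorem smul_mem_invD_conj (g : GQ) {f : IndMod X Kx} (hf : f ∈ invD D X) :
    g • f ∈ invD (D.map (MulAut.conj g).toMonoidHom) X := by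
  rintro _ ⟨d, hd, rfl⟩
  show (g * d * g⁻¹) • g • f = g • f
  rw [← mul_smul, inv_mul_cancel_right, mul_smul, hf d hd]

end Orbit
end Fermat.Agent.S55.Dict
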