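/-
S55 / block DICT, task DICT-Root: `p`-th roots of elements close to `1` in a valuation subring of
`ℚ̄`.
-/
import Fermat.Agent.S55.Dict.Defs

set_option autoImplicit false

namespace Fermat.Agent.S55.Dict

open scoped Pointwise
open NumberField IsDedekindDomain WithZero
open Fermat.Agent.S55.NIT (Pl)

section Root

variable {p : ℕ} {B : ValuationSubring Qb} {ζ : Qb}

private theorem valuation_zeta_aux (hp : p.Prime) (hζ : IsPrimitiveRoot ζ p) :
    B.valuation ζ = 1 := by
  have h : B.valuation ζ ^ p = 1 := by rw [← map_pow, hζ.pow_eq_one, map_one]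
  exact (pow_eq_one_iff.1 h).resolve_right hp.ne_zero

private theorem valuation_one_sub_pow_le_aux {x : Qb} (hx : x ∈ B) (k : ℕ) :
    B.valuation (1 - x ^ k) ≤ B.valuation (1 - x) := by
  rw [← geom_sum_mul_neg, map_mul]
  have : B.valuation (∑ i ∈ Finset.range k, x ^ i) ≤ 1 :=
    (B.valuation_le_one_iff _).2 (sum_mem fun i _ => pow_mem hx i)
  exact mul_le_of_le_one_left' this

theorem valuation_one_sub_zeta_pow (hp : p.Prime) (hζ : IsPrimitiveRoot ζ p) (k : ℕ)
    (hk : ¬ p ∣ k) : B.valuation (1 - ζ ^ k) = B.valuation (1 - ζ) := by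
  have hζB : ζ ∈ B := (B.valuation_le_one_iff _).1 (valuation_zeta_aux hp hζ).le
  apply le_antisymm (valuation_one_sub_pow_le_aux hζB k)
  have hcop : Nat.Coprime k p := ((Nat.Prime.coprime_iff_not_dvd hp).2 hk).symm
  obtain ⟨k', _, hk'⟩ := Nat.exists_mul_mod_eq_one_of_coprime hcop hp.one_lt
  have h1 : (ζ ^ k) ^ k' = ζ := by
    rw [← pow_mul, ← Nat.mod_add_div (k * k') p, hk', pow_add, pow_mul, hζ.pow_eq_one, one_pow,
      mul_one, pow_one]
  calc B.valuation (1 - ζ) = B.valuation (1 - (ζ ^ k) ^ k') := by rw [h1]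
    _ ≤ _ := valuation_one_sub_pow_le_aux (pow_mem hζB k) k'

theorem valuation_one_sub_zeta_pow_pred (hp : p.Prime) (hζ : IsPrimitiveRoot ζ p) :
    B.valuation (1 - ζ) ^ (p - 1) = B.valuation (p : Qb) := by
  have : Fact p.Prime := ⟨hp⟩
  have : NeZero p := ⟨hp.ne_zero⟩
  have h1 : (p : Qb) = ∏ μ ∈ primitiveRoots p Qb, (1 - μ) := by
    have h2 := congrArg (Polynomial.eval 1) (Polynomial.cyclotomic_eq_prod_X_sub_primitiveRoots hζ)
    rw [Polynomial.eval_one_cyclotomic_prime, Polynomial.eval_prod] at h2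
    simpa using h2
  rw [h1, map_prod]
  have h3 : ∀ μ ∈ primitiveRoots p Qb, B.valuation (1 - μ) = B.valuation (1 - ζ) := by
    intro μ hμ
    rw [mem_primitiveRoots hp.pos, hζ.isPrimitiveRoot_iff] at hμ
    obtain ⟨i, _, hi, rfl⟩ := hμ
    exact valuation_one_sub_zeta_pow hp hζ i ((Nat.Prime.coprime_iff_not_dvd hp).1 hi.symm)
  rw [Finset.prod_congr rfl h3, Finset.prod_const, hζ.card_primitiveRoots, Nat.totient_prime hp]

theorem root_unique (hp : p.Prime) (hζ : IsPrimitiveRoot ζ p) {s s' : Qb} (h : s ^ p = s' ^ p)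
    (hs : B.valuation (s - 1) < B.valuation (1 - ζ))
    (hs' : B.valuation (s' - 1) < B.valuation (1 - ζ)) : s = s' := by
  have : NeZero p := ⟨hp.ne_zero⟩
  have hζ1 : B.valuation ζ = 1 := valuation_zeta_aux hp hζ
  have hζB : ζ ∈ B := (B.valuation_le_one_iff _).1 hζ1.le
  have hπ : B.valuation (1 - ζ) ≤ 1 := (B.valuation_le_one_iff _).2 (sub_mem B.one_mem hζB)
  have hs0 : s ≠ 0 := by
    rintro rfl
    rw [zero_sub, Valuation.map_neg, map_one] at hs
    exact absurd hs (not_lt.2 hπ)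
  have h1 : (s' / s) ^ p = 1 := by rw [div_pow, ← h, div_self (pow_ne_zero _ hs0)]
  obtain ⟨k, hk, hks⟩ := hζ.eq_pow_of_pow_eq_one h1
  have hss : s' = ζ ^ k * s := by rw [hks]; field_simp
  by_cases hpk : p ∣ k
  · have hk0 : k = 0 := Nat.eq_zero_of_dvd_of_lt hpk hk
    rw [hss, hk0, pow_zero, one_mul]
  · exfalso
    have e : s' - 1 = ζ ^ k * (s - 1) + (ζ ^ k - 1) := by rw [hss]; ring
    have v0 : B.valuation (ζ ^ k - 1) = B.valuation (1 - ζ) := by
      rw [Valuation.map_sub_swap, valuation_one_sub_zeta_pow hp hζ k hpk]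
    have v1 : B.valuation (ζ ^ k * (s - 1)) < B.valuation (ζ ^ k - 1) := by
      rw [map_mul, map_pow, hζ1, one_pow, one_mul, v0]
      exact hs
    have v2 : B.valuation (s' - 1) = B.valuation (ζ ^ k - 1) := by
      rw [e]
      exact Valuation.map_add_eq_of_lt_right _ v1
    rw [v2, v0] at hs'
    exact lt_irrefl _ hs'

theorem exists_root (hp : p.Prime) (hζ : IsPrimitiveRoot ζ p) (t : Qb)
    (ht : B.valuation (t - 1) < B.valuation (1 - ζ) * B.valuation (p : Qb)) :
    ∃ s : Qb, s ^ p = t ∧ B.valuation (s - 1) < B.valuation (1 - ζ) := by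
  have : NeZero p := ⟨hp.ne_zero⟩
  obtain ⟨ρ, hρ⟩ := IsAlgClosed.exists_pow_nat_eq t hp.pos
  by_contra hcon
  push Not at hcon
  have hprod : 1 - t = ∏ μ ∈ Polynomial.nthRootsFinset p (1 : Qb), (1 - μ * ρ) := by
    have := hζ.pow_sub_pow_eq_prod_sub_mul 1 ρ hp.pos
    rw [one_pow, hρ] at this
    exact this
  have hle : B.valuation (1 - ζ) ^ p ≤ B.valuation (1 - t) := by
    rw [hprod, map_prod]
    calc B.valuation (1 - ζ) ^ p
        = ∏ _μ ∈ Polynomial.nthRootsFinset p (1 : Qb), B.valuation (1 - ζ) := by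
          rw [Finset.prod_const, hζ.card_nthRootsFinset]
      _ ≤ _ := Finset.prod_le_prod' (fun μ hμ => by
          rw [Polynomial.mem_nthRootsFinset hp.pos] at hμ
          have := hcon (μ * ρ) (by rw [mul_pow, hμ, one_mul, hρ])
          rwa [Valuation.map_sub_swap _ (μ * ρ)] at this)
  rw [← valuation_one_sub_zeta_pow_pred hp hζ, ← pow_succ', Nat.sub_add_cancel hp.one_le,
    Valuation.map_sub_swap] at ht
  exact absurd ht (not_lt.2 hle)

private theorem liesOverPrime_unique_aux {q q' : ℕ} (hq : q.Prime) (hq' : q'.Prime)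
    (h1 : B.valuation (q : Qb) < 1) (h2 : B.valuation (q' : Qb) < 1) : q = q' := by
  by_contra hne
  have hcop : IsCoprime (q : ℤ) (q' : ℤ) :=
    Nat.isCoprime_iff_coprime.2 ((Nat.coprime_primes hq hq').2 hne)
  obtain ⟨a, b, hab⟩ := hcop
  have ha : B.valuation (a : Qb) ≤ 1 := (B.valuation_le_one_iff _).2 (intCast_mem B a)
  have hb : B.valuation (b : Qb) ≤ 1 := (B.valuation_le_one_iff _).2 (intCast_mem B b)
  have h3 : B.valuation ((a : Qb) * q) < 1 := by
    rw [map_mul]; exact lt_of_le_of_lt (mul_le_of_le_one_left' ha) h1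
  have h4 : B.valuation ((b : Qb) * q') < 1 := by
    rw [map_mul]; exact lt_of_le_of_lt (mul_le_of_le_one_left' hb) h2
  have h5 : B.valuation ((a : Qb) * q + (b : Qb) * q') < 1 :=
    lt_of_le_of_lt (B.valuation.map_add _ _) (max_lt h3 h4)
  have h6 : ((a : Qb) * q + (b : Qb) * q') = 1 := by exact_mod_cast congrArg (Int.cast : ℤ → Qb) hab
  rw [h6, map_one] at h5
  exact lt_irrefl _ h5

/-- level `2` is enough -/
theorem valuation_lt_of_close_two (hp : p.Prime) (hp2 : p ≠ 2) (hζ : IsPrimitiveRoot ζ p) {q : ℕ}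
    (hq : q.Prime) (hB : B.LiesOverPrime q) {t : Qb} (ht : Close B q 2 t 1) :
    B.valuation (t - 1) < B.valuation (1 - ζ) * B.valuation (p : Qb) := by
  obtain ⟨c, hc, htc⟩ := ht
  have hq1 : B.valuation (q : Qb) < 1 := (B.mem_nonunits_iff).1 hB
  have hle : B.valuation (t - 1) ≤ B.valuation (q : Qb) ^ 2 := by
    rw [htc, map_mul, map_pow]
    exact mul_le_of_le_one_right' ((B.valuation_le_one_iff _).2 hc)
  have hpow := valuation_one_sub_zeta_pow_pred (B := B) hp hζ
  have hp3 : 3 ≤ p := by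
    have := hp.two_le
    omega
  by_cases hqp : q = p
  · subst hqp
    have hπ0 : B.valuation (1 - ζ) ≠ 0 :=
      (map_ne_zero _).2 (sub_ne_zero.2 (hζ.ne_one hp.one_lt).symm)
    have hπ1 : B.valuation (1 - ζ) < 1 := by
      by_contra h
      rw [not_lt] at h
      have h2 : 1 ≤ B.valuation (1 - ζ) ^ (q - 1) := one_le_pow_of_one_le' h (q - 1)
      rw [hpow] at h2
      exact absurd h2 (not_le.2 hq1)
    refine lt_of_le_of_lt hle ?_
    rw [← hpow, ← pow_mul, ← pow_succ']
    exact pow_lt_pow_right_of_lt_one₀ (zero_lt_iff.2 hπ0) hπ1 (by omega)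
  · have hp1 : B.valuation (p : Qb) = 1 := by
      by_contra hne
      have hlt : B.valuation (p : Qb) < 1 :=
        lt_of_le_of_ne ((B.valuation_le_one_iff _).2 (natCast_mem B p)) hne
      exact hqp (liesOverPrime_unique_aux hq hp hq1 hlt)
    rw [hp1] at hpow
    have hπ : B.valuation (1 - ζ) = 1 := (pow_eq_one_iff.1 hpow).resolve_right (by omega)
    rw [hπ, hp1, one_mul]
    exact lt_of_le_of_lt hle (pow_lt_one' hq1 (by norm_num))

end Root

end Fermat.Agent.S55.Dict
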