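/-
S55 / block DICT : `RootFixed` (O1, O2): the distinguished `p`-th root of an element close to `1`
is fixed by the part of the decomposition group which fixes the element.
-/
import Fermat.Agent.S55.Dict.Root

set_option autoImplicit false

namespace Fermat.Agent.S55.Dict

open scoped Pointwise
open NumberField IsDedekindDomain WithZero
open Fermat.Agent.S55.NIT (Pl)

section RootFixed

variable {p : ℕ} {B : ValuationSubring Qb}

theorem RootFixed.apply_mem_of_mem_Dec {d : GQ} (hd : d ∈ Dec B) {y : Qb} (hy : y ∈ B) : d y ∈ B := by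
  have h := ValuationSubring.smul_mem_pointwise_smul d y B hy
  rw [mem_Dec.mp hd] at h
  exact h

theorem RootFixed.valuation_le_iff (a : Qb) {b : Qb} (hb : b ≠ 0) :
    B.valuation a ≤ B.valuation b ↔ a / b ∈ B := by
  rw [← ValuationSubring.valuation_le_one_iff, map_div₀,
    div_le_one₀ (zero_lt_iff.mpr ((map_ne_zero _).mpr hb))]

theorem RootFixed.valuation_apply_le {d : GQ} (hd : d ∈ Dec B) {a b : Qb}
    (h : B.valuation a ≤ B.valuation b) : B.valuation (d a) ≤ B.valuation (d b) := by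
  by_cases hb : b = 0
  · rw [hb, map_zero, le_zero_iff, map_eq_zero] at h
    rw [h, hb]
  · rw [RootFixed.valuation_le_iff a hb] at h
    rw [RootFixed.valuation_le_iff _ ((map_ne_zero d).mpr hb), ← map_div₀]
    exact RootFixed.apply_mem_of_mem_Dec hd h

theorem RootFixed.valuation_apply_lt {d : GQ} (hd : d ∈ Dec B) {a b : Qb}
    (h : B.valuation a < B.valuation b) : B.valuation (d a) < B.valuation (d b) := by
  by_contra hcon
  rw [not_lt] at hcon
  have h2 := RootFixed.valuation_apply_le (inv_mem hd) hcon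
  have e : ∀ z : Qb, d⁻¹ (d z) = z := fun z => d.symm_apply_apply z
  rw [e, e] at h2
  exact absurd h (not_lt.mpr h2)

theorem RootFixed.exists_pow_apply_eq (d : GQ) (x : Qb) : ∃ n : ℕ, (d ^ (n + 1)) x = x := by
  have hx : IsIntegral ℚ x := ((AlgebraicClosure.isAlgebraic ℚ).isAlgebraic x).isIntegral
  have hfin : ((minpoly ℚ x).rootSet Qb).Finite := Polynomial.rootSet_finite _ _
  have hmem : ∀ n : ℕ, (d ^ n) x ∈ (minpoly ℚ x).rootSet Qb := by
    intro n
    rw [Polynomial.mem_rootSet]
    refine ⟨minpoly.ne_zero hx, ?_⟩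
    have := Polynomial.aeval_algHom_apply ((d ^ n : GQ) : Qb →ₐ[ℚ] Qb) x (minpoly ℚ x)
    rw [minpoly.aeval, map_zero] at this
    exact this
  have : Finite ((minpoly ℚ x).rootSet Qb) := hfin
  obtain ⟨i, j, hij, h⟩ := Finite.exists_ne_map_eq_of_infinite
    (fun n : ℕ => (⟨(d ^ n) x, hmem n⟩ : (minpoly ℚ x).rootSet Qb))
  have h' : (d ^ i) x = (d ^ j) x := congrArg Subtype.val h
  have key : ∀ i j : ℕ, i < j → (d ^ i) x = (d ^ j) x → ∃ n : ℕ, (d ^ (n + 1)) x = x := by
    intro i j hlt he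
    obtain ⟨n, rfl⟩ := Nat.exists_eq_add_of_lt hlt
    refine ⟨n, ?_⟩
    have e : d ^ (i + n + 1) = d ^ i * d ^ (n + 1) := by rw [← pow_add]; congr 1
    rw [e] at he
    exact ((d ^ i).injective he).symm
  rcases lt_or_gt_of_ne hij with hlt | hlt
  · exact key i j hlt h'
  · exact key j i hlt h'.symm

/-- elements of `Dec B` preserve the valuation -/
theorem RootFixed.valuation_apply_of_mem_Dec {d : GQ} (hd : d ∈ Dec B) (x : Qb) :
    B.valuation (d x) = B.valuation x := by
  obtain ⟨n, hn⟩ := RootFixed.exists_pow_apply_eq d x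
  have e : ∀ (m : ℕ) (z : Qb), (d ^ (m + 1)) z = d ((d ^ m) z) := by
    intro m z
    rw [pow_succ']
    rfl
  rcases lt_trichotomy (B.valuation (d x)) (B.valuation x) with h | h | h
  · exfalso
    have : ∀ m : ℕ, B.valuation ((d ^ (m + 1)) x) < B.valuation x := by
      intro m
      induction m with
      | zero => simpa using h
      | succ m ih =>
        rw [e]
        exact (RootFixed.valuation_apply_lt hd ih).trans h
    have h2 := this n
    rw [hn] at h2
    exact lt_irrefl _ h2
  · exact h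
  · exfalso
    have : ∀ m : ℕ, B.valuation x < B.valuation ((d ^ (m + 1)) x) := by
      intro m
      induction m with
      | zero => simpa using h
      | succ m ih =>
        rw [e]
        exact h.trans (RootFixed.valuation_apply_lt hd ih)
    have h2 := this n
    rw [hn] at h2
    exact lt_irrefl _ h2

theorem exists_primitiveRoot_Qb (hp : p.Prime) : ∃ ζ : Qb, IsPrimitiveRoot ζ p := by
  have : NeZero p := ⟨hp.ne_zero⟩
  have : NeZero (p : Qb) := ⟨Nat.cast_ne_zero.mpr hp.ne_zero⟩
  exact HasEnoughRootsOfUnity.exists_primitiveRoot Qb p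

/-- The distinguished root: existence, and equivariance under `Dec B`. -/
theorem exists_distinguished_root (hp : p.Prime) (hp2 : p ≠ 2) {ζ : Qb}
    (hζ : IsPrimitiveRoot ζ p) {q : ℕ} (hq : q.Prime)
    (hB : B.LiesOverPrime q) (t : Qb) (ht : Close B q 2 t 1) :
    ∃ s : Qb, s ^ p = t ∧ B.valuation (s - 1) < B.valuation (1 - ζ) :=
  exists_root hp hζ t (valuation_lt_of_close_two hp hp2 hζ hq hB ht)

theorem distinguished_root_map (hp : p.Prime) {ζ : Qb} (hζ : IsPrimitiveRoot ζ p)
    {s s' : Qb} (hs : B.valuation (s - 1) < B.valuation (1 - ζ))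
    (hs' : B.valuation (s' - 1) < B.valuation (1 - ζ)) {d : GQ} (hd : d ∈ Dec B)
    (h : d (s ^ p) = s' ^ p) : d s = s' := by
  refine root_unique hp hζ (by rw [← map_pow]; exact h) ?_ hs'
  have : d s - 1 = d (s - 1) := by rw [map_sub, map_one]
  rw [this, RootFixed.valuation_apply_of_mem_Dec hd]
  exact hs

/-- O1 -/
theorem exists_root_fixed (hp : p.Prime) (hp2 : p ≠ 2) {q : ℕ} (hq : q.Prime)
    (hB : B.LiesOverPrime q) (t : Qb) (ht : Close B q 2 t 1) (D : Subgroup GQ) (hD : D ≤ Dec B)
    (hfix : ∀ d ∈ D, d t = t) : ∃ s : Qb, s ^ p = t ∧ ∀ d ∈ D, d s = s := by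
  obtain ⟨ζ, hζ⟩ := exists_primitiveRoot_Qb hp
  obtain ⟨s, hst, hs⟩ := exists_distinguished_root hp hp2 hζ hq hB t ht
  refine ⟨s, hst, fun d hd => ?_⟩
  exact distinguished_root_map hp hζ hs hs (hD hd) (by rw [hst]; exact hfix d hd)

/-- O2 -/
theorem exists_nsmul_eq_of_close (hp : p.Prime) (hp2 : p ≠ 2) {q : ℕ} (hq : q.Prime)
    (hB : B.LiesOverPrime q) {X : Type} [MulAction GQ X] (f : IndMod X Kx)
    (hf : f ∈ invD (Dec B) X) (hc : ∀ x, Close B q 2 (f x).val 1) :
    ∃ f₂ ∈ invD (Dec B) X, p • f₂ = f := by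
  obtain ⟨ζ, hζ⟩ := exists_primitiveRoot_Qb hp
  choose s hst hs using fun x => exists_distinguished_root hp hp2 hζ hq hB (f x).val (hc x)
  have hs0 : ∀ x, s x ≠ 0 := by
    intro x h0
    have h1 := hst x
    rw [h0, zero_pow hp.ne_zero] at h1
    exact (Additive.toMul (f x) : Qbˣ).ne_zero h1.symm
  let f₂ : IndMod X Kx := IndMod.of fun x => Additive.ofMul (Units.mk0 (s x) (hs0 x))
  have hval : ∀ x, (f₂ x).val = s x := fun _ => rfl
  have hext : ∀ a b : Kx, a.val = b.val → a = b := fun a b h =>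
    Additive.toMul.injective (Units.ext h)
  refine ⟨f₂, ?_, ?_⟩
  · rw [mem_invD]
    intro d hd
    refine IndMod.ext fun x => hext _ _ ?_
    rw [IndMod.smul_apply, Kx.val_smul, hval, hval]
    refine distinguished_root_map hp hζ (hs _) (hs _) hd ?_
    rw [hst, hst, ← Kx.val_smul]
    have h1 := congrArg (fun F : IndMod X Kx => (F x).val) (mem_invD.mp hf d hd)
    simpa using h1
  · refine IndMod.ext fun x => hext _ _ ?_
    rw [IndMod.nsmul_apply, ← hst x, ← hval x]
    rfl
end RootFixed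

end Fermat.Agent.S55.Dict
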