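/-
S55 / block DICT : E1b, approximation local norm ⟹ henselian local norm (degree `p`).
-/
import Fermat.Agent.S55.Dict.Fix
import Fermat.Agent.S55.Dict.Close
import Fermat.Agent.S55.Dict.BelowVal
import Fermat.Agent.S55.Dict.RootFixed
import Fermat.Agent.S55.Dict.Orbit
import Fermat.Agent.S55.Dict.Glob
import Fermat.Agent.S55.Dict.Norm

set_option autoImplicit false

namespace Fermat.Agent.S55.Dict

open scoped Pointwise
open NumberField IsDedekindDomain WithZero
open Fermat.Agent.S55.NIT (Pl)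

section LocNormB

variable {K L : Type} [Field K] [NumberField K] [Field L] [NumberField L] [Algebra K L]
  [Algebra K Qb] [Algebra L Qb] [IsScalarTower K L Qb]

omit [NumberField K] in
/-- An element of `GQ` fixing the coset `g U_K` fixes `g x` for `x ∈ K`. -/
theorem apply_apply_algebraMap_of_smul_mk_eq {d g : GQ}
    (h : d • (g : GQ ⧸ fixG K) = (g : GQ ⧸ fixG K)) (x : K) :
    d (g (algebraMap K Qb x)) = g (algebraMap K Qb x) := by
  have h1 : ((d * g : GQ) : GQ ⧸ fixG K) = (g : GQ ⧸ fixG K) := h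
  have h2 : g⁻¹ * (d * g) ∈ fixG K := QuotientGroup.eq.1 h1.symm
  have h3 := h2 x
  have h4 : g ((g⁻¹ * (d * g)) (algebraMap K Qb x)) = g (algebraMap K Qb x) := by rw [h3]
  have h5 : g ((g⁻¹ * (d * g)) (algebraMap K Qb x)) = d (g (algebraMap K Qb x)) := by
    show g (g⁻¹ (d (g (algebraMap K Qb x)))) = _
    exact g.apply_symm_apply _
  rw [← h5, h4]

/-- E1b : approximation local norm ⟹ henselian local norm (degree `p`). -/
theorem isLocNormAt_of_mem_locNorm {p : ℕ} (hp : p.Prime) (hp2 : p ≠ 2)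
    (hdeg : Module.finrank K L = p) {B : ValuationSubring Qb} {q : ℕ} (hq : q.Prime)
    (hB : B.LiesOverPrime q) {v : Pl K} {g : GQ} (hv : Below K v (g⁻¹ • B)) (a : Kˣ)
    (h : a ∈ NIT.locNorm K L v) : IsLocNormAt K L B (g : GQ ⧸ fixG K) (g • kx K a) := by
  -- choose the level
  obtain ⟨N, hN⟩ := hv.exists_close_of_valuation_lt hq 2
  have h1 : a ∈ NIT.nrm K L ⊔ NIT.pu v N := (Subgroup.mem_iInf.1 h) N
  obtain ⟨c, ⟨b, rfl⟩, u, hu, rfl⟩ := Subgroup.mem_sup.1 h1
  -- `g u` is close to `1`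
  have hc0 : Close (g⁻¹ • B) q 2 (algebraMap K Qb (u : K)) (algebraMap K Qb 1) :=
    hN _ _ (NIT.mem_pu.1 hu)
  have hc1 : Close B q 2 (g (algebraMap K Qb (u : K))) 1 := by
    have := hc0.map g
    rwa [smul_inv_smul, map_one, map_one] at this
  -- the root
  set x₀ : GQ ⧸ fixG K := (g : GQ ⧸ fixG K) with hx₀
  obtain ⟨s, hs, hsfix⟩ := exists_root_fixed hp hp2 hq hB (g (algebraMap K Qb (u : K))) hc1
    (Dec B ⊓ MulAction.stabilizer GQ x₀) inf_le_left
    (fun d hd => apply_apply_algebraMap_of_smul_mk_eq (MulAction.mem_stabilizer_iff.1 hd.2) _)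
  have hs0 : s ≠ 0 := by
    rintro rfl
    rw [zero_pow hp.ne_zero] at hs
    have : algebraMap K Qb (u : K) = 0 := by
      apply g.injective
      rw [← hs, map_zero]
    exact u.ne_zero ((map_eq_zero _).1 this)
  set t : Kx := Additive.ofMul (Units.mk0 s hs0) with ht
  have htfix : ∀ d ∈ Dec B, d • x₀ = x₀ → d • t = t := by
    intro d hd hdx
    apply Additive.toMul.injective
    apply Units.ext
    exact hsfix d ⟨hd, MulAction.mem_stabilizer_iff.2 hdx⟩
  obtain ⟨f₁, hf₁, hf₁x, -⟩ := exists_invD_apply_eq (Dec B) x₀ t htfix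
  refine ⟨glob L b + IndMod.pull Kx (proj K L) f₁,
    add_mem (glob_mem_invD L _ b) (pull_mem_invD _ _ hf₁), ?_⟩
  rw [map_add, push_glob, push_pull, hdeg, IndMod.add_apply, IndMod.nsmul_apply, hf₁x, hx₀,
    glob_mk, kx_mul, smul_add]
  congr 1
  apply Additive.toMul.injective
  apply Units.ext
  exact hs

end LocNormB

end Fermat.Agent.S55.Dict
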