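/-
S55 / block DICT : E1c (all places over `q` at once) and E2 (local = global · local norm).
Owner: helper181.
-/
import Fermat.Agent.S55.Dict.Fix
import Fermat.Agent.S55.Dict.Orbit
import Fermat.Agent.S55.Dict.Below
import Fermat.Agent.S55.Dict.Glob
import Fermat.Agent.S55.Dict.Norm
import Fermat.Agent.S55.Dict.Dense
import Fermat.Agent.S55.Dict.RootFixed
import Fermat.Agent.S55.Dict.LocNormA
import Fermat.Agent.S55.Dict.LocNormB

set_option autoImplicit false

namespace Fermat.Agent.S55.Dict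

open scoped Pointwise
open NumberField IsDedekindDomain WithZero
open Fermat.Agent.S55.NIT (Pl)

section LocNormC

/-- translates of a valuation subring over `q` lie over `q`. -/
theorem liesOverPrime_smul_aux {B : ValuationSubring Qb} {q : ℕ} (hB : B.LiesOverPrime q) (g : GQ) :
    (g • B).LiesOverPrime q := by
  have hB' : (q : Qb) ∈ B.nonunits := hB
  show (q : Qb) ∈ (g • B).nonunits
  rw [ValuationSubring.mem_nonunits_iff_or] at hB' ⊢
  rw [ValuationSubring.mem_pointwise_smul_iff_inv_smul_mem]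
  have h2 : g⁻¹ • ((q : Qb))⁻¹ = ((q : Qb))⁻¹ := by
    have : g⁻¹ • ((q : Qb))⁻¹ = (g⁻¹ (q : Qb))⁻¹ := map_inv₀ (g⁻¹) (q : Qb)
    rw [this, map_natCast]
  rw [h2]
  exact hB'

variable {K L : Type} [Field K] [NumberField K] [Field L] [NumberField L] [Algebra K L]
  [Algebra K Qb] [Algebra L Qb] [IsScalarTower K L Qb]

/-- E2 : every local element is a global element times a local norm. -/
theorem exists_glob_add_push {p : ℕ} (hp : p.Prime) (hp2 : p ≠ 2)
    (hdeg : Module.finrank K L = p) {B : ValuationSubring Qb} {q : ℕ} (hq : q.Prime)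
    (hB : B.LiesOverPrime q) (f₀ : IndMod (GQ ⧸ fixG K) Kx)
    (hf₀ : f₀ ∈ invD (Dec B) (GQ ⧸ fixG K)) :
    ∃ a : Kˣ, ∃ f ∈ invD (Dec B) (GQ ⧸ fixG L),
      f₀ = glob K a + IndMod.push Kx (proj K L) f := by
  obtain ⟨a, ha⟩ := exists_glob_close hq hB f₀ hf₀ 2
  obtain ⟨f₂, hf₂, e⟩ := exists_nsmul_eq_of_close hp hp2 hq hB (f₀ - glob K a)
    ((invD (Dec B) _).sub_mem hf₀ (glob_mem_invD K (Dec B) a)) ha
  refine ⟨a, IndMod.pull Kx (proj K L) f₂, pull_mem_invD (Dec B) (proj K L) hf₂, ?_⟩
  rw [push_pull, hdeg, e]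
  abel

/-- the local norm datum at one point of `X_K`. -/
theorem exists_push_apply_eq_glob {p : ℕ} (hp : p.Prime) (hp2 : p ≠ 2)
    (hdeg : Module.finrank K L = p) {B : ValuationSubring Qb} {q : ℕ} (hq : q.Prime)
    (hB : B.LiesOverPrime q) (a : Kˣ) (h : ∀ v : Pl K, OverQ K q v → a ∈ NIT.locNorm K L v)
    (x : GQ ⧸ fixG K) :
    ∃ f ∈ invD (Dec B) (GQ ⧸ fixG L), IndMod.push Kx (proj K L) f x = glob K a x := by
  induction x using QuotientGroup.induction_on with
  | H g =>
    have hgB : (g⁻¹ • B).LiesOverPrime q := liesOverPrime_smul_aux hB g⁻¹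
    obtain ⟨v, hv⟩ := exists_place (K := K) (g⁻¹ • B) hq hgB
    exact isLocNormAt_of_mem_locNorm hp hp2 hdeg hq hB hv a (h v ((hv.overQ_iff q).mpr hgB))

/-- E1c : all places over `q` at once. -/
theorem exists_push_eq_glob_iff {p : ℕ} (hp : p.Prime) (hp2 : p ≠ 2)
    (hdeg : Module.finrank K L = p) {B : ValuationSubring Qb} {q : ℕ} (hq : q.Prime)
    (hB : B.LiesOverPrime q) (a : Kˣ) :
    (∃ f ∈ invD (Dec B) (GQ ⧸ fixG L), IndMod.push Kx (proj K L) f = glob K a) ↔
      ∀ v : Pl K, OverQ K q v → a ∈ NIT.locNorm K L v := by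
  classical
  constructor
  · rintro ⟨f, hf, e⟩ v hv
    obtain ⟨g, hg⟩ := exists_below_smul hq hB v hv
    exact mem_locNorm_of_isLocNormAt hq hB hg a ⟨f, hf, by rw [e, glob_mk]⟩
  · intro h
    -- the orbits of `Dec B` on `X_K`
    let Ω := MulAction.orbitRel.Quotient (Dec B) (GQ ⧸ fixG K)
    have : Finite Ω := Quotient.finite _
    have : Fintype Ω := Fintype.ofFinite Ω
    let cls : GQ ⧸ fixG K → Ω := Quotient.mk _
    have hcls : ∀ d ∈ Dec B, ∀ x, cls (d • x) = cls x := fun d hd x =>
      Quotient.sound (MulAction.orbitRel_apply.mpr ⟨⟨d, hd⟩, rfl⟩)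
    -- the chosen data
    choose F hF hFx using fun ω : Ω =>
      exists_push_apply_eq_glob hp hp2 hdeg hq hB a h (Quotient.out ω)
    choose F' hF' hF'in hF'out using fun ω : Ω =>
      exists_invD_restrict (Dec B) (F ω) (hF ω) {y | cls (proj K L y) = ω}
        (fun d hd y hy => by
          show cls (proj K L (d • y)) = ω
          rw [map_smul, hcls d hd]
          exact hy)
    refine ⟨∑ ω, F' ω, (invD (Dec B) _).sum_mem fun ω _ => hF' ω, ?_⟩
    -- values of the sum
    have hval : ∀ y, (∑ ω, F' ω) y = F (cls (proj K L y)) y := fun y => by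
      rw [IndMod.finset_sum_apply, Finset.sum_eq_single (cls (proj K L y))]
      · exact hF'in _ y rfl
      · intro ω _ hω
        exact hF'out ω y fun hy => hω hy.symm
      · intro hn
        exact absurd (Finset.mem_univ _) hn
    ext x
    have h1 : IndMod.push Kx (proj K L) (∑ ω, F' ω) x = IndMod.push Kx (proj K L) (F (cls x)) x := by
      rw [IndMod.push_apply, IndMod.push_apply]
      refine finsum_congr fun y => ?_
      rw [hval, y.2]
    rw [h1]
    -- both sides are `Dec B`-equivariant and agree at the representative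
    obtain ⟨⟨d, hd⟩, hdx⟩ : x ∈ MulAction.orbit (Dec B) (Quotient.out (cls x)) :=
      MulAction.orbitRel_apply.mp (Quotient.exact (Quotient.out_eq (cls x)).symm)
    have hdx' : d • Quotient.out (cls x) = x := hdx
    have e1 := apply_smul_of_mem_invD (Dec B) (push_mem_invD (Dec B) (proj K L) (hF (cls x))) hd
      (Quotient.out (cls x))
    have e2 := apply_smul_of_mem_invD (Dec B) (glob_mem_invD K (Dec B) a) hd (Quotient.out (cls x))
    rw [hdx'] at e1 e2
    rw [e1, e2, hFx]

end LocNormC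

end Fermat.Agent.S55.Dict
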