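/-
S55 / block DICT, task DICT-Split (helper66): one prime above `v` <-> `Dec B` transitive on the fibre
of `X_L → X_K`; embeddings adapted to a place.
-/
import Fermat.Agent.S55.Dict.FinalDefs
import Fermat.Agent.S55.Dict.Fix
import Fermat.Agent.S55.Dict.Below
import Fermat.Agent.S55.Dict.BelowVal
import Fermat.Agent.S55.Bridge.LocalImage

set_option autoImplicit false

namespace Fermat.Agent.S55.Dict

open scoped Pointwise
open NumberField IsDedekindDomain WithZero
open Fermat.Agent.S55.NIT (Pl)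
open Fermat.Agent.Lib.WeakChebotarev.Transfer

section Split

variable {K L : Type} [Field K] [NumberField K] [Field L] [NumberField L] [Algebra K L]
  [Algebra K Qb] [Algebra L Qb] [IsScalarTower K L Qb]

omit [Algebra K L] [IsScalarTower K L Qb] in
/-- a valuation ring above a place of `K` has a place of `L` below it -/
theorem split_exists_place {v : Pl K} {B : ValuationSubring Qb} (hv : Below K v B) :
    ∃ w : Pl L, Below L w B := by
  obtain ⟨q, hq, hqv⟩ := exists_prime_overQ v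
  exact exists_place B hq ((hv.overQ_iff q).1 hqv)

omit [Algebra K Qb] [Algebra L Qb] [IsScalarTower K L Qb] in
theorem split_mem_primesOver {v : Pl K} {w : Pl L} (h : NIT.Above v w) :
    w.asIdeal ∈ v.asIdeal.primesOver (𝓞 L) :=
  ⟨w.isPrime, ⟨h.symm⟩⟩

/-- a place with one prime above it = the decomposition group is transitive on the fibre -/
theorem nonsplitAt_of_ncard_eq_one {v : Pl K} {B : ValuationSubring Qb} {g : GQ}
    (hv : Below K v (g⁻¹ • B)) (h1 : (v.asIdeal.primesOver (𝓞 L)).ncard = 1) :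
    NonsplitAt (Dec B) (proj K L) (g : GQ ⧸ fixG K) := by
  intro y y' hy hy'
  induction y using QuotientGroup.induction_on with
  | H a =>
  induction y' using QuotientGroup.induction_on with
  | H a' =>
  have ha : a⁻¹ * g ∈ fixG K := QuotientGroup.eq.1 hy
  have ha' : a'⁻¹ * g ∈ fixG K := QuotientGroup.eq.1 hy'
  have hb : Below K v (a⁻¹ • B) := by
    have := hv.smul ha
    rwa [smul_smul, mul_assoc, mul_inv_cancel, mul_one] at this
  have hb' : Below K v (a'⁻¹ • B) := by
    have := hv.smul ha'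
    rwa [smul_smul, mul_assoc, mul_inv_cancel, mul_one] at this
  obtain ⟨w, hw⟩ := split_exists_place (L := L) hb
  obtain ⟨w', hw'⟩ := split_exists_place (L := L) hb'
  obtain ⟨P, hP⟩ := Set.ncard_eq_one.1 h1
  have e1 : w.asIdeal = P := by
    have := split_mem_primesOver (hw.above hb)
    rw [hP] at this
    exact this
  have e2 : w'.asIdeal = P := by
    have := split_mem_primesOver (hw'.above hb')
    rw [hP] at this
    exact this
  have hww : w = w' := HeightOneSpectrum.ext (e1.trans e2.symm)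
  subst hww
  obtain ⟨h, hh, hhB⟩ := hw.exists_smul hw'
  refine ⟨a' * h * a⁻¹, ?_, ?_⟩
  · rw [mem_Dec, mul_smul, mul_smul, hhB, smul_smul, mul_inv_cancel, one_smul]
  · show (((a' * h * a⁻¹) * a : GQ) : GQ ⧸ fixG L) = (a' : GQ ⧸ fixG L)
    rw [QuotientGroup.eq]
    have : (a' * h * a⁻¹ * a)⁻¹ * a' = h⁻¹ := by group
    rw [this]
    exact (fixG L).inv_mem hh

theorem ncard_eq_one_of_nonsplitAt {v : Pl K} {B : ValuationSubring Qb} {g : GQ}
    (hv : Below K v (g⁻¹ • B)) (h : NonsplitAt (Dec B) (proj K L) (g : GQ ⧸ fixG K)) :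
    (v.asIdeal.primesOver (𝓞 L)).ncard = 1 := by
  obtain ⟨w₀, hw₀⟩ := split_exists_place (L := L) hv
  rw [Set.ncard_eq_one]
  refine ⟨w₀.asIdeal, Set.eq_singleton_iff_unique_mem.2
    ⟨split_mem_primesOver (hw₀.above hv), ?_⟩⟩
  rintro P ⟨hPprime, hPover⟩
  have hP0 : P ≠ ⊥ := by
    rintro rfl
    have h1 : v.asIdeal = (⊥ : Ideal (𝓞 L)).under (𝓞 K) := hPover.over
    apply v.ne_bot
    rw [h1, Ideal.under, Ideal.comap_bot_of_injective]
    exact RingOfIntegers.algebraMap.injective K L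
  let w : Pl L := ⟨P, hPprime, hP0⟩
  have hwv : NIT.Above v w := hPover.over.symm
  obtain ⟨B'', hB''⟩ := exists_below w
  have hvB'' : Below K v B'' := hB''.of_above hwv
  obtain ⟨u, hu, huB⟩ := hv.exists_smul hvB''
  obtain ⟨d, hd, hdy⟩ := h ((g : GQ) : GQ ⧸ fixG L) ((g * u⁻¹ : GQ) : GQ ⧸ fixG L) rfl (by
    show ((g * u⁻¹ : GQ) : GQ ⧸ fixG K) = (g : GQ ⧸ fixG K)
    rw [QuotientGroup.eq]
    have : (g * u⁻¹)⁻¹ * g = u := by group
    rw [this]
    exact hu)
  have hk : (d * g)⁻¹ * (g * u⁻¹) ∈ fixG L := QuotientGroup.eq.1 hdy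
  set k : GQ := (d * g)⁻¹ * (g * u⁻¹) with hkdef
  have hu' : u = k⁻¹ * g⁻¹ * d⁻¹ * g := by
    rw [hkdef]; group
  have hdB : d⁻¹ • B = B := by
    rw [inv_smul_eq_iff]
    exact (mem_Dec.1 hd).symm
  have hB2 : B'' = k⁻¹ • (g⁻¹ • B) := by
    rw [← huB, hu', mul_smul, mul_smul, mul_smul, smul_smul g, mul_inv_cancel, one_smul, hdB]
  have h3 : Below L w₀ B'' := by
    rw [hB2]
    exact hw₀.smul ((fixG L).inv_mem hk)
  have : w₀ = w := h3.unique hB''
  rw [this]

theorem pl_liesOverPrime (q : Nat.Primes) : (pl q).LiesOverPrime q := by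
  have : Fact (q : ℕ).Prime := ⟨q.2⟩
  exact Fermat.Agent.S55.Bridge.padicPlace_liesOverPrime (q : ℕ)

/-- abstract number fields embed in `ℚ̄` in such a way that a given place lies below `pl q` -/
theorem exists_algebra_below (K L : Type) [Field K] [NumberField K] [Field L] [NumberField L]
    [Algebra K L] (q : Nat.Primes) (v : Pl K) (hv : ((q : ℕ) : 𝓞 K) ∈ v.asIdeal) :
    ∃ (_ : Algebra K Qb) (_ : Algebra L Qb), IsScalarTower K L Qb ∧ Below K v (pl q) := by
  have : Algebra.IsAlgebraic ℚ L := inferInstance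
  let φ : L →ₐ[ℚ] Qb := IsAlgClosed.lift
  -- first embedding
  obtain ⟨g, hg⟩ : ∃ g : GQ, ∀ x : 𝓞 K, x ∈ v.asIdeal ↔
      φ (algebraMap K L (x : K)) ∈ (g⁻¹ • pl q).nonunits := by
    letI : Algebra K Qb := ((φ : L →+* Qb).comp (algebraMap K L)).toAlgebra
    obtain ⟨g, hg⟩ := exists_below_smul (K := K) q.2 (pl_liesOverPrime q) v hv
    exact ⟨g, hg⟩
  let ψ : L →+* Qb := ((g : Qb →+* Qb)).comp (φ : L →+* Qb)
  letI a1 : Algebra L Qb := ψ.toAlgebra
  letI a2 : Algebra K Qb := (ψ.comp (algebraMap K L)).toAlgebra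
  refine ⟨a2, a1, IsScalarTower.of_algebraMap_eq fun x => rfl, fun x => ?_⟩
  rw [hg x, mem_nonunits_smul_iff, inv_inv]
  rfl

end Split

end Fermat.Agent.S55.Dict
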