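/-
S55 / block DICT : N3 (Hasse norm theorem) in the field-free function language.
Owner: helper117.
-/
import Fermat.Agent.S55.Dict.FinalDefs
import Fermat.Agent.S55.Dict.Field
import Fermat.Agent.S55.Dict.Split
import Fermat.Agent.S55.Dict.Glob
import Fermat.Agent.S55.Dict.Norm
import Fermat.Agent.S55.Dict.LocNormC

set_option autoImplicit false

namespace Fermat.Agent.S55.Dict

open scoped Pointwise
open NumberField IsDedekindDomain WithZero
open Fermat.Agent.S55.NIT (Pl)

section Hasse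

variable {p : ℕ}

/-- E1c for the chosen places -/
theorem isNormFrom_glob_iff (hp : p.Prime) (hp2 : p ≠ 2)
    {K L : Type} [Field K] [NumberField K] [Field L] [NumberField L] [Algebra K L]
    [Algebra K Qb] [Algebra L Qb] [IsScalarTower K L Qb] (hdeg : Module.finrank K L = p)
    (q : Nat.Primes) (a : Kˣ) :
    IsNormFrom (Dec (pl q)) (proj K L) (glob K a) ↔
      ∀ v : Pl K, OverQ K q v → a ∈ NIT.locNorm K L v :=
  exists_push_eq_glob_iff hp hp2 hdeg q.2 (pl_liesOverPrime q) a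

/-- global norms -/
theorem isNormFrom_top_glob_iff
    {K L : Type} [Field K] [NumberField K] [Field L] [NumberField L] [Algebra K L]
    [Algebra K Qb] [Algebra L Qb] [IsScalarTower K L Qb] (a : Kˣ) :
    IsNormFrom ⊤ (proj K L) (glob K a) ↔ a ∈ NIT.nrm K L := by
  constructor
  · rintro ⟨f, hf, hpush⟩
    obtain ⟨b, rfl⟩ := exists_glob_eq L f (fun g => hf g (Subgroup.mem_top g))
    rw [push_glob K L b] at hpush
    exact ⟨b, glob_injective K hpush⟩
  · rintro ⟨b, rfl⟩
    exact ⟨glob L b, glob_mem_invD L ⊤ b, push_glob K L b⟩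

/-- N3, field form -/
theorem hasse_norm_fields (N : NITOut p)
    {K L : Type} [Field K] [NumberField K] [Field L] [NumberField L] [Algebra K L]
    [Algebra K Qb] [Algebra L Qb] [IsScalarTower K L Qb] (hK : NIT.Kum K L p) (a : Kˣ)
    (h : ∀ q : Nat.Primes, IsNormFrom (Dec (pl q)) (proj K L) (glob K a)) :
    IsNormFrom ⊤ (proj K L) (glob K a) := by
  rw [isNormFrom_top_glob_iff]
  refine N.hnt K L hK a (fun v => ?_)
  obtain ⟨q, hq, hv⟩ := exists_prime_overQ v
  exact (isNormFrom_glob_iff hK.prime hK.odd hK.deg ⟨q, hq⟩ a).mp (h ⟨q, hq⟩) v hv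

/-- transport of `hasse_norm_fields` along `fixG K = W`, `fixG L = W'`. -/
theorem hasse_norm_aux (hp : p.Prime) (hp2 : p ≠ 2) (N : NITOut p)
    {K L : Type} [Field K] [NumberField K] [Field L] [NumberField L] [Algebra K L]
    [Algebra K Qb] [Algebra L Qb] [IsScalarTower K L Qb] (W W' : Subgroup GQ)
    (eK : fixG K = W) (eL : fixG L = W') (hs : KumStep p W' W) [Finite (GQ ⧸ W')]
    (a : IndMod (GQ ⧸ W) Kx) (ha : a ∈ invD ⊤ (GQ ⧸ W))
    (h : ∀ q : Nat.Primes, IsNormFrom (Dec (pl q)) (cosetMap hs.le) a) :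
    IsNormFrom ⊤ (cosetMap hs.le) a := by
  subst eK
  subst eL
  obtain ⟨a₀, rfl⟩ := exists_glob_eq K a (fun g => ha g (Subgroup.mem_top g))
  exact hasse_norm_fields N ((kum_iff K L hp hp2).mpr hs) a₀ h

/-- **N3 (Hasse norm theorem), field-free form.** -/
theorem hasse_norm (hp : p.Prime) (hp2 : p ≠ 2) (N : NITOut p) {U' U : Subgroup GQ}
    (hs : KumStep p U' U) [Finite (GQ ⧸ U')] (a : IndMod (GQ ⧸ U) Kx) (ha : a ∈ invD ⊤ (GQ ⧸ U))
    (h : ∀ q : Nat.Primes, IsNormFrom (Dec (pl q)) (cosetMap hs.le) a) :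
    IsNormFrom ⊤ (cosetMap hs.le) a := by
  obtain ⟨K, L, _, _, _, _, _, _, _, _, eK, eL⟩ := exists_fields hs.isOpen hs.le
  exact hasse_norm_aux hp hp2 N U U' eK eL hs a ha h

end Hasse

end Fermat.Agent.S55.Dict
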