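/-
S55 / block DICT, task DICT-Index (helper181): N1 (second inequality) in the field-free function
language.  PROOF FILE against the stubs `WIP/Field`, `WIP/LocNormC`; becomes `Dict/Index.lean` when
these are landed (only the import lines change).
-/
import Fermat.Agent.S55.Dict.FinalDefs
import Fermat.Agent.S55.Dict.Glob
import Fermat.Agent.S55.Dict.Below
import Fermat.Agent.S55.Bridge.LocalImage
import Fermat.Agent.S55.Dict.Field
import Fermat.Agent.S55.Dict.LocNormC

set_option autoImplicit false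

namespace Fermat.Agent.S55.Dict

open scoped Pointwise
open NumberField IsDedekindDomain WithZero
open Fermat.Agent.S55.NIT (Pl)

section Index

namespace IndexAux

theorem pl_liesOverPrime (q : Nat.Primes) : (pl q).LiesOverPrime (q : ℕ) := by
  have : Fact (q : ℕ).Prime := ⟨q.2⟩
  exact Fermat.Agent.S55.Bridge.padicPlace_liesOverPrime (q : ℕ)

section one

variable {K : Type} [Field K] [NumberField K]

/-- a place lies over at most one rational prime -/
theorem overQ_unique {q q' : ℕ} (hq : q.Prime) (hq' : q'.Prime) {v : Pl K} (h : OverQ K q v)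
    (h' : OverQ K q' v) : q = q' := by
  by_contra hne
  have hco : IsCoprime (q : ℤ) (q' : ℤ) :=
    Nat.isCoprime_iff_coprime.mpr ((Nat.coprime_primes hq hq').mpr hne)
  obtain ⟨a, b, hab⟩ := hco
  apply v.isPrime.ne_top
  rw [Ideal.eq_top_iff_one]
  have h1 : (1 : 𝓞 K) = (a : 𝓞 K) * (q : 𝓞 K) + (b : 𝓞 K) * (q' : 𝓞 K) := by
    have := congrArg (fun z : ℤ => (z : 𝓞 K)) hab
    push_cast at this
    exact this.symm
  rw [h1]
  exact v.asIdeal.add_mem (v.asIdeal.mul_mem_left _ h) (v.asIdeal.mul_mem_left _ h')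

variable (K) in
/-- the places of `K` over the primes of `T` -/
noncomputable def TK (T : Finset Nat.Primes) : Finset (Pl K) :=
  (Set.Finite.biUnion (s := (T : Set Nat.Primes)) (t := fun q => {v : Pl K | OverQ K (q : ℕ) v})
    T.finite_toSet (fun q _ => by
      have hne : Ideal.span {((q : ℕ) : 𝓞 K)} ≠ ⊥ := by
        rw [Ne, Ideal.span_singleton_eq_bot]
        exact_mod_cast q.2.ne_zero
      refine (Ideal.finite_factors hne).subset fun v hv => ?_
      show v.asIdeal ∣ Ideal.span {((q : ℕ) : 𝓞 K)}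
      rw [Ideal.dvd_span_singleton]
      exact hv)).toFinset

theorem mem_TK {T : Finset Nat.Primes} {v : Pl K} :
    v ∈ TK K T ↔ ∃ q ∈ T, OverQ K ((q : Nat.Primes) : ℕ) v := by
  simp [TK]

/-- the prime of `T` below a place of `TK K T` -/
noncomputable def qOf {T : Finset Nat.Primes} (v : TK K T) : T :=
  ⟨(mem_TK.mp v.2).choose, (mem_TK.mp v.2).choose_spec.1⟩

theorem overQ_qOf {T : Finset Nat.Primes} (v : TK K T) : OverQ K ((qOf v).1 : ℕ) v.1 :=
  (mem_TK.mp v.2).choose_spec.2

theorem qOf_eq {T : Finset Nat.Primes} (v : TK K T) (q : T) (h : OverQ K (q.1 : ℕ) v.1) :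
    qOf v = q :=
  Subtype.ext (Subtype.ext (overQ_unique (qOf v).1.2 q.1.2 (overQ_qOf v) h))

end one

section two

variable (K L : Type) [Field K] [NumberField K] [Field L] [NumberField L] [Algebra K L]
  [Algebra K Qb]

/-- `(a_q) ↦ (glob a_q)_q`. -/
noncomputable def Psi (T : Finset Nat.Primes) :
    Additive (T → Kˣ) →+ (∀ q : T, invD (Dec (pl q.1)) (GQ ⧸ fixG K)) where
  toFun a := fun q => ⟨glob K (Additive.toMul a q), glob_mem_invD K _ _⟩
  map_zero' := by
    funext q
    apply Subtype.ext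
    exact Glob.glob_one K
  map_add' a b := by
    funext q
    apply Subtype.ext
    exact glob_mul K _ _

/-- `(a_q) ↦ (class of a_{q(v)})_v`. -/
noncomputable def Psi' (T : Finset Nat.Primes) :
    (T → Kˣ) →* NIT.SI.Tgt K (NIT.locNorm K L) (TK K T) where
  toFun a := fun v => QuotientGroup.mk' (NIT.locNorm K L v) (a (qOf v))
  map_one' := by
    funext v
    simp
  map_mul' a b := by
    funext v
    simp

end two

end IndexAux

open IndexAux

variable {p : ℕ}

/-- N1, field form -/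
theorem index_CT_dvd_fields (N : NITOut p)
    {K L : Type} [Field K] [NumberField K] [Field L] [NumberField L] [Algebra K L]
    [Algebra K Qb] [Algebra L Qb] [IsScalarTower K L Qb] (hK : NIT.Kum K L p)
    (T : Finset Nat.Primes) : (CT (proj K L) T).index ∣ p := by
  have hnorm : ∀ (q : Nat.Primes) (a : Kˣ), IsNormFrom (Dec (pl q)) (proj K L) (glob K a) ↔
      ∀ v : Pl K, OverQ K q v → a ∈ NIT.locNorm K L v := fun q a =>
    exists_push_eq_glob_iff hK.prime hK.odd hK.deg q.2 (pl_liesOverPrime q) a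
  set Γ : Subgroup Kˣ := ⨅ v : {v : Pl K // v ∉ TK K T}, NIT.locNorm K L v with hΓ
  -- the two pull-backs agree
  have hcomap : (CT (proj K L) T).comap (Psi K T) =
      Subgroup.toAddSubgroup ((NIT.SI.img K (NIT.locNorm K L) (TK K T) Γ).comap (Psi' K L T)) := by
    ext a
    induction a using Additive.rec with | ofMul a => ?_
    have hL : Additive.ofMul a ∈ (CT (proj K L) T).comap (Psi K T) ↔
        ∃ γ : Kˣ, (∀ q : Nat.Primes, q ∉ T → ∀ v : Pl K, OverQ K q v → γ ∈ NIT.locNorm K L v) ∧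
          ∀ q : T, ∀ v : Pl K, OverQ K q.1 v → a q / γ ∈ NIT.locNorm K L v := by
      constructor
      · rintro ⟨α, hα, h1, h2⟩
        obtain ⟨γ, rfl⟩ := exists_glob_eq K α fun g => hα g (Subgroup.mem_top g)
        refine ⟨γ, fun q hq => (hnorm q γ).mp (h1 q hq), fun q => ?_⟩
        rw [← hnorm, glob_div]
        exact h2 q
      · rintro ⟨γ, h1, h2⟩
        refine ⟨glob K γ, glob_mem_invD K _ γ, fun q hq => (hnorm q γ).mpr (h1 q hq), fun q => ?_⟩
        have := (hnorm q.1 (a q / γ)).mpr (h2 q)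
        rw [glob_div] at this
        exact this
    have hR : Additive.ofMul a ∈ Subgroup.toAddSubgroup
          ((NIT.SI.img K (NIT.locNorm K L) (TK K T) Γ).comap (Psi' K L T)) ↔
        ∃ γ : Kˣ, (∀ v : Pl K, v ∉ TK K T → γ ∈ NIT.locNorm K L v) ∧
          ∀ v : TK K T, a (qOf v) / γ ∈ NIT.locNorm K L v := by
      have e : ∀ (γ : Kˣ), NIT.SI.diag K (NIT.locNorm K L) (TK K T) γ = Psi' K L T a ↔
          ∀ v : TK K T, a (qOf v) / γ ∈ NIT.locNorm K L v := by
        intro γ
        rw [funext_iff]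
        refine forall_congr' fun v => ?_
        show (QuotientGroup.mk γ : Kˣ ⧸ NIT.locNorm K L v) = QuotientGroup.mk (a (qOf v)) ↔ _
        rw [QuotientGroup.eq, div_eq_mul_inv, mul_comm]
      constructor
      · rintro ⟨γ, hγ, h⟩
        refine ⟨γ, fun v hv => ?_, (e γ).mp h⟩
        exact (Subgroup.mem_iInf.mp hγ) ⟨v, hv⟩
      · rintro ⟨γ, h1, h2⟩
        exact ⟨γ, Subgroup.mem_iInf.mpr fun v => h1 v.1 v.2, (e γ).mpr h2⟩
    rw [hL, hR]
    refine exists_congr fun γ => and_congr ⟨fun h v hv => ?_, fun h q hq v hv => ?_⟩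
      ⟨fun h v => h (qOf v) v.1 (overQ_qOf v), fun h q v hv => ?_⟩
    · obtain ⟨q, hq, hqv⟩ := exists_prime_overQ v
      refine h ⟨q, hq⟩ (fun hqT => hv (mem_TK.mpr ⟨⟨q, hq⟩, hqT, hqv⟩)) v hqv
    · refine h v fun hvT => ?_
      obtain ⟨q', hq', hq'v⟩ := mem_TK.mp hvT
      have : q' = q := Subtype.ext (overQ_unique q'.2 q.2 hq'v hv)
      exact hq (this ▸ hq')
    · have hvT : v ∈ TK K T := mem_TK.mpr ⟨q.1, q.2, hv⟩
      have := h ⟨v, hvT⟩
      rwa [qOf_eq ⟨v, hvT⟩ q hv] at this
  -- `Psi` is onto modulo `CT`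
  have hsup : (Psi K T).range ⊔ CT (proj K L) T = ⊤ := by
    rw [eq_top_iff]
    intro y _
    have hE2 : ∀ q : T, ∃ a : Kˣ, ∃ f ∈ invD (Dec (pl q.1)) (GQ ⧸ fixG L),
        (y q : IndMod (GQ ⧸ fixG K) Kx) = glob K a + IndMod.push Kx (proj K L) f := fun q =>
      exists_glob_add_push hK.prime hK.odd hK.deg q.1.2 (pl_liesOverPrime q.1) _ (y q).2
    choose a f hf hy using hE2
    rw [AddSubgroup.mem_sup]
    refine ⟨Psi K T (Additive.ofMul a), ⟨_, rfl⟩, y - Psi K T (Additive.ofMul a), ?_, by abel⟩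
    refine ⟨0, (invD ⊤ _).zero_mem, fun _ _ => IsNormFrom.zero _ _, fun q => ⟨f q, hf q, ?_⟩⟩
    have e : (((y - Psi K T (Additive.ofMul a)) q : invD (Dec (pl q.1)) (GQ ⧸ fixG K)) :
        IndMod (GQ ⧸ fixG K) Kx) = (y q : IndMod (GQ ⧸ fixG K) Kx) - glob K (a q) := rfl
    rw [e, hy q]
    abel
  have h1 : (CT (proj K L) T).index = ((CT (proj K L) T).comap (Psi K T)).index := by
    rw [AddSubgroup.index_comap, ← AddSubgroup.relIndex_sup_right, hsup, AddSubgroup.relIndex_top_right]
  rw [h1, hcomap, Subgroup.index_toAddSubgroup, Subgroup.index_comap]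
  have hn : (NIT.SI.img K (NIT.locNorm K L) (TK K T) Γ).Normal := by
    refine ⟨fun n hn g => ?_⟩
    have e : g * n * g⁻¹ = n := by
      funext v
      show g v * n v * (g v)⁻¹ = n v
      rw [mul_comm (g v), mul_inv_cancel_right]
    rwa [e]
  exact (Subgroup.relIndex_dvd_index_of_normal _ _).trans (N.idx K L hK (TK K T))

/-- **N1 (second inequality), field-free form.** -/
theorem index_CT_dvd (hp : p.Prime) (hp2 : p ≠ 2) (N : NITOut p) {U' U : Subgroup GQ}
    (hs : KumStep p U' U) [Finite (GQ ⧸ U')] (T : Finset Nat.Primes) :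
    (CT (cosetMap hs.le) T).index ∣ p := by
  obtain ⟨K, L, _, _, _, _, _, _, _, _, hU, hU'⟩ := exists_fields hs.isOpen hs.le
  subst hU hU'
  exact index_CT_dvd_fields N ((kum_iff K L hp hp2).mpr hs) T

end Index

end Fermat.Agent.S55.Dict
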