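/-
S55 / block DICT : N5 (a nonsplit prime outside a finite set) in the field-free language.
-/
import Fermat.Agent.S55.Dict.FinalDefs
import Fermat.Agent.S55.Dict.Below
import Fermat.Agent.S55.Dict.Dense.WeakApprox
import Fermat.Agent.S55.Dict.Field
import Fermat.Agent.S55.Dict.Split

set_option autoImplicit false

namespace Fermat.Agent.S55.Dict

open scoped Pointwise
open NumberField IsDedekindDomain WithZero
open Fermat.Agent.S55.NIT (Pl)

section Nonsplit

variable {p : ℕ}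

/-- **N5, field-free form.** -/
theorem exists_nonsplitAt (hp : p.Prime) (hp2 : p ≠ 2) (N : NITOut p) {U' U : Subgroup GQ}
    (hs : KumStep p U' U) [Finite (GQ ⧸ U')] (T₀ : Finset Nat.Primes) :
    ∃ q : Nat.Primes, q ∉ T₀ ∧ ∃ x : GQ ⧸ U, NonsplitAt (Dec (pl q)) (cosetMap hs.le) x := by
  classical
  obtain ⟨K, L, _, _, _, _, _, _, _, _, hK, hL⟩ := exists_fields hs.isOpen hs.le
  subst hK hL
  have hkum : NIT.Kum K L p := (kum_iff K L hp hp2).2 hs
  have hfin : (⋃ q ∈ (T₀ : Set Nat.Primes), {v : Pl K | OverQ K (q : ℕ) v}).Finite :=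
    T₀.finite_toSet.biUnion fun q _ => finite_overQ q.2
  obtain ⟨v, hvT, h1⟩ := N.nonsplit K L hkum hfin.toFinset
  obtain ⟨q, hq, hvq⟩ := exists_prime_overQ v
  refine ⟨⟨q, hq⟩, fun hmem => hvT ?_, ?_⟩
  · rw [Set.Finite.mem_toFinset]
    exact Set.mem_biUnion (x := (⟨q, hq⟩ : Nat.Primes)) hmem hvq
  · obtain ⟨g, hg⟩ := exists_below_smul hq (pl_liesOverPrime ⟨q, hq⟩) v hvq
    exact ⟨(g : GQ ⧸ fixG K), nonsplitAt_of_ncard_eq_one hg h1⟩

end Nonsplit

end Fermat.Agent.S55.Dict
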