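/-
S55 / block DICT : at a step of degree `p` of open subgroups of the local Galois group the norm on
`H^0` is not onto; formal consequence of the local package `LocPkg` (part A of `LocPkgNonNorm`).
-/
import Fermat.Agent.S55.Dict.FinalDefs
import Fermat.Agent.S55.Arith.LocInterface
import Fermat.Agent.S55.Coh.Theta
import Fermat.Agent.S55.Coh.Coset
import Fermat.Agent.S55.Coh.IndApi
import Fermat.Agent.S55.Coh.PPrimary

set_option autoImplicit false

namespace Fermat.Agent.S55.Dict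

open scoped Pointwise

/-- At a step of degree `p` of open subgroups of the local Galois group the norm on `H^0` is not
onto. -/
def NonNormLoc (p : ℕ) (q : Nat.Primes) : Prop :=
  ∀ (V U : Subgroup (Gv q)) (h : V ≤ U) [Finite (Gv q ⧸ V)], (lvlLoc q).IsOpen V →
    (V.subgroupOf U).Normal → V.relIndex U = p →
    ∃ a ∈ inv0 (Gv q) (IndMod (Gv q ⧸ U) (KL q)),
      ∀ b ∈ inv0 (Gv q) (IndMod (Gv q ⧸ V) (KL q)), IndMod.push (KL q) (cosetMap h) b ≠ a

theorem nonNorm_aux_nsmul_mk {p : ℕ} (hp : p.Prime) : p • QZ.mk (1 / (p : ℚ)) = 0 := by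
  rw [← map_nsmul]
  refine (QuotientAddGroup.eq_zero_iff _).2 ⟨1, ?_⟩
  have : (p : ℚ) ≠ 0 := by exact_mod_cast hp.ne_zero
  simp [this]

theorem nonNorm_aux_mk_ne_zero {p : ℕ} (hp : p.Prime) : QZ.mk (1 / (p : ℚ)) ≠ 0 := by
  intro h
  obtain ⟨n, hn⟩ := (QuotientAddGroup.eq_zero_iff _).1 h
  have hp0 : (p : ℚ) ≠ 0 := by exact_mod_cast hp.ne_zero
  have h1 : (n : ℚ) * p = 1 := by
    have : (n : ℚ) = 1 / (p : ℚ) := hn
    rw [this]
    field_simp
  have h2 : n * (p : ℤ) = 1 := by exact_mod_cast h1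
  have h3 : (p : ℤ) ∣ 1 := ⟨n, by rw [mul_comm]; exact h2.symm⟩
  have h4 : p ∣ 1 := by exact_mod_cast h3
  exact hp.one_lt.ne' (Nat.dvd_one.1 h4)

/-- formal consequence of `L1`, `L3inj`, `L3surj` and the four term sequence of a cyclic cover -/
theorem nonNormLoc_of_locPkg {p : ℕ} (hp : p.Prime) (q : Nat.Primes) (L : LocPkg p q) :
    NonNormLoc p q := by
  intro V U h _ hV hN hidx
  have hU : (lvlLoc q).IsOpen U := by
    obtain ⟨N, hN', hle⟩ := hV
    exact ⟨N, hN', hle.trans h⟩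
  have : SmoothSet (lvlLoc q) (Gv q ⧸ V) := SmoothSet.quotient _ hV
  have : SmoothSet (lvlLoc q) (Gv q ⧸ U) := SmoothSet.quotient _ hU
  have : Finite (Gv q ⧸ U) := Finite.of_surjective (cosetMap h) (cosetMap_surjective h)
  have hnorm : ∀ g ∈ U, ∀ v ∈ V, g⁻¹ * v * g ∈ V := by
    intro g hg v hv
    have h1 := hN.conj_mem (⟨v, h hv⟩ : U) (Subgroup.mem_subgroupOf.2 hv) (⟨g, hg⟩⁻¹ : U)
    rw [Subgroup.mem_subgroupOf] at h1
    simpa using h1
  obtain ⟨s, hsU, hs, hc⟩ := exists_cyclicCover_coset_prime hp h hnorm hidx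
  have hc1 : QZ.mk (1 / (p : ℚ)) ∈ pPrimary p QZ := ⟨1, by rw [pow_one, nonNorm_aux_nsmul_mk hp]⟩
  obtain ⟨y, hy, hinv⟩ := L.L3surj (Gv q ⧸ U) _ hc1
  have hy0 : y ≠ 0 := by
    rintro rfl
    rw [map_zero] at hinv
    exact nonNorm_aux_mk_ne_zero hp hinv.symm
  have hpull : Hsm.map (IndMod.pull (KL q) (cosetMap h)) 2 y = 0 := by
    apply L.L3inj (Gv q ⧸ V) _ (map_mem_pPrimary _ hy)
    have h1 : Hsm.map (IndMod.sum (Gv q ⧸ V) (KL q)) 2
        (Hsm.map (IndMod.pull (KL q) (cosetMap h)) 2 y) =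
        p • Hsm.map (IndMod.sum (Gv q ⧸ U) (KL q)) 2 y := by
      rw [Hsm.map_comp' (χ := IndMod.sum (Gv q ⧸ V) (KL q))
        (ψ := IndMod.sum (Gv q ⧸ U) (KL q)) (φ := IndMod.push (KL q) (cosetMap h))
        (fun a => (IndMod.sum_push (cosetMap h) a).symm),
        Hsm.map_push_pull (cosetMap h) p (fun x => by rw [cosetMap_card_fiber, hidx]), map_nsmul]
    show L.inv _ = 0
    rw [h1, map_nsmul]
    have h2 : L.inv (Hsm.map (IndMod.sum (Gv q ⧸ U) (KL q)) 2 y) = QZ.mk (1 / (p : ℚ)) := hinv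
    rw [h2, nonNorm_aux_nsmul_mk hp]
  obtain ⟨x, hx⟩ := (hc.exists_theta_eq_iff (lvlLoc q) (KL q) 0 (L.L1 _) y).2 hpull
  refine ⟨Hsm.H0equiv x, (Hsm.H0equiv x).2, fun b hb hpush => hy0 ?_⟩
  rw [← hx, hc.theta_eq_zero_iff (lvlLoc q) (KL q) 0 (L.L1 _)]
  refine ⟨Hsm.H0equiv.symm ⟨b, hb⟩, ?_⟩
  rw [Hsm.map_H0equiv_symm]
  apply Hsm.H0equiv.injective
  rw [AddEquiv.apply_symm_apply]
  exact Subtype.ext hpush

end Fermat.Agent.S55.Dict
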