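/-
S55 / block DICT : the transport of "the norm is not onto" from `Gv q ⧸ V → Gv q ⧸ U` to
`GQ ⧸ W' → GQ ⧸ W` (`U = ι⁻¹ W`, `V = ι⁻¹ W'`), at a point where the decomposition group acts
transitively on the fibre.  First a purely formal version for a homomorphism `ι : Γ →* G`, then the
arithmetic instance `ι = ιv q` (`range ιv q = Dec (pl q)`).
-/
import Fermat.Agent.S55.Dict.FinalDefs
import Fermat.Agent.S55.Arith.LocInterface
import Fermat.Agent.S55.Coh.Coset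
import Fermat.Agent.S55.Dict.Orbit
import Fermat.Agent.S55.Bridge.LocalImage

set_option autoImplicit false

namespace Fermat.Agent.S55.Dict

open scoped Pointwise

namespace NonNormCore

section formal

variable {Γ G : Type} [Group Γ] [Group G] (ι : Γ →* G)

/-- `γ V ↦ ι γ W'`, `V = ι⁻¹ W'`. -/
def jmap (W' : Subgroup G) : Γ ⧸ W'.comap ι → G ⧸ W' :=
  Quotient.map' ι (by
    intro a b hab
    rw [QuotientGroup.leftRel_apply] at hab ⊢
    have h1 : ι (a⁻¹ * b) ∈ W' := hab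
    simpa using h1)

@[simp] theorem jmap_mk (W' : Subgroup G) (γ : Γ) :
    jmap ι W' (γ : Γ ⧸ W'.comap ι) = ((ι γ : G) : G ⧸ W') := rfl

theorem jmap_injective (W' : Subgroup G) : Function.Injective (jmap ι W') := by
  intro x y
  induction x using QuotientGroup.induction_on with
  | H a =>
    induction y using QuotientGroup.induction_on with
    | H b =>
      intro hab
      rw [jmap_mk, jmap_mk, QuotientGroup.eq] at hab
      rw [QuotientGroup.eq]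
      show ι (a⁻¹ * b) ∈ W'
      simpa using hab

theorem jmap_smul (W' : Subgroup G) (γ : Γ) (y : Γ ⧸ W'.comap ι) :
    jmap ι W' (γ • y) = ι γ • jmap ι W' y := by
  induction y using QuotientGroup.induction_on with
  | H a =>
    show ((ι (γ * a) : G) : G ⧸ W') = ((ι γ * ι a : G) : G ⧸ W')
    rw [map_mul]

theorem cosetMap_jmap {W' W : Subgroup G} (h : W' ≤ W) (y : Γ ⧸ W'.comap ι) :
    cosetMap h (jmap ι W' y) = jmap ι W (cosetMap (Subgroup.comap_mono h) y) := by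
  induction y using QuotientGroup.induction_on with
  | H a => rfl

theorem cosetMap_jmap_eq_one_iff {W' W : Subgroup G} (h : W' ≤ W) (y : Γ ⧸ W'.comap ι) :
    cosetMap h (jmap ι W' y) = ((1 : G) : G ⧸ W) ↔
      cosetMap (Subgroup.comap_mono h) y = ((1 : Γ) : Γ ⧸ W.comap ι) := by
  rw [cosetMap_jmap]
  have h1 : ((1 : G) : G ⧸ W) = jmap ι W ((1 : Γ) : Γ ⧸ W.comap ι) := by
    rw [jmap_mk, map_one]
  rw [h1]
  exact (jmap_injective ι W).eq_iff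

/-- the fibre of `Γ ⧸ V → Γ ⧸ U` over `1` is the fibre of `G ⧸ W' → G ⧸ W` over `1` when the image
of `ι` acts transitively on the latter -/
noncomputable def fibEquiv {W' W : Subgroup G} (h : W' ≤ W)
    (hns : ∀ y y' : G ⧸ W', cosetMap h y = ((1 : G) : G ⧸ W) → cosetMap h y' = ((1 : G) : G ⧸ W) →
      ∃ d ∈ ι.range, d • y = y') :
    {y : Γ ⧸ W'.comap ι // cosetMap (Subgroup.comap_mono h) y = ((1 : Γ) : Γ ⧸ W.comap ι)} ≃
      {y : G ⧸ W' // cosetMap h y = ((1 : G) : G ⧸ W)} :=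
  Equiv.ofBijective (fun y => ⟨jmap ι W' y.1, (cosetMap_jmap_eq_one_iff ι h y.1).2 y.2⟩) (by
    constructor
    · intro y y' hyy
      exact Subtype.ext (jmap_injective ι W' (congrArg Subtype.val hyy))
    · rintro ⟨y', hy'⟩
      obtain ⟨_, ⟨γ, rfl⟩, hγ⟩ := hns ((1 : G) : G ⧸ W') y' rfl hy'
      have e : jmap ι W' (γ : Γ ⧸ W'.comap ι) = y' := by
        rw [← hγ, jmap_mk]
        show _ = ((ι γ * 1 : G) : G ⧸ W')
        rw [mul_one]
      refine ⟨⟨(γ : Γ ⧸ W'.comap ι), (cosetMap_jmap_eq_one_iff ι h _).1 (by rw [e]; exact hy')⟩, ?_⟩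
      exact Subtype.ext e)

@[simp] theorem fibEquiv_coe {W' W : Subgroup G} (h : W' ≤ W)
    (hns : ∀ y y' : G ⧸ W', cosetMap h y = ((1 : G) : G ⧸ W) → cosetMap h y' = ((1 : G) : G ⧸ W) →
      ∃ d ∈ ι.range, d • y = y')
    (y : {y : Γ ⧸ W'.comap ι // cosetMap (Subgroup.comap_mono h) y = ((1 : Γ) : Γ ⧸ W.comap ι)}) :
    (fibEquiv ι h hns y : G ⧸ W') = jmap ι W' y.1 := rfl

theorem relIndex_comap_eq {W' W : Subgroup G} (h : W' ≤ W)
    (hns : ∀ y y' : G ⧸ W', cosetMap h y = ((1 : G) : G ⧸ W) → cosetMap h y' = ((1 : G) : G ⧸ W) →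
      ∃ d ∈ ι.range, d • y = y') :
    (W'.comap ι).relIndex (W.comap ι) = W'.relIndex W := by
  rw [← cosetMap_card_fiber (Subgroup.comap_mono h) ((1 : Γ) : Γ ⧸ W.comap ι),
    ← cosetMap_card_fiber h ((1 : G) : G ⧸ W)]
  exact Nat.card_congr (fibEquiv ι h hns)

theorem normal_comap {W' W : Subgroup G} (hn : (W'.subgroupOf W).Normal) :
    ((W'.comap ι).subgroupOf (W.comap ι)).Normal := by
  refine ⟨fun v hv u => ?_⟩
  rw [Subgroup.mem_subgroupOf] at hv ⊢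
  have hv' : ι (v : Γ) ∈ W' := hv
  have hvW : ι (v : Γ) ∈ W := v.2
  have huW : ι (u : Γ) ∈ W := u.2
  have h1 := hn.conj_mem ⟨ι (v : Γ), hvW⟩ (Subgroup.mem_subgroupOf.2 hv') ⟨ι (u : Γ), huW⟩
  rw [Subgroup.mem_subgroupOf] at h1
  show ι ((u * v * u⁻¹ : W.comap ι) : Γ) ∈ W'
  simpa using h1

theorem finite_comap (W' : Subgroup G) [Finite (G ⧸ W')] : Finite (Γ ⧸ W'.comap ι) :=
  Finite.of_injective _ (jmap_injective ι W')

variable {A : Type} [AddCommGroup A] [DistribMulAction G A]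

/-- an invariant function on `Γ ⧸ U` is determined by its value at `1` -/
theorem apply_mk_of_inv0 {B : Type} [AddCommGroup B] [DistribMulAction Γ B] {U : Subgroup Γ}
    {F : IndMod (Γ ⧸ U) B} (hF : F ∈ inv0 Γ (IndMod (Γ ⧸ U) B)) (γ : Γ) :
    F (γ : Γ ⧸ U) = γ • F ((1 : Γ) : Γ ⧸ U) := by
  have h := congrArg (fun F' : IndMod (Γ ⧸ U) B => F' (γ : Γ ⧸ U)) (hF γ)
  simp only [IndMod.smul_apply] at h
  have h1 : γ⁻¹ • (γ : Γ ⧸ U) = ((1 : Γ) : Γ ⧸ U) := by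
    have : γ⁻¹ • (γ : Γ ⧸ U) = ((γ⁻¹ * γ : Γ) : Γ ⧸ U) := rfl
    rw [this, inv_mul_cancel]
  rw [h1] at h
  exact h.symm

theorem eq_of_inv0 {B : Type} [AddCommGroup B] [DistribMulAction Γ B] {U : Subgroup Γ}
    {F F' : IndMod (Γ ⧸ U) B} (hF : F ∈ inv0 Γ (IndMod (Γ ⧸ U) B))
    (hF' : F' ∈ inv0 Γ (IndMod (Γ ⧸ U) B)) (e : F ((1 : Γ) : Γ ⧸ U) = F' ((1 : Γ) : Γ ⧸ U)) :
    F = F' := by
  ext x
  induction x using QuotientGroup.induction_on with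
  | H γ => rw [apply_mk_of_inv0 hF, apply_mk_of_inv0 hF', e]

/-- the function `γ V ↦ f (ι γ W')` -/
def pullB (W' : Subgroup G) (f : IndMod (G ⧸ W') A) : IndMod (Γ ⧸ W'.comap ι) (ResMod ι A) :=
  IndMod.of fun y => ResMod.toRes ι (f (jmap ι W' y))

theorem pullB_mem_inv0 (W' : Subgroup G) {f : IndMod (G ⧸ W') A}
    (hf : ∀ d ∈ ι.range, d • f = f) :
    pullB ι W' f ∈ inv0 Γ (IndMod (Γ ⧸ W'.comap ι) (ResMod ι A)) := by
  intro γ
  ext y
  show γ • ResMod.toRes ι (f (jmap ι W' (γ⁻¹ • y))) = ResMod.toRes ι (f (jmap ι W' y))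
  rw [ResMod.smul_def, jmap_smul, map_inv]
  congr 1
  exact congrArg (fun F : IndMod (G ⧸ W') A => F (jmap ι W' y)) (hf (ι γ) ⟨γ, rfl⟩)

theorem push_pullB {W' W : Subgroup G} (h : W' ≤ W) [Finite (G ⧸ W')] [Finite (Γ ⧸ W'.comap ι)]
    (hns : ∀ y y' : G ⧸ W', cosetMap h y = ((1 : G) : G ⧸ W) → cosetMap h y' = ((1 : G) : G ⧸ W) →
      ∃ d ∈ ι.range, d • y = y') (f : IndMod (G ⧸ W') A) :
    IndMod.push (ResMod ι A) (cosetMap (Subgroup.comap_mono h)) (pullB ι W' f)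
        ((1 : Γ) : Γ ⧸ W.comap ι) =
      ResMod.toRes ι (IndMod.push A (cosetMap h) f ((1 : G) : G ⧸ W)) := by
  rw [IndMod.push_apply, IndMod.push_apply, ← finsum_comp_equiv (fibEquiv ι h hns)]
  exact (AddMonoidHom.map_finsum (f := fun i => f ((fibEquiv ι h hns i : G ⧸ W')))
    (ResMod.toRes ι).toAddMonoidHom (Set.toFinite _)).symm

/-- **formal transport** -/
theorem push_ne {W' W : Subgroup G} (h : W' ≤ W) [Finite (G ⧸ W')] [Finite (Γ ⧸ W'.comap ι)]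
    (hns : ∀ y y' : G ⧸ W', cosetMap h y = ((1 : G) : G ⧸ W) → cosetMap h y' = ((1 : G) : G ⧸ W) →
      ∃ d ∈ ι.range, d • y = y')
    {a : IndMod (Γ ⧸ W.comap ι) (ResMod ι A)}
    (ha : a ∈ inv0 Γ (IndMod (Γ ⧸ W.comap ι) (ResMod ι A)))
    (hab : ∀ b ∈ inv0 Γ (IndMod (Γ ⧸ W'.comap ι) (ResMod ι A)),
      IndMod.push (ResMod ι A) (cosetMap (Subgroup.comap_mono h)) b ≠ a)
    {f : IndMod (G ⧸ W') A} (hf : ∀ d ∈ ι.range, d • f = f) :
    IndMod.push A (cosetMap h) f ((1 : G) : G ⧸ W) ≠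
      (ResMod.toRes ι).symm (a ((1 : Γ) : Γ ⧸ W.comap ι)) := by
  intro e
  refine hab _ (pullB_mem_inv0 ι W' hf) (eq_of_inv0 ?_ ha ?_)
  · intro γ
    rw [← map_smul, pullB_mem_inv0 ι W' hf γ]
  · rw [push_pullB ι h hns, e, AddEquiv.apply_symm_apply]

/-- the value at `1` of an invariant function on `Γ ⧸ ι⁻¹ W` is fixed by `range ι ⊓ W` -/
theorem smul_apply_one {W : Subgroup G} {a : IndMod (Γ ⧸ W.comap ι) (ResMod ι A)}
    (ha : a ∈ inv0 Γ (IndMod (Γ ⧸ W.comap ι) (ResMod ι A))) {d : G} (hd : d ∈ ι.range)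
    (hdW : d • ((1 : G) : G ⧸ W) = ((1 : G) : G ⧸ W)) :
    d • (ResMod.toRes ι).symm (a ((1 : Γ) : Γ ⧸ W.comap ι)) =
      (ResMod.toRes ι).symm (a ((1 : Γ) : Γ ⧸ W.comap ι)) := by
  obtain ⟨γ, rfl⟩ := hd
  have hγ : ι γ ∈ W := (mem_iff_smul_one_coset W (ι γ)).2 hdW
  have h1 : ((γ : Γ) : Γ ⧸ W.comap ι) = ((1 : Γ) : Γ ⧸ W.comap ι) := by
    rw [QuotientGroup.eq]
    show ι (γ⁻¹ * 1) ∈ W
    simpa using hγ
  have h2 := apply_mk_of_inv0 ha γ
  rw [h1, ResMod.smul_def'] at h2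
  have h3 := congrArg (ResMod.toRes ι).symm h2
  rw [AddEquiv.symm_apply_apply] at h3
  exact h3.symm

end formal

theorem range_ιv_eq (q : Nat.Primes) : (ιv q).range = Dec (pl q) := by
  let _ : Fact (q : ℕ).Prime := ⟨q.2⟩
  exact Bridge.range_localGaloisToGlobal (q : ℕ)

/-- transport from `Gv q ⧸ V → Gv q ⧸ U` to `GQ ⧸ W' → GQ ⧸ W` (the hypothesis `hq` is the unfolded
`NonNormLoc p q`, the conclusion the unfolded `LocNonNorm p` at `q`) -/
theorem locNonNorm_at {p : ℕ} (q : Nat.Primes)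
    (hq : ∀ (V U : Subgroup (Gv q)) (h : V ≤ U) [Finite (Gv q ⧸ V)], (lvlLoc q).IsOpen V →
      (V.subgroupOf U).Normal → V.relIndex U = p →
      ∃ a ∈ inv0 (Gv q) (IndMod (Gv q ⧸ U) (KL q)),
        ∀ b ∈ inv0 (Gv q) (IndMod (Gv q ⧸ V) (KL q)), IndMod.push (KL q) (cosetMap h) b ≠ a)
    (W' W : Subgroup GQ) (h : W' ≤ W) [Finite (GQ ⧸ W')] (hopen : lvlAll.IsOpen W')
    (hnorm : (W'.subgroupOf W).Normal) (hidx : W'.relIndex W = p)
    (hns : NonsplitAt (Dec (pl q)) (cosetMap h) ((1 : GQ) : GQ ⧸ W)) :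
    ∃ f₀ ∈ invD (Dec (pl q)) (GQ ⧸ W), ∀ f ∈ invD (Dec (pl q)) (GQ ⧸ W'),
      IndMod.push Kx (cosetMap h) f ((1 : GQ) : GQ ⧸ W) ≠ f₀ ((1 : GQ) : GQ ⧸ W) := by
  have hns' : ∀ y y' : GQ ⧸ W', cosetMap h y = ((1 : GQ) : GQ ⧸ W) →
      cosetMap h y' = ((1 : GQ) : GQ ⧸ W) → ∃ d ∈ (ιv q).range, d • y = y' := by
    rw [range_ιv_eq]
    exact hns
  have hfin : Finite (Gv q ⧸ W'.comap (ιv q)) := finite_comap (ιv q) W'
  have hopen' : (lvlLoc q).IsOpen (W'.comap (ιv q)) := by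
    obtain ⟨N, hN, hle⟩ := hopen
    exact ⟨N.comap (ιv q), ⟨N, hN, rfl⟩, Subgroup.comap_mono hle⟩
  obtain ⟨a, ha, hab⟩ := hq (W'.comap (ιv q)) (W.comap (ιv q)) (Subgroup.comap_mono h) hopen'
    (normal_comap (ιv q) hnorm) ((relIndex_comap_eq (ιv q) h hns').trans hidx)
  obtain ⟨f₀, hf₀, hf₀1, -⟩ := exists_invD_apply_eq (Dec (pl q)) ((1 : GQ) : GQ ⧸ W)
    ((ResMod.toRes (ιv q)).symm (a ((1 : Gv q) : Gv q ⧸ W.comap (ιv q))))
    (fun d hd hdW => smul_apply_one (ιv q) ha (by rw [range_ιv_eq]; exact hd) hdW)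
  refine ⟨f₀, hf₀, fun f hf => ?_⟩
  rw [hf₀1]
  exact push_ne (ιv q) h hns' ha hab (by rw [range_ιv_eq]; exact hf)

end NonNormCore

end Fermat.Agent.S55.Dict
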