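/-
S55 / block DICT : `LocNonNorm p` from the local packages `LocPkg p q`.
Part A (`nonNormLoc_of_locPkg`) is `Dict/LocPkgNonNormA.lean`, the transport from the local Galois group to
`GQ` is `Dict/LocPkgNonNormCore.lean`.
-/
import Fermat.Agent.S55.Dict.LocPkgNonNormA
import Fermat.Agent.S55.Dict.LocPkgNonNormCore

set_option autoImplicit false

namespace Fermat.Agent.S55.Dict

open scoped Pointwise

/-- transport from `Gv q ⧸ V → Gv q ⧸ U` to `GQ ⧸ W' → GQ ⧸ W` -/
theorem locNonNorm_of_nonNormLoc {p : ℕ} (h : ∀ q : Nat.Primes, NonNormLoc p q) :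
    LocNonNorm p := by
  intro q W' W hle _ hopen hnorm hidx hns
  exact NonNormCore.locNonNorm_at q (h q) W' W hle hopen hnorm hidx hns

theorem locNonNorm_of_locPkg {p : ℕ} (hp : p.Prime) (L : ∀ q : Nat.Primes, LocPkg p q) :
    LocNonNorm p :=
  locNonNorm_of_nonNormLoc fun q => nonNormLoc_of_locPkg hp q (L q)

end Fermat.Agent.S55.Dict
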