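/-
S55 / block DICT, task DICT-LocPow (E3a, E3b), helper198:
`NIT.locPow K p v` versus `p`-th powers in the henselisation.
-/
import Fermat.Agent.S55.Dict.Close
import Fermat.Agent.S55.Dict.Below
import Fermat.Agent.S55.Dict.BelowVal
import Fermat.Agent.S55.Dict.Dense.InHens
import Fermat.Agent.S55.Dict.Dense.Mult
import Fermat.Agent.S55.Dict.RootFixed

set_option autoImplicit false

namespace Fermat.Agent.S55.Dict

open scoped Pointwise
open NumberField IsDedekindDomain WithZero
open Fermat.Agent.S55.NIT (Pl)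

namespace LocPowAux

theorem val_injective : Function.Injective Kx.val := by
  intro x y h
  exact Additive.toMul.injective (Units.ext h)

theorem val_nsmul (n : ℕ) (x : Kx) : (n • x).val = x.val ^ n := by
  show (((Additive.toMul (n • x) : Qbˣ)) : Qb) = _
  rw [toMul_nsmul, Units.val_pow_eq_pow_val]
  rfl

theorem val_sub (x y : Kx) : (x - y).val = x.val / y.val := by
  rw [sub_eq_add_neg, Kx.val_add, Kx.val_neg, div_eq_mul_inv]

/-- `1 + q^n B` is stable under powers. -/
theorem close_pow_one {B : ValuationSubring Qb} {q n : ℕ} {x : Qb} (h : Close B q n x 1) (k : ℕ) :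
    Close B q n (x ^ k) 1 := by
  induction k with
  | zero => rw [pow_zero]; exact Close.refl 1
  | succ k ih => rw [pow_succ]; exact ih.mul_one h

/-- `0` is not close to `1`. -/
theorem not_close_zero_one {B : ValuationSubring Qb} {q n : ℕ} (hB : B.LiesOverPrime q) :
    ¬ Close B q (n + 1) 0 1 := by
  rintro ⟨c, hc, h⟩
  have hq : (q : Qb) ∈ B.nonunits := hB
  rw [ValuationSubring.mem_nonunits_iff] at hq
  have h1 : B.valuation ((0 : Qb) - 1) = 1 := by
    rw [zero_sub, Valuation.map_neg, map_one]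
  rw [h, map_mul, map_pow] at h1
  have h2 : B.valuation c ≤ 1 := (B.valuation_le_one_iff c).mpr hc
  have h3 : B.valuation (q : Qb) ^ (n + 1) < 1 := pow_lt_one₀ zero_le hq (Nat.succ_ne_zero n)
  have h4 : B.valuation (q : Qb) ^ (n + 1) * B.valuation c < 1 :=
    lt_of_le_of_lt (mul_le_of_le_one_right' h2) h3
  exact absurd h1 h4.ne

/-- invariant functions are equivariant. -/
theorem apply_smul {D : Subgroup GQ} {X : Type} [MulAction GQ X] {f : IndMod X Kx}
    (hf : f ∈ invD D X) {d : GQ} (hd : d ∈ D) (x : X) : f (d • x) = d • f x := by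
  have h := congrArg (fun F : IndMod X Kx => F (d • x)) (hf d hd)
  simp only [IndMod.smul_apply, inv_smul_smul] at h
  exact h.symm

/-- Gluing of local solutions of `p • f = F` along the orbits of `D`. -/
theorem exists_invD_nsmul_eq {X : Type} [MulAction GQ X] (D : Subgroup GQ) (F : IndMod X Kx)
    (hF : F ∈ invD D X) (p : ℕ)
    (h : ∀ x : X, ∃ t : Kx, p • t = F x ∧ ∀ d ∈ D, d • x = x → d • t = t) :
    ∃ f ∈ invD D X, p • f = F := by
  classical
  choose t ht1 ht2 using h
  let sel : Set X → X → X := fun s y => @Classical.epsilon X ⟨y⟩ fun x => x ∈ s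
  let rep : X → X := fun y => sel (MulAction.orbit D y) y
  have hrep : ∀ y, rep y ∈ MulAction.orbit D y := fun y =>
    @Classical.epsilon_spec X (fun x => x ∈ MulAction.orbit D y) ⟨y, MulAction.mem_orbit_self y⟩
  have hrep' : ∀ d ∈ D, ∀ y, rep (d • y) = rep y := by
    intro d hd y
    have h1 : MulAction.orbit D (d • y) = MulAction.orbit D y :=
      MulAction.orbit_smul (⟨d, hd⟩ : D) y
    show sel (MulAction.orbit D (d • y)) (d • y) = sel (MulAction.orbit D y) y
    rw [h1]
  have hex : ∀ y, ∃ e ∈ D, e • rep y = y := by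
    intro y
    obtain ⟨d, hd⟩ := hrep y
    refine ⟨(d : GQ)⁻¹, D.inv_mem d.2, ?_⟩
    rw [← hd]
    exact inv_smul_smul (d : GQ) y
  choose e he1 he2 using hex
  have key : ∀ d ∈ D, ∀ y, e (d • y) • t (rep (d • y)) = d • e y • t (rep y) := by
    intro d hd y
    rw [hrep' d hd y]
    have h1 : ((d * e y)⁻¹ * e (d • y)) • rep y = rep y := by
      have h2 := he2 (d • y)
      rw [hrep' d hd y] at h2
      rw [mul_smul, h2, inv_smul_eq_iff, mul_smul, he2 y]
    have h3 := ht2 (rep y) _ (D.mul_mem (D.inv_mem (D.mul_mem hd (he1 y))) (he1 (d • y))) h1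
    rw [mul_smul, inv_smul_eq_iff, mul_smul] at h3
    exact h3
  refine ⟨IndMod.of fun y => e y • t (rep y), ?_, ?_⟩
  · intro d hd
    refine IndMod.ext fun x => ?_
    rw [IndMod.smul_apply, IndMod.of_apply, IndMod.of_apply, key d⁻¹ (D.inv_mem hd) x,
      smul_inv_smul]
  · refine IndMod.ext fun y => ?_
    rw [IndMod.nsmul_apply, IndMod.of_apply, smul_comm, ht1, ← apply_smul hF (he1 y), he2]

end LocPowAux

open LocPowAux

section LocPow

variable {K : Type} [Field K] [NumberField K] [Algebra K Qb]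

/-- E3a : local `p`-th powers, one place. -/
theorem mem_locPow_iff {p : ℕ} (hp : p.Prime) (hp2 : p ≠ 2) {B : ValuationSubring Qb} {q : ℕ}
    (hq : q.Prime) (hB : B.LiesOverPrime q) {v : Pl K} (hv : Below K v B) (a : Kˣ) :
    a ∈ NIT.locPow K p v ↔ ∃ s : Qb, InHens K B s ∧ s ^ p = algebraMap K Qb (a : K) := by
  have hvq : OverQ K q v := (hv.overQ_iff q).mpr hB
  constructor
  · intro ha
    rw [NIT.mem_locPow] at ha
    obtain ⟨N, hN⟩ := hv.exists_close_of_valuation_lt hq 2
    obtain ⟨y, hy⟩ := ha N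
    rw [NIT.mem_pu] at hy
    have hc := hN _ _ hy
    rw [map_one] at hc
    obtain ⟨s₀, hs₀, hfix⟩ := exists_root_fixed hp hp2 hq hB _ hc (Dec B ⊓ fixG K) inf_le_left
      (fun d hd => hd.2 _)
    refine ⟨algebraMap K Qb (y : K) * s₀, fun g hg1 hg2 => ?_, ?_⟩
    · rw [map_mul, hg2, hfix g ⟨hg1, hg2⟩]
    · rw [mul_pow, hs₀, ← map_pow, ← map_mul]
      congr 1
      rw [Units.val_div_eq_div_val, Units.val_pow_eq_pow_val]
      have : (y : K) ^ p ≠ 0 := pow_ne_zero _ y.ne_zero
      field_simp
  · rintro ⟨s, hs, hsp⟩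
    rw [NIT.mem_locPow]
    intro n
    have ha0 : algebraMap K Qb (a : K) ≠ 0 := (map_ne_zero _).mpr a.ne_zero
    have hs0 : s ≠ 0 := by
      rintro rfl
      rw [zero_pow hp.ne_zero] at hsp
      exact ha0 hsp.symm
    obtain ⟨k, hk⟩ := exists_pow_mul_mem hq hB s⁻¹
    obtain ⟨z, hz⟩ := exists_close_of_inHens hv hq hvq s hs (n + 1 + k)
    have h1 : Close B q (n + 1) (algebraMap K Qb z / s) 1 := Close.div_one hs0 hk hz.symm
    have hz0 : z ≠ 0 := by
      rintro rfl
      rw [map_zero, zero_div] at h1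
      exact not_close_zero_one hB h1
    have h2 := close_pow_one (h1.inv_one hB (Nat.succ_le_succ (Nat.zero_le n))) p
    refine ⟨Units.mk0 z hz0, ?_⟩
    rw [NIT.mem_pu]
    refine hv.valuation_lt_of_close hvq n ?_
    rw [map_one]
    convert h2 using 1
    rw [Units.val_div_eq_div_val, Units.val_pow_eq_pow_val, Units.val_mk0, map_div₀, map_pow,
      inv_div, div_pow, hsp]

/-- E3b : local `p`-th powers, all places over `q`. -/
theorem exists_nsmul_eq_glob_iff {p : ℕ} (hp : p.Prime) (hp2 : p ≠ 2) {B : ValuationSubring Qb}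
    {q : ℕ} (hq : q.Prime) (hB : B.LiesOverPrime q) (a : Kˣ) :
    (∃ f ∈ invD (Dec B) (GQ ⧸ fixG K), p • f = glob K a) ↔
      ∀ v : Pl K, OverQ K q v → a ∈ NIT.locPow K p v := by
  constructor
  · rintro ⟨f, hf, hfa⟩ v hvq
    obtain ⟨g, hg⟩ := exists_below_smul hq hB v hvq
    rw [NIT.mem_locPow]
    intro n
    obtain ⟨c, hc⟩ := exists_glob_close hq hB f hf (n + 1)
    refine ⟨c, ?_⟩
    rw [NIT.mem_pu]
    refine hg.valuation_lt_of_close hvq n ?_
    rw [close_smul_iff, inv_inv, map_one, map_one]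
    have h1 := close_pow_one (hc (g : GQ ⧸ fixG K)) p
    convert h1 using 1
    have h2 : (f (g : GQ ⧸ fixG K)).val ^ p = g (algebraMap K Qb (a : K)) := by
      rw [← val_nsmul, ← IndMod.nsmul_apply, hfa, glob_mk, Kx.val_smul, kx_val]
    rw [IndMod.sub_apply, val_sub, div_pow, h2, glob_mk, Kx.val_smul, kx_val,
      Units.val_div_eq_div_val, Units.val_pow_eq_pow_val, map_div₀, map_div₀, map_pow, map_pow]
  · intro h
    refine exists_invD_nsmul_eq (Dec B) (glob K a) ?_ p ?_
    · intro d _
      refine IndMod.ext fun x => ?_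
      induction x using QuotientGroup.induction_on with
      | H g =>
        rw [IndMod.smul_apply]
        show d • glob K a ((d⁻¹ * g : GQ) : GQ ⧸ fixG K) = _
        rw [glob_mk, glob_mk, smul_smul, mul_inv_cancel_left]
    · intro x
      induction x using QuotientGroup.induction_on with
      | H g =>
        have hB' : (g⁻¹ • B).LiesOverPrime q := liesOverPrime_smul B g⁻¹ q hB
        obtain ⟨v, hv⟩ := exists_place (K := K) (g⁻¹ • B) hq hB'
        obtain ⟨s, hs, hsp⟩ := (mem_locPow_iff hp hp2 hq hB' hv a).mp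
          (h v ((hv.overQ_iff q).mpr hB'))
        have ha0 : algebraMap K Qb (a : K) ≠ 0 := (map_ne_zero _).mpr a.ne_zero
        have hs0 : s ≠ 0 := by
          rintro rfl
          rw [zero_pow hp.ne_zero] at hsp
          exact ha0 hsp.symm
        have hgs0 : g s ≠ 0 := (map_ne_zero _).mpr hs0
        refine ⟨Additive.ofMul (Units.mk0 (g s) hgs0), ?_, ?_⟩
        · apply val_injective
          rw [val_nsmul, glob_mk, Kx.val_smul, kx_val, ← hsp, map_pow]
          rfl
        · intro d hd hdx
          have h1 : ((d * g : GQ) : GQ ⧸ fixG K) = (g : GQ ⧸ fixG K) := hdx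
          rw [QuotientGroup.eq] at h1
          have h2 : g⁻¹ * d * g ∈ fixG K := by
            have := (fixG K).inv_mem h1
            convert this using 1
            group
          have h3 : g⁻¹ * d * g ∈ Dec (g⁻¹ • B) := by
            rw [mem_Dec, smul_smul, mul_assoc, mul_assoc, mul_inv_cancel, mul_one, mul_smul,
              mem_Dec.mp hd]
          have h4 : (g⁻¹ * d * g) s = s := hs _ h3 h2
          apply val_injective
          rw [Kx.val_smul]
          show d (g s) = g s
          have h5 : g ((g⁻¹ * d * g) s) = d (g s) := by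
            show (g * (g⁻¹ * d * g)) s = (d * g) s
            congr 1
            group
          rw [← h5, h4]

end LocPow

end Fermat.Agent.S55.Dict
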