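/-
S55 / block DICT, task DICT-Wild (helper31): `NIT.WildInput p K` from `LocNonNorm p`.
PROOF FILE against the stubs; becomes `Fermat/Agent/S55/Dict/Wild.lean` (only the import lines
change) as soon as `Dict/Field`, `Dict/Split`, `Dict/LocNormB`, `Dict/LocNormC` are landed.
-/
import Fermat.Agent.S55.Dict.FinalDefs
import Fermat.Agent.S55.Dict.Field
import Fermat.Agent.S55.Dict.Split
import Fermat.Agent.S55.Dict.LocNormB
import Fermat.Agent.S55.Dict.LocNormC

set_option autoImplicit false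

namespace Fermat.Agent.S55.Dict

open scoped Pointwise
open NumberField IsDedekindDomain WithZero
open Fermat.Agent.S55.NIT (Pl)

section Wild

variable {p : ℕ}

/-- embedded form -/
theorem locNorm_ne_top_of_locNonNorm (hp : p.Prime) (hp2 : p ≠ 2) (H : LocNonNorm p)
    (K L : Type) [Field K] [NumberField K] [Field L] [NumberField L] [Algebra K L]
    [Algebra K Qb] [Algebra L Qb] [IsScalarTower K L Qb] [IsGalois K L]
    (hdeg : Module.finrank K L = p) (q : Nat.Primes) (v : Pl K) (hv : Below K v (pl q))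
    (h1 : (v.asIdeal.primesOver (𝓞 L)).ncard = 1) : NIT.locNorm K L v ≠ ⊤ := by
  intro htop
  have hv' : Below K v ((1 : GQ)⁻¹ • pl q) := by rwa [inv_one, one_smul]
  obtain ⟨f₀, hf₀, hne⟩ := H q (fixG L) (fixG K) (fixG_le K L) (isOpen_fixG L)
    ((isGalois_iff_normal K L).1 inferInstance) ((relIndex_fixG K L).trans hdeg)
    (nonsplitAt_of_ncard_eq_one (g := 1) hv' h1)
  obtain ⟨a, f₁, hf₁, e⟩ := exists_glob_add_push hp hp2 hdeg q.2 (pl_liesOverPrime q) f₀ hf₀
  obtain ⟨f₂, hf₂, e₂⟩ := isLocNormAt_of_mem_locNorm hp hp2 hdeg q.2 (pl_liesOverPrime q)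
    (g := 1) hv' a (htop ▸ Subgroup.mem_top a)
  apply hne (f₂ + f₁) ((invD (Dec (pl q)) (GQ ⧸ fixG L)).add_mem hf₂ hf₁)
  rw [map_add, IndMod.add_apply, e, IndMod.add_apply, glob_mk]
  congr 1

/-- THE IMPORT OF BLOCK NIT. -/
theorem wildInput (hp : p.Prime) (hp2 : p ≠ 2) (H : LocNonNorm p)
    (K : Type) [Field K] [NumberField K] : NIT.WildInput p K := by
  intro L _ _ _ _ hdeg v hv h1
  obtain ⟨_, _, _, hB⟩ := exists_algebra_below K L ⟨p, hp⟩ v hv
  exact locNorm_ne_top_of_locNonNorm hp hp2 H K L hdeg ⟨p, hp⟩ v hB h1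

end Wild

end Fermat.Agent.S55.Dict
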