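/-
S55 / block DICT : THE FINAL EXPORTS.

`nitOut_of_locPkg : (∀ q, LocPkg p q) → NITOut p`, and the field-free forms of the Hasse norm
theorem (N3), of the second inequality (N1) and of the existence of nonsplit primes (N5) with the
local package as only hypothesis.
-/
import Fermat.Agent.S55.NIT.Main
import Fermat.Agent.S55.Dict.Wild
import Fermat.Agent.S55.Dict.Hasse
import Fermat.Agent.S55.Dict.Index
import Fermat.Agent.S55.Dict.Nonsplit
import Fermat.Agent.S55.Dict.LocPow
import Fermat.Agent.S55.Dict.LocalGroup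
import Fermat.Agent.S55.Dict.LocPkgNonNorm

set_option autoImplicit false

namespace Fermat.Agent.S55.Dict

variable {p : ℕ}

/-- The output of block NIT, from the local non-norm statement. -/
theorem nitOut (hp : p.Prime) (hp2 : p ≠ 2) (H : LocNonNorm p) : NITOut p where
  hnt K L _ _ _ _ _ hK x hx := NIT.hasse_norm hK (wildInput hp hp2 H K) x hx
  idx K L _ _ _ _ _ hK T := NIT.index_img_locNorm_dvd hK (wildInput hp hp2 H K) T
  nonsplit K L _ _ _ _ _ hK T := by
    obtain ⟨v, hv, h1⟩ := NIT.exists_nonsplit hK T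
    exact ⟨v, hv, h1⟩

/-- The output of block NIT, from the local package. -/
theorem nitOut_of_locPkg (hp : p.Prime) (hp2 : p ≠ 2) (L : ∀ q : Nat.Primes, LocPkg p q) :
    NITOut p :=
  nitOut hp hp2 (locNonNorm_of_locPkg hp L)

/-- The output of block NIT, from (AR4) of `Loc.LocalInput`. -/
theorem nitOut_of_AR4 (hp : p.Prime) (hp2 : p ≠ 2) (h : ∀ q : Nat.Primes, AR4 q) : NITOut p :=
  nitOut hp hp2 (locNonNorm_of_AR4 hp h)

end Fermat.Agent.S55.Dict
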