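/-
S55 / block DICT : the local Galois group `Gv q` versus the decomposition group `Dec (pl q)`;
`LocNonNorm` from (AR4) of `Loc.LocalInput`.
-/
import Fermat.Agent.S55.Dict.FinalDefs
import Fermat.Agent.S55.Coh.H0
import Fermat.Agent.S55.Loc.Interface
import Fermat.Agent.S55.Bridge.LocalImage
import Fermat.Agent.S55.Dict.Orbit

set_option autoImplicit false
set_option linter.style.haveILetI false

namespace Fermat.Agent.S55.Dict

open scoped Pointwise
open NumberField IsDedekindDomain WithZero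
open Fermat.Agent.S55.NIT (Pl)

section LocalGroup

theorem range_ιv (q : Nat.Primes) : (ιv q).range = Dec (pl q) := by
  letI : Fact (q : ℕ).Prime := ⟨q.2⟩
  exact Fermat.Agent.S55.Bridge.range_localGaloisToGlobal (q : ℕ)

theorem mem_invD_pl_iff {X : Type} [MulAction GQ X] (q : Nat.Primes) (f : IndMod X Kx) :
    f ∈ invD (Dec (pl q)) X ↔ ∀ γ : Gv q, ιv q γ • f = f := by
  rw [mem_invD, ← range_ιv]
  constructor
  · intro h γ
    exact h _ ⟨γ, rfl⟩
  · rintro h _ ⟨γ, rfl⟩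
    exact h γ

/-- `H^0_q(K_X)` = the `Dec (pl q)`-invariant functions -/
theorem mem_invD_pl_iff_inv0 {X : Type} [MulAction GQ X] (q : Nat.Primes) (f : IndMod X Kx) :
    f ∈ invD (Dec (pl q)) X ↔
      ResMod.toRes (ιv q) f ∈ inv0 (Gv q) (ResMod (ιv q) (IndMod X Kx)) := by
  rw [mem_invD_pl_iff]
  rfl

theorem mem_invD_top_iff_inv0 {X : Type} [MulAction GQ X] (f : IndMod X Kx) :
    f ∈ invD ⊤ X ↔ f ∈ inv0 GQ (IndMod X Kx) := by
  rw [mem_invD, mem_inv0]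
  exact ⟨fun h g => h g (Subgroup.mem_top g), fun h g _ => h g⟩

/-- (AR4) of `Loc.LocalInput`, for the local Galois group at `q`. -/
def AR4 (q : Nat.Primes) : Prop :=
  ∀ U V : Subgroup (Gv q), (lvlLoc q).IsOpen V → V ≤ U → (V.subgroupOf U).Normal → ∀ ℓ : ℕ,
    ℓ.Prime → V.relIndex U = ℓ →
    (Loc.normSub (ResMod (ιv q) Kx) V U).relIndex (Loc.fixA (ResMod (ιv q) Kx) U) = ℓ

/-- A coset `w W'` with `w ∈ W` is represented by an element of `D ⊓ W` at a nonsplit point. -/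
theorem LocalGroup_exists_rep {D W' W : Subgroup GQ} (h : W' ≤ W) [Finite (GQ ⧸ W')]
    (hns : NonsplitAt D (cosetMap h) ((1 : GQ) : GQ ⧸ W)) (y : GQ ⧸ W')
    (hy : cosetMap h y = ((1 : GQ) : GQ ⧸ W)) :
    ∃ d ∈ D, d ∈ W ∧ ((d : GQ) : GQ ⧸ W') = y := by
  obtain ⟨d, hd, hdy⟩ := hns ((1 : GQ) : GQ ⧸ W') y rfl hy
  have e : ((d : GQ) : GQ ⧸ W') = y := by
    rw [← hdy]
    show _ = (((d * 1 : GQ)) : GQ ⧸ W')
    rw [mul_one]
  refine ⟨d, hd, ?_, e⟩
  rw [← e, cosetMap_mk] at hy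
  have := QuotientGroup.eq.mp hy
  simpa using this

/-- The index of `W' ⊓ D` in `W ⊓ D` is the index of `W'` in `W` at a nonsplit point. -/
theorem LocalGroup_relIndex_inf {D W' W : Subgroup GQ} (h : W' ≤ W) [Finite (GQ ⧸ W')]
    (hn : (W'.subgroupOf W).Normal)
    (hns : NonsplitAt D (cosetMap h) ((1 : GQ) : GQ ⧸ W)) :
    W'.relIndex (D ⊓ W) = W'.relIndex W := by
  have htop : (D ⊓ W).subgroupOf W ⊔ W'.subgroupOf W = ⊤ := by
    rw [eq_top_iff]
    rintro ⟨w, hw⟩ -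
    obtain ⟨d, hd, hdW, e⟩ := LocalGroup_exists_rep h hns ((w : GQ) : GQ ⧸ W') (by
      rw [cosetMap_mk]
      exact QuotientGroup.eq.mpr (by simpa using hw))
    have h1 : d⁻¹ * w ∈ W' := QuotientGroup.eq.mp e
    have h2 : (⟨w, hw⟩ : W) = ⟨d, hdW⟩ * ⟨d⁻¹ * w, h h1⟩ := by
      apply Subtype.ext
      show w = d * (d⁻¹ * w)
      group
    rw [h2]
    exact Subgroup.mul_mem_sup (Subgroup.mem_subgroupOf.mpr ⟨hd, hdW⟩)
      (Subgroup.mem_subgroupOf.mpr h1)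
  rw [← Subgroup.relIndex_subgroupOf (inf_le_right : D ⊓ W ≤ W),
    ← Subgroup.relIndex_sup_right, htop, Subgroup.relIndex_top_right]
  rfl

theorem locNonNorm_of_AR4 {p : ℕ} (hp : p.Prime) (h : ∀ q : Nat.Primes, AR4 q) :
    LocNonNorm p := by
  intro q W' W hle _ hopen hnormal hidx hns
  set ι := ιv q with hι
  set U : Subgroup (Gv q) := W.comap ι with hU
  set V : Subgroup (Gv q) := W'.comap ι with hV
  have hVopen : (lvlLoc q).IsOpen V := by
    obtain ⟨N, hN, hNle⟩ := hopen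
    exact ⟨N.comap ι, ⟨N, hN, rfl⟩, Subgroup.comap_mono hNle⟩
  have hVU : V ≤ U := Subgroup.comap_mono hle
  have hVn : (V.subgroupOf U).Normal := by
    refine ⟨fun n hn g => ?_⟩
    rw [Subgroup.mem_subgroupOf] at hn ⊢
    have h1 := hnormal.conj_mem ⟨ι n.1, n.2⟩ (Subgroup.mem_subgroupOf.mpr hn) ⟨ι g.1, g.2⟩
    rw [Subgroup.mem_subgroupOf] at h1
    show ι (g.1 * n.1 * g.1⁻¹) ∈ W'
    rw [map_mul, map_mul, map_inv]
    exact h1
  have hrel : V.relIndex U = p := by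
    rw [hV, Subgroup.relIndex_comap, hU, Subgroup.map_comap_eq, range_ιv,
      LocalGroup_relIndex_inf hle hnormal hns, hidx]
  have h4 := h q U V hVopen hVU hVn p hp hrel
  have hnot : ¬ Loc.fixA (ResMod ι Kx) U ≤ Loc.normSub (ResMod ι Kx) V U := by
    intro hle'
    rw [AddSubgroup.relIndex_eq_one.mpr hle'] at h4
    exact hp.one_lt.ne h4
  obtain ⟨ξ, hξU, hξN⟩ := SetLike.not_le_iff_exists.mp hnot
  obtain ⟨f₀, hf₀, hf₀1, -⟩ := exists_invD_apply_eq (D := Dec (pl q)) (X := GQ ⧸ W)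
    ((1 : GQ) : GQ ⧸ W) ((ResMod.toRes ι).symm ξ) (by
      intro d hd hfix
      rw [← range_ιv] at hd
      obtain ⟨γ, rfl⟩ := hd
      have hγ : γ ∈ U := by
        have h1 : (((ι γ * 1 : GQ)) : GQ ⧸ W) = ((1 : GQ) : GQ ⧸ W) := hfix
        rw [mul_one] at h1
        have h2 := QuotientGroup.eq.mp h1
        have h3 : ι γ ∈ W := by simpa using h2
        exact h3
      exact hξU γ hγ)
  refine ⟨f₀, hf₀, fun f hf heq => hξN ?_⟩
  rw [hf₀1] at heq
  -- the value at the base point is `V`-invariant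
  have hfix : ResMod.toRes ι (f ((1 : GQ) : GQ ⧸ W')) ∈ Loc.fixA (ResMod ι Kx) V := by
    intro v hv
    show ι v • f ((1 : GQ) : GQ ⧸ W') = f ((1 : GQ) : GQ ⧸ W')
    have hd : ι v ∈ Dec (pl q) := by
      rw [← range_ιv]
      exact ⟨v, rfl⟩
    rw [← apply_smul_of_mem_invD _ hf hd]
    congr 1
    show (((ι v * 1 : GQ)) : GQ ⧸ W') = ((1 : GQ) : GQ ⧸ W')
    rw [mul_one]
    have hv' : ι v ∈ W' := hv
    exact QuotientGroup.eq.mpr (by simpa using hv')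
  -- the bijection between `U / V` and the fibre
  let Φ : (↥U ⧸ V.subgroupOf U) → {y : GQ ⧸ W' // cosetMap hle y = ((1 : GQ) : GQ ⧸ W)} :=
    fun c => ⟨((ι ((Quotient.out c : ↥U) : Gv q) : GQ) : GQ ⧸ W'), by
      rw [cosetMap_mk]
      have hc : ι ((Quotient.out c : ↥U) : Gv q) ∈ W := (Quotient.out c : ↥U).2
      exact QuotientGroup.eq.mpr (by simpa using hc)⟩
  have hΦ : Function.Bijective Φ := by
    constructor
    · intro c c' hcc
      have h1 : ((ι ((Quotient.out c : ↥U) : Gv q) : GQ) : GQ ⧸ W') =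
          ((ι ((Quotient.out c' : ↥U) : Gv q) : GQ) : GQ ⧸ W') := congrArg Subtype.val hcc
      have h2 := QuotientGroup.eq.mp h1
      have h3 : (Quotient.out c : ↥U)⁻¹ * (Quotient.out c' : ↥U) ∈ V.subgroupOf U := by
        rw [Subgroup.mem_subgroupOf]
        show ι (((Quotient.out c : ↥U) : Gv q)⁻¹ * ((Quotient.out c' : ↥U) : Gv q)) ∈ W'
        rw [map_mul, map_inv]
        exact h2
      have h4 : ((Quotient.out c : ↥U) : ↥U ⧸ V.subgroupOf U) =
          ((Quotient.out c' : ↥U) : ↥U ⧸ V.subgroupOf U) := QuotientGroup.eq.mpr h3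
      rw [QuotientGroup.out_eq', QuotientGroup.out_eq'] at h4
      exact h4
    · rintro ⟨y, hy⟩
      obtain ⟨d, hd, hdW, e⟩ := LocalGroup_exists_rep hle hns y hy
      rw [← range_ιv] at hd
      obtain ⟨γ, rfl⟩ := hd
      refine ⟨((⟨γ, hdW⟩ : ↥U) : ↥U ⧸ V.subgroupOf U), Subtype.ext ?_⟩
      show ((ι ((Quotient.out ((⟨γ, hdW⟩ : ↥U) : ↥U ⧸ V.subgroupOf U) : ↥U) : Gv q) : GQ) :
        GQ ⧸ W') = y
      rw [← e]
      have h1 : ((Quotient.out ((⟨γ, hdW⟩ : ↥U) : ↥U ⧸ V.subgroupOf U) : ↥U) :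
          ↥U ⧸ V.subgroupOf U) = ((⟨γ, hdW⟩ : ↥U) : ↥U ⧸ V.subgroupOf U) :=
        QuotientGroup.out_eq' _
      have h2 := QuotientGroup.eq.mp h1
      rw [Subgroup.mem_subgroupOf] at h2
      apply QuotientGroup.eq.mpr
      have h3 : ι (((Quotient.out ((⟨γ, hdW⟩ : ↥U) : ↥U ⧸ V.subgroupOf U) : ↥U) : Gv q)⁻¹ * γ)
          ∈ W' := h2
      rw [map_mul, map_inv] at h3
      exact h3
  have hnm : Loc.nmA (ResMod ι Kx) V U (ResMod.toRes ι (f ((1 : GQ) : GQ ⧸ W'))) = ξ := by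
    have h1 : (ResMod.toRes ι).symm ξ =
        ∑ᶠ y : {y : GQ ⧸ W' // cosetMap hle y = ((1 : GQ) : GQ ⧸ W)}, f y.1 := by
      rw [← heq, IndMod.push_apply]
    have h2 : ∑ᶠ y : {y : GQ ⧸ W' // cosetMap hle y = ((1 : GQ) : GQ ⧸ W)}, f y.1 =
        ∑ᶠ c : ↥U ⧸ V.subgroupOf U, f (Φ c).1 :=
      (finsum_comp_equiv (Equiv.ofBijective Φ hΦ) (f := fun y => f y.1)).symm
    have h3 : ∀ c : ↥U ⧸ V.subgroupOf U, f (Φ c).1 =
        ι ((Quotient.out c : ↥U) : Gv q) • f ((1 : GQ) : GQ ⧸ W') := by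
      intro c
      have hd : ι ((Quotient.out c : ↥U) : Gv q) ∈ Dec (pl q) := by
        rw [← range_ιv]
        exact ⟨_, rfl⟩
      rw [← apply_smul_of_mem_invD _ hf hd]
      have e : (Φ c).1 = (((ι ((Quotient.out c : ↥U) : Gv q) * 1 : GQ)) : GQ ⧸ W') := by
        rw [mul_one]
      rw [e]
      rfl
    have h5 : (ResMod.toRes ι).symm ξ = ∑ᶠ c : ↥U ⧸ V.subgroupOf U,
        ι ((Quotient.out c : ↥U) : Gv q) • f ((1 : GQ) : GQ ⧸ W') := by
      rw [h1, h2]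
      exact finsum_congr h3
    exact h5.symm
  rw [← hnm]
  exact AddSubgroup.subset_closure ⟨_, hfix, rfl⟩

end LocalGroup

end Fermat.Agent.S55.Dict
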